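import Fermat.Agent.Switch35.Main
import Mathlib.RingTheory.Coprime.Lemmas
import Mathlib.RingTheory.Int.Basic

/-!
# The 3–5 switch with a prescribed local model at three

`exists_switch_local`: given a 3-adic class of parameters on which the invariants are
`3^(4k) A`, `3^(6k) B` with `(A, B)` close to those of a local model, there is a semistable member,
irreducible at three, with traces congruent modulo five and that local model at three.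
-/

set_option autoImplicit false

namespace Fermat.Agent.Switch35

open WeierstrassCurve Filter

attribute [local irreducible] liftP liftQ famC4 famC6

/-- Multiply `aᵢ` by `v ^ i`. -/
def scaleModel {R : Type*} [CommRing R] (W : WeierstrassCurve R) (v : R) : WeierstrassCurve R :=
  ⟨v * W.a₁, v ^ 2 * W.a₂, v ^ 3 * W.a₃, v ^ 4 * W.a₄, v ^ 6 * W.a₆⟩

/-- `c₄` of a rescaled model. -/
theorem scaleModel_c₄ {R : Type*} [CommRing R] (W : WeierstrassCurve R) (v : R) :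
    (scaleModel W v).c₄ = v ^ 4 * W.c₄ := by
  simp only [scaleModel, WeierstrassCurve.c₄, WeierstrassCurve.b₂, WeierstrassCurve.b₄]; ring

/-- `c₆` of a rescaled model. -/
theorem scaleModel_c₆ {R : Type*} [CommRing R] (W : WeierstrassCurve R) (v : R) :
    (scaleModel W v).c₆ = v ^ 6 * W.c₆ := by
  simp only [scaleModel, WeierstrassCurve.c₆, WeierstrassCurve.b₂, WeierstrassCurve.b₄,
    WeierstrassCurve.b₆]; ring

/-- The discriminant of a rescaled model. -/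
theorem scaleModel_Δ {R : Type*} [CommRing R] (W : WeierstrassCurve R) (v : R) :
    (scaleModel W v).Δ = v ^ 12 * W.Δ := by
  simp only [scaleModel, WeierstrassCurve.Δ, WeierstrassCurve.b₂, WeierstrassCurve.b₄,
    WeierstrassCurve.b₆, WeierstrassCurve.b₈]; ring

theorem apOfModel_scaleModel (W : WeierstrassCurve ℤ) {v : ℤ} {p : ℕ} (hp : p.Prime)
    (hv : ¬ (p : ℤ) ∣ v) (hW : W.IsGoodPrimeFor p) :
    (scaleModel W v).apOfModel p = W.apOfModel p := by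
  have : Fact p.Prime := ⟨hp⟩
  have hv' : (v : ZMod p) ≠ 0 := fun h => hv ((ZMod.intCast_zmod_eq_zero_iff_dvd v p).mp h)
  have hΔ : (W.reductionMod p).Δ ≠ 0 := by
    rw [reductionMod, map_Δ, eq_intCast]
    exact fun h => hW ((ZMod.intCast_zmod_eq_zero_iff_dvd _ p).mp h)
  let C : VariableChange (ZMod p) := ⟨(Units.mk0 _ hv')⁻¹, 0, 0, 0⟩
  have e : (scaleModel W v).reductionMod p = C • W.reductionMod p := by
    rw [variableChange_def]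
    simp [C, scaleModel, reductionMod, WeierstrassCurve.map]
  rw [apOfModel, apOfModel, e, ModelChange.traceOfFrobenius_variableChange _ _ hΔ]

theorem exists_int_crt {M M' : ℤ} (h : IsCoprime M M') (a b : ℤ) :
    ∃ x : ℤ, M ∣ x - a ∧ M' ∣ x - b := by
  obtain ⟨u, v, huv⟩ := h
  exact ⟨a + u * M * (b - a), ⟨u * (b - a), by ring⟩,
    ⟨v * (a - b), by linear_combination (b - a) * huv⟩⟩

theorem intCast_zmod_congr {p : ℕ} {x y : ℤ} (h : (p : ℤ) ∣ x - y) : (x : ZMod p) = y := by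
  rw [← sub_eq_zero, ← Int.cast_sub]
  exact (ZMod.intCast_zmod_eq_zero_iff_dvd _ _).mpr h

theorem dvd_invariants_sub {M : ℤ} {U V : WeierstrassCurve ℤ} (h₁ : M ∣ U.a₁ - V.a₁)
    (h₂ : M ∣ U.a₂ - V.a₂) (h₃ : M ∣ U.a₃ - V.a₃) (h₄ : M ∣ U.a₄ - V.a₄)
    (h₆ : M ∣ U.a₆ - V.a₆) : M ∣ U.c₄ - V.c₄ ∧ M ∣ U.c₆ - V.c₆ := by
  have g : ∀ x y : ℤ, M ∣ x - y →
      Ideal.Quotient.mk (Ideal.span {M}) x = Ideal.Quotient.mk (Ideal.span {M}) y :=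
    fun x y hd => Ideal.Quotient.eq.mpr (Ideal.mem_span_singleton.mpr hd)
  constructor <;> rw [← Ideal.mem_span_singleton, ← Ideal.Quotient.eq]
  · simp only [WeierstrassCurve.c₄, WeierstrassCurve.b₂, WeierstrassCurve.b₄, map_add, map_sub,
      map_mul, map_pow, g _ _ h₁, g _ _ h₂, g _ _ h₃, g _ _ h₄]
  · simp only [WeierstrassCurve.c₆, WeierstrassCurve.b₂, WeierstrassCurve.b₄, WeierstrassCurve.b₆,
      map_add, map_sub, map_mul, map_pow, map_neg, g _ _ h₁, g _ _ h₂, g _ _ h₃, g _ _ h₄, g _ _ h₆]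

theorem exists_eq_three_pow_mul {x : ℤ} (hx : x ≠ 0) :
    ∃ (a : ℕ) (y : ℤ), x = 3 ^ a * y ∧ ¬ (3 : ℤ) ∣ y := by
  obtain ⟨a, c, hc, hcx⟩ :=
    WfDvdMonoid.max_power_factor hx Int.prime_three.irreducible
  exact ⟨a, c, hcx, hc⟩

/-- A class modulo `3 ^ N` contains a nonzero multiple of any `M` prime to three. -/
theorem exists_ne_zero_dvd {M : ℤ} (hM : ¬ (3 : ℤ) ∣ M) (N : ℕ) (m₀ : ℤ) :
    ∃ m : ℤ, 3 ^ N ∣ m - m₀ ∧ M ∣ m ∧ m ≠ 0 := by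
  have hM0 : M ≠ 0 := fun h => hM (h ▸ dvd_zero _)
  obtain ⟨x, hx, hx'⟩ :=
    exists_int_crt ((Int.prime_three.coprime_iff_not_dvd.mpr hM).pow_left (m := N)) m₀ 0
  rw [sub_zero] at hx'
  by_cases h : x = 0
  · exact ⟨x + 3 ^ N * M, by rw [add_sub_right_comm]; exact dvd_add hx (dvd_mul_right _ _),
      dvd_add hx' (dvd_mul_left _ _), by simp [h, hM0]⟩
  · exact ⟨x, hx, hx', h⟩

/-- Parameters congruent to `(1, 0)` modulo `M` leave the invariants unchanged modulo `M`. -/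
theorem dvd_fam_sub (W : WeierstrassCurve ℤ) {M l m : ℤ} (hl : M ∣ l - 1) (hm : M ∣ m) :
    M ∣ W.c₄ - famC4 l m W.c₄ W.c₆ ∧ M ∣ W.c₆ - famC6 l m W.c₄ W.c₆ := by
  let g := Ideal.Quotient.mk (Ideal.span {M})
  have hgl : g l = 1 := by
    rw [← map_one g]; exact Ideal.Quotient.eq.mpr (Ideal.mem_span_singleton.mpr hl)
  have hgm : g m = 0 := Ideal.Quotient.eq_zero_iff_mem.mpr (Ideal.mem_span_singleton.mpr hm)
  constructor <;> rw [← Ideal.mem_span_singleton, ← Ideal.Quotient.eq]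
  · show g W.c₄ = g _
    rw [map_famC4, hgl, hgm, famC4_one_zero]
  · show g W.c₆ = g _
    rw [map_famC6, hgl, hgm, famC6_one_zero]

/-- If `v u ≡ 1` and the member `(u⁴ A, u⁶ B)` has the invariants of `W` modulo `M`, then the
rescaled model `scaleModel W v` has invariants `(A, B)` modulo `M`. -/
theorem dvd_scaleModel_invariants_sub (W : WeierstrassCurve ℤ) {M A B u v F G : ℤ}
    (huv : M ∣ v * u - 1) (hA : F = u ^ 4 * A) (hB : G = u ^ 6 * B) (hF : M ∣ W.c₄ - F)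
    (hG : M ∣ W.c₆ - G) :
    M ∣ (scaleModel W v).c₄ - A ∧ M ∣ (scaleModel W v).c₆ - B := by
  have hn : ∀ n : ℕ, M ∣ (v * u) ^ n - 1 := fun n =>
    huv.trans (sub_one_dvd_pow_sub_one (v * u) n)
  constructor
  · rw [scaleModel_c₄, show v ^ 4 * W.c₄ - A = v ^ 4 * (W.c₄ - F) + A * ((v * u) ^ 4 - 1) by
      rw [hA]; ring]
    exact dvd_add (dvd_mul_of_dvd_right hF _) (dvd_mul_of_dvd_right (hn 4) _)
  · rw [scaleModel_c₆, show v ^ 6 * W.c₆ - B = v ^ 6 * (W.c₆ - G) + B * ((v * u) ^ 6 - 1) by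
      rw [hB]; ring]
    exact dvd_add (dvd_mul_of_dvd_right hG _) (dvd_mul_of_dvd_right (hn 6) _)

/-- Two local models, at three and at the primes of `N'`, glue to one with invariants `(A, B)`
when these are congruent to those of both. -/
theorem exists_glued_model (W₂ W₃ : WeierstrassCurve ℤ) {N' A B : ℤ} (hN' : ¬ (3 : ℤ) ∣ N')
    (hA2 : 2 ^ 9 * N' ∣ W₂.c₄ - A) (hB2 : 2 ^ 9 * N' ∣ W₂.c₆ - B) (hA3 : 3 ^ 8 ∣ A - W₃.c₄)
    (hB3 : 3 ^ 8 ∣ B - W₃.c₆) :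
    ∃ V : WeierstrassCurve ℤ, V.c₄ = A ∧ V.c₆ = B ∧ V.reductionMod 3 = W₃.reductionMod 3 ∧
      ∀ p : ℕ, (p : ℤ) ∣ N' → V.reductionMod p = W₂.reductionMod p := by
  have hcr : IsCoprime ((3 : ℤ) ^ 8) (2 ^ 9 * N') :=
    (Int.prime_three.coprime_iff_not_dvd.mpr fun h =>
      (Int.prime_three.dvd_or_dvd h).elim (by norm_num) hN').pow_left
  obtain ⟨c₁, e₁, f₁⟩ := exists_int_crt hcr W₃.a₁ W₂.a₁
  obtain ⟨c₂, e₂, f₂⟩ := exists_int_crt hcr W₃.a₂ W₂.a₂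
  obtain ⟨c₃, e₃, f₃⟩ := exists_int_crt hcr W₃.a₃ W₂.a₃
  obtain ⟨c₄, e₄, f₄⟩ := exists_int_crt hcr W₃.a₄ W₂.a₄
  obtain ⟨c₆, e₆, f₆⟩ := exists_int_crt hcr W₃.a₆ W₂.a₆
  let U : WeierstrassCurve ℤ := ⟨c₁, c₂, c₃, c₄, c₆⟩
  obtain ⟨uA3, uB3⟩ := dvd_invariants_sub (U := U) (V := W₃) e₁ e₂ e₃ e₄ e₆
  obtain ⟨uA2, uB2⟩ := dvd_invariants_sub (U := U) (V := W₂) f₁ f₂ f₃ f₄ f₆
  have h8 : (864 * 48 * (3 * N') : ℤ) ∣ 3 ^ 8 * (2 ^ 9 * N') := ⟨3 ^ 3, by ring⟩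
  have hxA : (864 * 48 * (3 * N') : ℤ) ∣ U.c₄ - A := h8.trans <| hcr.mul_dvd
    (by simpa using dvd_sub uA3 hA3) (by simpa using dvd_add uA2 hA2)
  have hxB : (864 * 48 * (3 * N') : ℤ) ∣ U.c₆ - B := h8.trans <| hcr.mul_dvd
    (by simpa using dvd_sub uB3 hB3) (by simpa using dvd_add uB2 hB2)
  obtain ⟨V, hVA, hVB, hred⟩ := exists_model_congruent U (3 * N') A B hxA hxB
  refine ⟨V, hVA, hVB, ?_, fun p hp => ?_⟩
  · rw [hred 3 (by simp)]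
    have h := fun {x y : ℤ} (h : (3 : ℤ) ^ 8 ∣ x - y) =>
      intCast_zmod_congr (p := 3) (dvd_trans (dvd_pow_self _ (by norm_num)) h)
    ext <;> simp only [reductionMod, WeierstrassCurve.map, eq_intCast, U]
    exacts [h e₁, h e₂, h e₃, h e₄, h e₆]
  · rw [hred p (dvd_mul_of_dvd_right hp _)]
    have h := fun {x y : ℤ} (h : 2 ^ 9 * N' ∣ x - y) =>
      intCast_zmod_congr (p := p) ((dvd_mul_of_dvd_right hp _).trans h)
    ext <;> simp only [reductionMod, WeierstrassCurve.map, eq_intCast, U]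
    exacts [h f₁, h f₂, h f₃, h f₄, h f₆]

/-- Models with the same reduction at `p` have discriminants, and `c₄`s, divisible by `p`
together. -/
theorem dvd_iff_of_reductionMod_eq {U V : WeierstrassCurve ℤ} {p : ℕ}
    (h : V.reductionMod p = U.reductionMod p) :
    ((p : ℤ) ∣ V.Δ ↔ (p : ℤ) ∣ U.Δ) ∧ ((p : ℤ) ∣ V.c₄ ↔ (p : ℤ) ∣ U.c₄) := by
  simp only [← ZMod.intCast_zmod_eq_zero_iff_dvd]
  constructor
  · rw [show (V.Δ : ZMod p) = U.Δ by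
      simpa [reductionMod] using congrArg WeierstrassCurve.Δ h]
  · rw [show (V.c₄ : ZMod p) = U.c₄ by
      simpa [reductionMod] using congrArg WeierstrassCurve.c₄ h]

/-- Rescaling by `v` keeps semistability at the primes not dividing `v`. -/
theorem not_dvd_scaleModel_c₄ {W : WeierstrassCurve ℤ} (hW : W.IsSemistableModel) {v : ℤ}
    {p : ℕ} (hp : p.Prime) (hv : ¬ (p : ℤ) ∣ v) (hΔ : (p : ℤ) ∣ (scaleModel W v).Δ) :
    ¬ (p : ℤ) ∣ (scaleModel W v).c₄ := by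
  intro hc
  rw [scaleModel_Δ] at hΔ
  rw [scaleModel_c₄] at hc
  have hpz := Nat.prime_iff_prime_int.mp hp
  exact hW p hp ((hpz.dvd_or_dvd hΔ).resolve_left fun h => hv (hpz.dvd_of_dvd_pow h))
    ((hpz.dvd_or_dvd hc).resolve_left fun h => hv (hpz.dvd_of_dvd_pow h))

/-- A prime other than three outside `10 δ`, where `W.Δ = 3 ^ a * δ`, is prime to 30 and good. -/
theorem good_of_not_dvd_moduli {W : WeierstrassCurve ℤ} {a : ℕ} {δ : ℤ}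
    (haδ : W.Δ = 3 ^ a * δ) {p : ℕ} (hp : p.Prime) (hp3 : p ≠ 3) (hpN : ¬ (p : ℤ) ∣ 10 * δ) :
    ¬ p ∣ 30 ∧ W.IsGoodPrimeFor p ∧ ∀ n : ℕ, ¬ (p : ℤ) ∣ (3 : ℤ) ^ n := by
  have hp3' : ¬ p ∣ 3 := fun h => hp3 ((Nat.prime_dvd_prime_iff_eq hp Nat.prime_three).mp h)
  have hp3z : ∀ n : ℕ, ¬ (p : ℤ) ∣ (3 : ℤ) ^ n := fun n h =>
    hp3' (hp.dvd_of_dvd_pow
      ((Int.natCast_dvd_natCast (m := p) (n := 3 ^ n)).mp (by exact_mod_cast h)))
  refine ⟨fun h => ?_, fun h => ?_, hp3z⟩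
  · rcases (Nat.Prime.dvd_mul hp).mp (show p ∣ 10 * 3 from h) with h | h
    · exact hpN (dvd_mul_of_dvd_left (Int.natCast_dvd_natCast.mpr h) _)
    · exact hp3' h
  · rw [haδ] at h
    rcases (Nat.prime_iff_prime_int.mp hp).dvd_or_dvd h with h | h
    · exact hp3z a h
    · exact hpN (dvd_mul_of_dvd_right h _)

/-- The switch at five with a prescribed 3-adic class and local model. -/
theorem exists_switch_local (W : WeierstrassCurve ℤ) (hΔ : W.Δ ≠ 0) (hW : W.IsSemistableModel)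
    (N k : ℕ) (l₀ m₀ : ℤ) (Q : WeierstrassCurve ℤ → Prop)
    (hclass : ∀ l m : ℤ, 3 ^ N ∣ l - l₀ → 3 ^ N ∣ m - m₀ →
      ∃ (A B : ℤ) (W₃ : WeierstrassCurve ℤ), famC4 l m W.c₄ W.c₆ = 3 ^ (4 * k) * A ∧
        famC6 l m W.c₄ W.c₆ = 3 ^ (6 * k) * B ∧ 3 ^ 8 ∣ A - W₃.c₄ ∧ 3 ^ 8 ∣ B - W₃.c₆ ∧
        ¬ ((3 : ℤ) ∣ W₃.Δ ∧ (3 : ℤ) ∣ W₃.c₄) ∧
        (¬ (3 : ℤ) ∣ W.Δ → ¬ (3 : ℤ) ∣ W₃.Δ → (5 : ℤ) ∣ W₃.apOfModel 3 - W.apOfModel 3) ∧ Q W₃) :
    ∃ (W' W₃ : WeierstrassCurve ℤ) (l m : ℤ),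
      W'.Δ ≠ 0 ∧ W'.IsSemistableModel ∧ W'.ModRepIsIrreducible 3 ∧
      (∀ ℓ : ℕ, ℓ.Prime → W.IsGoodPrimeFor ℓ → W'.IsGoodPrimeFor ℓ → ℓ ≠ 5 →
        (5 : ℤ) ∣ (W'.apOfModel ℓ - W.apOfModel ℓ)) ∧
      W'.reductionMod 3 = W₃.reductionMod 3 ∧ Q W₃ ∧
      3 ^ N ∣ l - l₀ ∧ 3 ^ N ∣ m - m₀ ∧
      famC4 l m W.c₄ W.c₆ = 3 ^ (4 * k) * W'.c₄ ∧ famC6 l m W.c₄ W.c₆ = 3 ^ (6 * k) * W'.c₆ ∧
      3 ^ 8 ∣ W'.c₄ - W₃.c₄ ∧ 3 ^ 8 ∣ W'.c₆ - W₃.c₆ := by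
  -- the moduli `N' = 10 δ`, `M' = 2 ^ 9 N'`
  obtain ⟨a, δ, haδ, hδ⟩ := exists_eq_three_pow_mul hΔ
  have hN'3 : ¬ (3 : ℤ) ∣ 10 * δ := fun h =>
    (Int.prime_three.dvd_or_dvd h).elim (by norm_num) hδ
  set M' : ℤ := 2 ^ 9 * (10 * δ) with hM'
  have hM'3 : ¬ (3 : ℤ) ∣ M' := fun h =>
    (Int.prime_three.dvd_or_dvd h).elim (by norm_num) hN'3
  -- the parameters: in the class at three, `(1, 0)` modulo `M'`, with irreducible members
  obtain ⟨m, hm3, hmM, hm0⟩ := exists_ne_zero_dvd hM'3 N m₀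
  obtain ⟨b, μ, hbμ, hμ⟩ := exists_eq_three_pow_mul hm0
  have hMμ3 : ¬ (3 : ℤ) ∣ M' * μ := fun h => (Int.prime_three.dvd_or_dvd h).elim hM'3 hμ
  obtain ⟨l₁, hl3, hlM⟩ :=
    exists_int_crt ((Int.prime_three.coprime_iff_not_dvd.mpr hMμ3).pow_left (m := N)) l₀ 1
  set M : ℤ := 3 ^ N * (M' * μ) with hM
  have hM0 : M ≠ 0 := mul_ne_zero (pow_ne_zero _ three_ne_zero) fun h => hMμ3 (h ▸ dvd_zero _)
  have h0 := fam_axis_ne (c₄_cube_ne_c₆_sq hΔ) hM0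
  obtain ⟨j, hj⟩ := (frequently_irreducible W hΔ M l₁ 0 m (by simp [hM0, hm0]) h0).exists
  simp only [zero_mul, zero_add] at hj
  set l : ℤ := M * j + l₁ with hl
  have hl3' : 3 ^ N ∣ l - l₀ := by
    rw [hl, add_sub_assoc]; exact dvd_add (dvd_mul_of_dvd_left (dvd_mul_right _ _) _) hl3
  have hlMμ : M' * μ ∣ l - 1 := by
    rw [hl, add_sub_assoc]; exact dvd_add (dvd_mul_of_dvd_left (dvd_mul_left _ _) _) hlM
  obtain ⟨A, B, W₃, hA, hB, hA3, hB3, hs3, ht3, hQ⟩ := hclass l m hl3' hm3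
  -- away from three `W` rescaled by `v = 3 ^ (-k)`, at three `W₃`: glue
  obtain ⟨v, w, hvw⟩ : IsCoprime ((3 : ℤ) ^ k) M' :=
    (Int.prime_three.coprime_iff_not_dvd.mpr hM'3).pow_left
  obtain ⟨hf4, hf6⟩ := dvd_fam_sub W ((dvd_mul_right _ _).trans hlMμ) hmM
  obtain ⟨hA2, hB2⟩ := dvd_scaleModel_invariants_sub W (A := A) (B := B) (v := v)
    (u := (3 : ℤ) ^ k) ⟨-w, by linear_combination hvw⟩ (by rw [hA]; ring) (by rw [hB]; ring)
    hf4 hf6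
  obtain ⟨V, hVA, hVB, hV3, hV2⟩ :=
    exists_glued_model (scaleModel W v) W₃ hN'3 hA2 hB2 hA3 hB3
  have h4' : V.c₄ * (3 ^ k) ^ 4 = famC4 l m W.c₄ W.c₆ := by rw [hVA, hA]; ring
  have h6' : V.c₆ * (3 ^ k) ^ 6 = famC6 l m W.c₄ W.c₆ := by rw [hVB, hB]; ring
  obtain ⟨hVΔ, hVirr⟩ := hj V (3 ^ k) (pow_ne_zero _ three_ne_zero) h4' h6'
  have hv : ∀ p : ℕ, p.Prime → (p : ℤ) ∣ 10 * δ → ¬ (p : ℤ) ∣ v := fun p hp hpN hpv =>
    (Nat.prime_iff_prime_int.mp hp).not_dvd_one (hvw ▸ dvd_add (dvd_mul_of_dvd_left hpv _)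
      (dvd_mul_of_dvd_right (dvd_mul_of_dvd_right hpN _) _))
  refine ⟨V, W₃, l, m, hVΔ, fun p hp hpΔ => ?_, hVirr, fun ℓ hℓ hgW hgV _ => ?_, hV3, hQ,
    hl3', hm3, by rw [hVA]; exact hA, by rw [hVB]; exact hB, hVA ▸ hA3, hVB ▸ hB3⟩
  · -- semistability
    by_cases hp3 : p = 3
    · subst hp3
      obtain ⟨hΔ3, hc3⟩ := dvd_iff_of_reductionMod_eq hV3
      exact fun hc => hs3 ⟨hΔ3.mp hpΔ, hc3.mp hc⟩
    by_cases hpN : (p : ℤ) ∣ 10 * δ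
    · obtain ⟨hΔ2, hc2⟩ := dvd_iff_of_reductionMod_eq (hV2 p hpN)
      exact fun hc => not_dvd_scaleModel_c₄ hW hp (hv p hp hpN) (hΔ2.mp hpΔ) (hc2.mp hc)
    obtain ⟨h30, hgood, h3n⟩ := good_of_not_dvd_moduli haδ hp hp3 hpN
    refine not_dvd_c₄_of_member W V (3 ^ k) l m h4' h6' hp h30 hgood (fun hlm => ?_) hpΔ
    have hpz := Nat.prime_iff_prime_int.mp hp
    have hpμ : (p : ℤ) ∣ μ := (hpz.dvd_or_dvd (hbμ ▸ hlm.2)).resolve_left (h3n b)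
    exact hpz.not_dvd_one
      (by simpa using dvd_sub hlm.1 (((dvd_mul_of_dvd_right hpμ M').trans hlMμ)))
  · -- traces modulo five
    by_cases hl3 : ℓ = 3
    · subst hl3
      rw [show V.apOfModel 3 = W₃.apOfModel 3 by rw [apOfModel, apOfModel, hV3]]
      exact ht3 hgW fun h => hgV ((dvd_iff_of_reductionMod_eq hV3).1.mpr h)
    by_cases hlN : (ℓ : ℤ) ∣ 10 * δ
    · rw [show V.apOfModel ℓ = W.apOfModel ℓ by
        rw [apOfModel, hV2 ℓ hlN, ← apOfModel, apOfModel_scaleModel W hℓ (hv ℓ hℓ hlN) hgW],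
        sub_self]
      exact dvd_zero _
    · obtain ⟨h30, -, h3n⟩ := good_of_not_dvd_moduli haδ hℓ hl3 hlN
      exact five_dvd_apOfModel_sub W V (3 ^ k) l m h4' h6' hℓ h30 (h3n k) hgW hgV

end Fermat.Agent.Switch35
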