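import Fermat.Agent.Switch35.Model

/-!
# The switch from the prime five to the prime three

Every semistable curve over `ℤ` has a semistable companion which is irreducible at three and has
congruent Frobenius traces modulo five (`exists_switch`).
-/

set_option autoImplicit false

namespace Fermat.Agent.Switch35

open WeierstrassCurve Filter

attribute [local irreducible] liftP liftQ famC4 famC6

theorem dvd_sub_famC4 (M c₄ c₆ k : ℤ) : M ∣ c₄ - famC4 (M * k + 1) M c₄ c₆ := by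
  let g := Ideal.Quotient.mk (Ideal.span {M})
  have hg : g M = 0 := Ideal.Quotient.eq_zero_iff_mem.mpr (Ideal.mem_span_singleton_self M)
  rw [← Ideal.mem_span_singleton, ← Ideal.Quotient.eq]
  show g c₄ = g (famC4 (M * k + 1) M c₄ c₆)
  rw [map_famC4, map_add, map_mul, map_one, hg, zero_mul, zero_add, famC4_one_zero]

theorem dvd_sub_famC6 (M c₄ c₆ k : ℤ) : M ∣ c₆ - famC6 (M * k + 1) M c₄ c₆ := by
  let g := Ideal.Quotient.mk (Ideal.span {M})
  have hg : g M = 0 := Ideal.Quotient.eq_zero_iff_mem.mpr (Ideal.mem_span_singleton_self M)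
  rw [← Ideal.mem_span_singleton, ← Ideal.Quotient.eq]
  show g c₆ = g (famC6 (M * k + 1) M c₄ c₆)
  rw [map_famC6, map_add, map_mul, map_one, hg, zero_mul, zero_add, famC6_one_zero]

/-- For a semistable curve there is a semistable curve irreducible at three with congruent
traces modulo five. -/
theorem exists_switch (W : WeierstrassCurve ℤ) (hΔ : W.Δ ≠ 0) (hW : W.IsSemistableModel) :
    ∃ W' : WeierstrassCurve ℤ, W'.Δ ≠ 0 ∧ W'.IsSemistableModel ∧ W'.ModRepIsIrreducible 3 ∧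
      ∀ ℓ : ℕ, ℓ.Prime → W.IsGoodPrimeFor ℓ → W'.IsGoodPrimeFor ℓ → ℓ ≠ 5 →
        (5 : ℤ) ∣ (W'.apOfModel ℓ - W.apOfModel ℓ) := by
  set N : ℤ := 30 * W.Δ with hN
  set M : ℤ := 864 * 48 * N with hM
  have hM0 : M ≠ 0 := by simp [hM, hN, hΔ]
  have hd : W.c₄ ^ 3 ≠ W.c₆ ^ 2 := c₄_cube_ne_c₆_sq hΔ
  have h0 := fam_axis_ne hd hM0
  obtain ⟨k, hk⟩ := (frequently_irreducible W hΔ M 1 0 M (by simp [hM0]) h0).exists
  simp only [zero_mul, zero_add] at hk
  obtain ⟨V, h4, h6, hred⟩ := exists_model_congruent W N _ _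
    (dvd_sub_famC4 M W.c₄ W.c₆ k) (dvd_sub_famC6 M W.c₄ W.c₆ k)
  have h4' : V.c₄ * 1 ^ 4 = famC4 (M * k + 1) M W.c₄ W.c₆ := by rw [one_pow, mul_one, h4]
  have h6' : V.c₆ * 1 ^ 6 = famC6 (M * k + 1) M W.c₄ W.c₆ := by rw [one_pow, mul_one, h6]
  obtain ⟨hVΔ, hVirr⟩ := hk V 1 one_ne_zero h4' h6'
  have hout : ∀ p : ℕ, p.Prime → ¬ (p : ℤ) ∣ N → ¬ p ∣ 30 ∧ W.IsGoodPrimeFor p :=
    fun p _ hp => ⟨fun h => hp (dvd_mul_of_dvd_left (Int.natCast_dvd_natCast.mpr h) _),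
      fun h => hp (dvd_mul_of_dvd_right h _)⟩
  refine ⟨V, hVΔ, fun p hp hpΔ => ?_, hVirr, fun ℓ hℓ hgW hgV _ => ?_⟩
  · by_cases hpN : (p : ℤ) ∣ N
    · have e := hred p hpN
      have eΔ : (V.Δ : ZMod p) = W.Δ := by
        have := congrArg WeierstrassCurve.Δ e
        simpa [reductionMod] using this
      have ec : (V.c₄ : ZMod p) = W.c₄ := by
        have := congrArg WeierstrassCurve.c₄ e
        simpa [reductionMod] using this
      rw [← ZMod.intCast_zmod_eq_zero_iff_dvd] at hpΔ ⊢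
      rw [ec]
      rw [eΔ] at hpΔ
      rw [ZMod.intCast_zmod_eq_zero_iff_dvd] at hpΔ ⊢
      exact hW p hp hpΔ
    · obtain ⟨h30, hgood⟩ := hout p hp hpN
      refine not_dvd_c₄_of_member W V 1 _ _ h4' h6' hp h30 hgood (fun hlm => ?_) hpΔ
      exact hp.one_lt.ne' (Nat.dvd_one.mp (Int.natCast_dvd_natCast.mp
        ((dvd_add_right (dvd_mul_of_dvd_left hlm.2 _)).mp hlm.1)))
  · by_cases hlN : (ℓ : ℤ) ∣ N
    · simp [apOfModel, hred ℓ hlN]
    · obtain ⟨h30, -⟩ := hout ℓ hℓ hlN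
      exact five_dvd_apOfModel_sub W V 1 _ _ h4' h6' hℓ h30
        (fun h => hℓ.one_lt.ne' (Nat.dvd_one.mp (Int.natCast_dvd_natCast.mp h))) hgW hgV

end Fermat.Agent.Switch35
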