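import Fermat.Agent.Switch35.Lift
import Fermat.Agent.ECFrobenius.Frobenius
import Fermat.Agent.ModelChange.Basic
import Mathlib.FieldTheory.Finite.Basic
import Mathlib.GroupTheory.OrderOfElement

/-!
# Congruence of Frobenius traces modulo five

Over a finite field of characteristic prime to thirty, a curve and a member of its family with
the same mod 5 structure have traces of Frobenius congruent modulo five.
-/

set_option autoImplicit false

namespace Fermat.Agent.Switch35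

open WeierstrassCurve Polynomial
open scoped WeierstrassCurve.Affine

/-- Over an algebraically closed field there is always a point of order five. -/
theorem exists_param_of_isAlgClosed {k : Type*} [Field k] [IsAlgClosed k] (h5 : (5 : k) ≠ 0)
    (h6 : (6 : k) ≠ 0)
    {c₄ c₆ : k} (hd : c₄ ^ 3 ≠ c₆ ^ 2) : ∃ p q : k, fC4 p q = c₄ ∧ fC6 p q = c₆ := by
  have hd' := sub_ne_zero.mpr hd
  set A : k[X] := X ^ 4 - 12 * X ^ 3 + 14 * X ^ 2 + 12 * X + 1 with hA
  set f : k[X] := C (c₄ ^ 3) * (1728 * (X ^ 5 * (X ^ 2 - 11 * X - 1)))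
    - C (c₄ ^ 3 - c₆ ^ 2) * A ^ 3 with hf
  have hdeg : f.coeff 12 = -(c₄ ^ 3 - c₆ ^ 2) := by
    have hA4 : A.natDegree ≤ 4 := by rw [hA]; compute_degree
    have hAc : A.coeff 4 = 1 := by rw [hA]; compute_degree!
    have h1 : (A ^ 3).coeff 12 = 1 := by
      rw [show (12 : ℕ) = 3 * 4 from rfl, coeff_pow_of_natDegree_le hA4, hAc, one_pow]
    have h2 : (1728 * (X ^ 5 * (X ^ 2 - 11 * X - 1)) : k[X]).natDegree ≤ 7 := by compute_degree
    rw [hf, coeff_sub, coeff_C_mul, coeff_C_mul, h1,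
      coeff_eq_zero_of_natDegree_lt (h2.trans_lt (by norm_num))]
    ring
  have hf0 : f.degree ≠ 0 := fun h => by
    have := coeff_eq_zero_of_degree_lt (p := f) (n := 12) (by rw [h]; norm_num)
    rw [hdeg, neg_eq_zero] at this
    exact hd' this
  obtain ⟨r, hr⟩ := IsAlgClosed.exists_root f hf0
  have hD : fC4 r 1 ^ 3 - fC6 r 1 ^ 2 = 1728 * (r ^ 5 * (r ^ 2 - 11 * r - 1)) := by
    rw [fDiscr]; ring
  have hr' : c₄ ^ 3 * (fC4 r 1 ^ 3 - fC6 r 1 ^ 2) = (c₄ ^ 3 - c₆ ^ 2) * fC4 r 1 ^ 3 := by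
    simp [IsRoot.def, hf, hA] at hr
    rw [hD]
    simp only [fC4]
    linear_combination hr
  have h1728 : (1728 : k) ≠ 0 := ShortForm.ne_zero_1728 h6
  have hf4 : fC4 r 1 = 0 → fC6 r 1 ≠ 0 := by
    intro h h'
    rw [h, h'] at hD
    have e : r ^ 5 * (r ^ 2 - 11 * r - 1) = 0 :=
      (mul_eq_zero.mp (show (1728 : k) * (r ^ 5 * (r ^ 2 - 11 * r - 1)) = 0 by
        linear_combination -hD)).resolve_left h1728
    simp only [fC4] at h
    rcases mul_eq_zero.mp e with e | e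
    · rw [pow_eq_zero_iff (by norm_num)] at e
      subst e
      simp at h
    · have hr2 : (5 : k) * r ^ 2 = 0 := by
        linear_combination h - (r ^ 2 - r + 4 - 5) * e
      have e' := (mul_eq_zero.mp hr2).resolve_left h5
      rw [pow_eq_zero_iff (by norm_num)] at e'
      subst e'
      simp at h
  have hscale : ∀ q : k, fC4 (r * q) q = q ^ 4 * fC4 r 1 ∧ fC6 (r * q) q = q ^ 6 * fC6 r 1 :=
    fun q => by simp only [fC4, fC6]; constructor <;> ring
  by_cases hc4 : c₄ = 0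
  · have h0 : fC4 r 1 = 0 := by
      rw [hc4] at hr' hd'
      have : (0 ^ 3 - c₆ ^ 2) * fC4 r 1 ^ 3 = 0 := by linear_combination -hr'
      exact (pow_eq_zero_iff (by norm_num)).mp ((mul_eq_zero.mp this).resolve_left hd')
    obtain ⟨q, hq⟩ := IsAlgClosed.exists_pow_nat_eq (c₆ / fC6 r 1) (n := 6) (by norm_num)
    exact ⟨r * q, q, by rw [(hscale q).1, h0, mul_zero, hc4],
      by rw [(hscale q).2, hq, div_mul_cancel₀ _ (hf4 h0)]⟩
  · have h0 : fC4 r 1 ≠ 0 := by
      intro h0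
      rw [h0] at hr'
      have : c₄ ^ 3 * fC6 r 1 ^ 2 = 0 := by linear_combination -hr'
      exact mul_ne_zero (pow_ne_zero 3 hc4) (pow_ne_zero 2 (hf4 h0)) this
    have hrel : c₄ ^ 3 * fC6 r 1 ^ 2 = c₆ ^ 2 * fC4 r 1 ^ 3 := by linear_combination -hr'
    -- `u` plays the role of `q ^ 2`
    obtain ⟨u, hu2, hu3⟩ : ∃ u : k, u ^ 2 * fC4 r 1 = c₄ ∧ u ^ 3 * fC6 r 1 = c₆ := by
      by_cases h06 : fC6 r 1 = 0
      · obtain ⟨u, hu⟩ := IsAlgClosed.exists_pow_nat_eq (c₄ / fC4 r 1) (n := 2) (by norm_num)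
        refine ⟨u, by rw [hu, div_mul_cancel₀ _ h0], ?_⟩
        rw [h06] at hrel ⊢
        have : c₆ ^ 2 = 0 := (mul_eq_zero.mp (show c₆ ^ 2 * fC4 r 1 ^ 3 = 0 by
          linear_combination -hrel)).resolve_right (pow_ne_zero 3 h0)
        rw [(pow_eq_zero_iff (by norm_num)).mp this, mul_zero]
      · refine ⟨c₆ * fC4 r 1 / (fC6 r 1 * c₄), ?_, ?_⟩
        · field_simp
          linear_combination -hrel
        · field_simp
          linear_combination -c₆ * hrel
    obtain ⟨q, hq⟩ := IsAlgClosed.exists_pow_nat_eq u (n := 2) (by norm_num)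
    refine ⟨r * q, q, ?_, ?_⟩
    · rw [(hscale q).1, show q ^ 4 = u ^ 2 by rw [← hq]; ring, hu2]
    · rw [(hscale q).2, show q ^ 6 = u ^ 3 by rw [← hq]; ring, hu3]

variable {k : Type*} [Field k] [DecidableEq k] {c₄ c₆ l m : k} {W W' : WeierstrassCurve.Affine k}
  (hs : ShortForm W c₄ c₆) (hs' : ShortForm W' (famC4 l m c₄ c₆) (famC6 l m c₄ c₆))
  (h6 : (6 : k) ≠ 0) (hd : c₄ ^ 3 ≠ c₆ ^ 2)
  (hd' : famC4 l m c₄ c₆ ^ 3 ≠ famC6 l m c₄ c₆ ^ 2)

omit [DecidableEq k] in
/-- The lift of `0` is `0`. -/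
theorem Lifts.zero : Lifts hs hs' h6 hd hd' 0 0 := Or.inl ⟨rfl, rfl⟩

/-- Lifting commutes with negation. -/
theorem Lifts.neg {P : W.Point} {P' : W'.Point} (h : Lifts hs hs' h6 hd hd' P P') :
    Lifts hs hs' h6 hd hd' (-P) (-P') := by
  rcases h with ⟨rfl, rfl⟩ | ⟨p, q, h4, hc6, rfl, rfl⟩
  · simpa using Lifts.zero hs hs' h6 hd hd'
  · refine Or.inr ⟨-p, -q, (fC4_neg p q).trans h4, (fC6_neg p q).trans hc6,
      (mkPoint_neg hs h6 hd h4 hc6 _ _).symm, ?_⟩
    rw [← mkPoint_neg hs' h6 hd' _ _ ((fC4_neg _ _).trans (fC4_lift_eq h4 hc6))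
      ((fC6_neg _ _).trans (fC6_lift_eq h4 hc6))]
    simp only [mkPoint, liftP_neg, liftQ_neg]

/-- Lifting commutes with multiplication by integers. -/
theorem Lifts.zsmul (h5 : (5 : k) ≠ 0) {P : W.Point} {P' : W'.Point}
    (h : Lifts hs hs' h6 hd hd' P P') (n : ℤ) : Lifts hs hs' h6 hd hd' (n • P) (n • P') := by
  induction n using Int.induction_on with
  | zero => simpa using Lifts.zero hs hs' h6 hd hd'
  | succ i ih =>
    rw [add_zsmul, add_zsmul, one_zsmul, one_zsmul]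
    exact ih.add hs hs' h6 hd hd' h5 h
  | pred i ih =>
    rw [sub_zsmul, sub_zsmul, one_zsmul, one_zsmul]
    exact ih.add hs hs' h6 hd hd' h5 (h.neg hs hs' h6 hd hd')

/-- The lift preserves linear relations between a point and its Frobenius translates. -/
theorem Lifts.linear_eq_zero (h5 : (5 : k) ≠ 0) {P Q R : W.Point} {P' Q' R' : W'.Point}
    (hP : Lifts hs hs' h6 hd hd' P P') (hQ : Lifts hs hs' h6 hd hd' Q Q')
    (hR : Lifts hs hs' h6 hd hd' R R') (a b : ℤ) (h : R - a • Q + b • P = 0) :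
    R' - a • Q' + b • P' = 0 := by
  have h' := (hR.add hs hs' h6 hd hd' h5
    ((hQ.zsmul hs hs' h6 hd hd' h5 a).neg hs hs' h6 hd hd')).add hs hs' h6 hd hd' h5
    (hP.zsmul hs hs' h6 hd hd' h5 b)
  rw [← sub_eq_add_neg, ← sub_eq_add_neg, h] at h'
  exact h'.unique hs hs' h6 hd hd' (Lifts.zero hs hs' h6 hd hd')

/-- Traces of Frobenius over a finite field of characteristic prime to thirty agree modulo five. -/
theorem five_dvd_trace_sub {F : Type*} [Field F] [Finite F] (h5 : (5 : F) ≠ 0) (h6 : (6 : F) ≠ 0)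
    (V V' : WeierstrassCurve F) (c₄ c₆ l m : F) (hV : V = ⟨0, 0, 0, -27 * c₄, -54 * c₆⟩)
    (hV' : V' = ⟨0, 0, 0, -27 * famC4 l m c₄ c₆, -54 * famC6 l m c₄ c₆⟩)
    (hd : c₄ ^ 3 ≠ c₆ ^ 2) (hd' : famC4 l m c₄ c₆ ^ 3 ≠ famC6 l m c₄ c₆ ^ 2) :
    (5 : ℤ) ∣ V'.traceOfFrobenius - V.traceOfFrobenius := by
  classical
  have := Fintype.ofFinite F
  let k := AlgebraicClosure F
  let ι : F →+* k := algebraMap F k
  have ι0 : ∀ x : F, x ≠ 0 → ι x ≠ 0 := fun x hx => by simpa using hx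
  have k5 : (5 : k) ≠ 0 := by simpa [map_ofNat] using ι0 5 h5
  have k6 : (6 : k) ≠ 0 := by simpa [map_ofNat] using ι0 6 h6
  have hdk : ι c₄ ^ 3 ≠ ι c₆ ^ 2 := by
    rw [← map_pow, ← map_pow]; exact ι.injective.ne hd
  have hdk' : famC4 (ι l) (ι m) (ι c₄) (ι c₆) ^ 3 ≠ famC6 (ι l) (ι m) (ι c₄) (ι c₆) ^ 2 := by
    rw [← map_famC4, ← map_famC6, ← map_pow, ← map_pow]; exact ι.injective.ne hd'
  have hs : ShortForm (V⁄k) (ι c₄) (ι c₆) := by
    subst hV; constructor <;> simp [ι, map_ofNat]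
    all_goals ring
  have hs' : ShortForm (V'⁄k) (famC4 (ι l) (ι m) (ι c₄) (ι c₆))
      (famC6 (ι l) (ι m) (ι c₄) (ι c₆)) := by
    subst hV'
    rw [← map_famC4, ← map_famC6]
    constructor <;> simp [ι, map_ofNat]
    all_goals ring
  have hel : ∀ (U : WeierstrassCurve F) (a b : F), U = ⟨0, 0, 0, -27 * a, -54 * b⟩ →
      a ^ 3 ≠ b ^ 2 → U.IsElliptic := fun U a b hU hab => by
    subst hU
    refine ⟨isUnit_iff_ne_zero.mpr ?_⟩
    exact ShortForm.Δ_ne_zero (W := (⟨0, 0, 0, -27 * a, -54 * b⟩ : WeierstrassCurve F).toAffine)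
      ⟨rfl, rfl, rfl, rfl, rfl⟩ h6 hab
  have := hel V _ _ hV hd
  have := hel V' _ _ hV' hd'
  let psi : k →ₐ[F] k := FiniteField.frobeniusAlgHom F k
  have hpsi : ∀ a, psi a = a ^ Nat.card F := fun a => by
    simp [psi, Nat.card_eq_fintype_card]
  obtain ⟨p, q, h4, hc6⟩ := exists_param_of_isAlgClosed k5 k6 hdk
  set P : (V⁄k).Point := mkPoint hs k6 hdk h4 hc6 with hP
  set P' : (V'⁄k).Point :=
    mkPoint hs' k6 hdk' (fC4_lift_eq h4 hc6) (fC6_lift_eq h4 hc6) with hP'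
  have hL : Lifts hs hs' k6 hdk hdk' P P' := Or.inr ⟨p, q, h4, hc6, rfl, rfl⟩
  have hmap : ∀ (Q : (V⁄k).Point) (Q' : (V'⁄k).Point), Lifts hs hs' k6 hdk hdk' Q Q' →
      Lifts hs hs' k6 hdk hdk' (Affine.Point.map psi Q) (Affine.Point.map psi Q') := by
    rintro Q Q' (⟨rfl, rfl⟩ | ⟨a, b, e4, e6, rfl, rfl⟩)
    · simpa using Lifts.zero hs hs' k6 hdk hdk'
    · have f4 : fC4 (psi a) (psi b) = ι c₄ := by
        show fC4 (psi.toRingHom a) (psi.toRingHom b) = _
        rw [← map_fC4, e4]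
        simp [ι]
      have f6 : fC6 (psi a) (psi b) = ι c₆ := by
        show fC6 (psi.toRingHom a) (psi.toRingHom b) = _
        rw [← map_fC6, e6]
        simp [ι]
      refine Or.inr ⟨psi a, psi b, f4, f6, ?_, ?_⟩
      · simp only [mkPoint, Affine.Point.map_some, Affine.Point.some.injEq]
        exact ⟨map_fX psi.toRingHom a b, map_fY psi.toRingHom a b⟩
      · simp only [mkPoint, Affine.Point.map_some, Affine.Point.some.injEq]
        have hl : psi (ι l) = ι l := psi.commutes l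
        have hm : psi (ι m) = ι m := psi.commutes m
        constructor
        · rw [show psi (fX _ _) = fX _ _ from map_fX psi.toRingHom _ _]
          simp [map_liftP, map_liftQ, hl, hm]
        · rw [show psi (fY _ _) = fY _ _ from map_fY psi.toRingHom _ _]
          simp [map_liftP, map_liftQ, hl, hm]
  have hQ := hmap _ _ hL
  have hR := hmap _ _ hQ
  have e := hL.linear_eq_zero hs hs' k6 hdk hdk' k5 hQ hR _ _
    (ECFrobenius.frobenius_relation V psi hpsi P)
  have e' := ECFrobenius.frobenius_relation V' psi hpsi P'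
  have hne : Affine.Point.map psi P' ≠ 0 := by
    intro h0
    refine hL.ne_zero hs hs' k6 hdk hdk' (by simp [hP, mkPoint]) ?_
    exact Affine.Point.map_injective (f := psi) (h0.trans (Affine.Point.map_zero psi).symm)
  have h5' : 5 • Affine.Point.map psi P' = 0 := (hQ.five_nsmul hs hs' k6 hdk hdk').2
  have hord : addOrderOf (Affine.Point.map psi P') = 5 := by
    have : Fact (Nat.Prime 5) := ⟨Nat.prime_five⟩
    exact addOrderOf_eq_prime h5' hne
  have hz : (V'.traceOfFrobenius - V.traceOfFrobenius) • Affine.Point.map psi P' = 0 := by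
    rw [sub_zsmul]
    rw [← e'] at e
    rw [← sub_eq_zero] at e
    rw [← e]
    abel
  have := addOrderOf_dvd_iff_zsmul_eq_zero.mpr hz
  rwa [hord] at this

end Fermat.Agent.Switch35
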