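import Fermat.Agent.Switch35.Structure
import Mathlib.Data.ZMod.Basic
import Mathlib.FieldTheory.IsAlgClosed.AlgebraicClosure

/-!
# The form of degree twelve dividing the discriminant of the 3-5 family
-/

set_option autoImplicit false

namespace Fermat.Agent.Switch35

/-- Row `i`: the coefficient of `l^(12-i) m^i` of the discriminant form. -/
def tabD : List (List (ℤ × ℕ × ℕ)) :=
  [[(1, 0, 0)],
   [],
   [(-66, 1, 0)],
   [(440, 0, 1)],
   [(-1485, 2, 0)],
   [(3168, 1, 1)],
   [(5940, 3, 0), (-10560, 0, 2)],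
   [(4752, 2, 1)],
   [(-66825, 4, 0), (63360, 1, 2)],
   [(142560, 3, 1), (-140800, 0, 3)],
   [(-133650, 5, 0), (133056, 2, 2)],
   [(61560, 4, 1), (-61440, 1, 3)],
   [(91125, 6, 0), (-193536, 3, 2), (102400, 0, 4)]]

/-- The form of degree twelve. -/
def famD {R : Type*} [CommRing R] (l m a b : R) : R := homog 12 (tabD.map fun x => rowMon x a b) l m

theorem map_famD {R S : Type*} [CommRing R] [CommRing S] (g : R →+* S) (l m a b : R) :
    g (famD l m a b) = famD (g l) (g m) (g a) (g b) := by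
  simp [famD, map_homog, List.map_map, Function.comp_def, map_rowMon]

/-- The norm of the linear forms of the lifts. -/
def lineNorm {R : Type*} [CommRing R] (l m p q : R) : R :=
  (l + (p ^ 2 + q ^ 2) * m) ^ 2 - 180 * p ^ 2 * q ^ 2 * m ^ 2

namespace Reflect

variable {R : Type*} [CommRing R] (r t : R)

/-- The coefficient list of `lineNorm 1 t r 1`. -/
def bL : List (List ℤ) := [[1], [2, 0, 2], [1, 0, -178, 0, 1]]

theorem bev_bL : bev r t bL = lineNorm 1 t r 1 := by
  simp [bev, pev, hv, bL, lineNorm]; ring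

theorem checkPQL : isNull (badd (bmul pq bL) (bc (-1) (bscale [0, 1] (tabD.map rowR)))) = true := by
  decide +kernel

theorem checkQuad : isNull (badd pp (badd (bc (-11) pq) (badd (bc (-1) qq)
    (bc (-1) (bscale [-1, -11, 1] (bmul bL (bmul bL (bmul bL (bmul bL bL))))))))) = true := by
  decide +kernel

theorem lift_norm_one :
    liftP 1 t r 1 * liftQ 1 t r 1 * lineNorm 1 t r 1 = r * famD 1 t (fC4 r 1) (fC6 r 1) := by
  have h := bev_isNull r t _ checkPQL
  simp only [bev_badd, ← pq_eq, bev_bmul, bc, bev_bscale, bP, bQ, bev_tab r t _ 5,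
    bev_fam r t _ 12, bev_bL] at h
  simp [pev, hv] at h
  simp only [liftP, liftQ, famD] at h ⊢
  linear_combination h

theorem lift_quad_one :
    liftP 1 t r 1 ^ 2 - 11 * liftP 1 t r 1 * liftQ 1 t r 1 - liftQ 1 t r 1 ^ 2
      = (r ^ 2 - 11 * r - 1) * lineNorm 1 t r 1 ^ 5 := by
  have h := bev_isNull r t _ checkQuad
  simp only [bev_badd, ← pp_eq, ← pq_eq, ← qq_eq, bev_bmul, bc, bev_bscale, bP, bQ,
    bev_tab r t _ 5, bev_bL] at h
  simp [pev, hv] at h
  simp only [liftP, liftQ] at h ⊢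
  linear_combination h

end Reflect

theorem famD_scale {R : Type*} [CommRing R] (u k t a b : R) :
    famD (u ^ 2 * k) (k * t) (u ^ 4 * a) (u ^ 6 * b) = u ^ 24 * k ^ 12 * famD 1 t a b := by
  simp [famD, tabD, rowMon, homog]
  ring

/-- The two relations between the lifts and the degree twelve form. -/
theorem lift_norm_relations {K : Type*} [Field K] {l q : K} (hl : l ≠ 0) (hq : q ≠ 0) (m p : K) :
    liftP l m p q * liftQ l m p q * lineNorm l m p q = p * q * famD l m (fC4 p q) (fC6 p q) ∧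
    liftP l m p q ^ 2 - 11 * liftP l m p q * liftQ l m p q - liftQ l m p q ^ 2
      = (p ^ 2 - 11 * p * q - q ^ 2) * lineNorm l m p q ^ 5 := by
  obtain ⟨k, r, t, rfl, rfl, rfl⟩ :
      ∃ k r t, l = q ^ 2 * k ∧ m = k * t ∧ p = r * q :=
    ⟨l / q ^ 2, p / q, m * q ^ 2 / l, by field_simp, by field_simp, by field_simp⟩
  have e4 : fC4 (r * q) q = q ^ 4 * fC4 r 1 := by simp [fC4]; ring
  have e6 : fC6 (r * q) q = q ^ 6 * fC6 r 1 := by simp [fC6]; ring
  have eL : lineNorm (q ^ 2 * k) (k * t) (r * q) q = q ^ 4 * k ^ 2 * lineNorm 1 t r 1 := by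
    simp [lineNorm]; ring
  rw [liftP_scale, liftQ_scale, e4, e6, eL, famD_scale]
  constructor
  · linear_combination (q ^ 26 * k ^ 12) * Reflect.lift_norm_one r t
  · linear_combination (q ^ 22 * k ^ 10) * Reflect.lift_quad_one r t

theorem fam_discriminant_field {K : Type*} [Field K] [IsAlgClosed K] (h5 : (5 : K) ≠ 0)
    (h6 : (6 : K) ≠ 0) {l a b : K} (hl : l ≠ 0) (hd : a ^ 3 ≠ b ^ 2) (m : K) :
    famC4 l m a b ^ 3 - famC6 l m a b ^ 2 = (a ^ 3 - b ^ 2) * famD l m a b ^ 5 := by
  obtain ⟨p, q, rfl, rfl⟩ := exists_param_of_isAlgClosed h5 h6 hd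
  have hq : q ≠ 0 := by
    rintro rfl
    exact hd (by simp [fC4, fC6]; ring)
  obtain ⟨e1, e2⟩ := lift_norm_relations hl hq m p
  obtain ⟨i4, i6⟩ := lift_identities l m p q
  rw [← i4, ← i6, fDiscr, fDiscr]
  calc _ = 1728 * ((liftP l m p q * liftQ l m p q) ^ 5 * lineNorm l m p q ^ 5)
        * (p ^ 2 - 11 * p * q - q ^ 2) := by
        linear_combination (1728 * (liftP l m p q * liftQ l m p q) ^ 5) * e2
    _ = _ := by
        rw [← mul_pow, e1]
        ring

private noncomputable abbrev UnivD : Type := MvPolynomial (Fin 4) ℤ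

/-- The discriminant of the family. -/
theorem fam_discriminant {R : Type*} [CommRing R] (l m a b : R) :
    famC4 l m a b ^ 3 - famC6 l m a b ^ 2 = (a ^ 3 - b ^ 2) * famD l m a b ^ 5 := by
  let ι : UnivD →+* AlgebraicClosure (FractionRing UnivD) :=
    (algebraMap (FractionRing UnivD) (AlgebraicClosure (FractionRing UnivD))).comp
      (algebraMap UnivD (FractionRing UnivD))
  have hi : Function.Injective ι := by
    rw [RingHom.coe_comp]
    exact ((algebraMap (FractionRing UnivD)
      (AlgebraicClosure (FractionRing UnivD))).injective).comp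
      (IsFractionRing.injective UnivD (FractionRing UnivD))
  let ev : UnivD →+* ℤ := MvPolynomial.eval₂Hom (RingHom.id ℤ) ![1, 0, 1, 0]
  have ne : ∀ x : UnivD, ev x ≠ 0 → ι x ≠ 0 := fun x hx h => hx (by
    rw [(map_eq_zero_iff ι hi).mp h, map_zero])
  have h5 := ne 5 (by simp [ev, map_ofNat])
  have h6 := ne 6 (by simp [ev, map_ofNat])
  have hd := ne (MvPolynomial.X 2 ^ 3 - MvPolynomial.X 3 ^ 2) (by simp [ev])
  have hl := ne (MvPolynomial.X 0) (by simp [ev])
  rw [map_sub, map_pow, map_pow, sub_ne_zero] at hd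
  rw [map_ofNat] at h5 h6
  have h := fam_discriminant_field h5 h6 hl hd (ι (MvPolynomial.X 1))
  rw [← map_famC4 ι, ← map_famC6 ι, ← map_famD ι, ← map_pow, ← map_pow, ← map_pow, ← map_pow,
    ← map_sub, ← map_pow, ← map_sub, ← map_mul] at h
  let g : UnivD →+* R := MvPolynomial.eval₂Hom (Int.castRingHom R) ![l, m, a, b]
  have k := congrArg g (hi h)
  simp only [map_sub, map_pow, map_mul, map_famC4, map_famC6, map_famD] at k
  simp [g] at k
  exact k

/-- `famD` respects congruences in the parameters. -/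
theorem famD_congr {n : ℕ} {l l' m m' : ℤ} (a b : ℤ) (hl : (n : ℤ) ∣ l - l')
    (hm : (n : ℤ) ∣ m - m') : (n : ℤ) ∣ famD l m a b - famD l' m' a b := by
  have el : (l : ZMod n) = l' := by
    rw [← sub_eq_zero, ← Int.cast_sub]; exact (ZMod.intCast_zmod_eq_zero_iff_dvd _ _).2 hl
  have em : (m : ZMod n) = m' := by
    rw [← sub_eq_zero, ← Int.cast_sub]; exact (ZMod.intCast_zmod_eq_zero_iff_dvd _ _).2 hm
  rw [← ZMod.intCast_zmod_eq_zero_iff_dvd, Int.cast_sub, sub_eq_zero]
  exact (map_famD (Int.castRingHom (ZMod n)) l m a b).trans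
    ((map_famD (Int.castRingHom (ZMod n)) l' m' a b).trans (by simp [el, em])).symm

/-- `famD` is `1` at the parameters `(1, 0)`. -/
theorem famD_one_zero {R : Type*} [CommRing R] (a b : R) : famD 1 0 a b = 1 := by
  simp [famD, tabD, rowMon, homog]

end Fermat.Agent.Switch35
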