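import Fermat.Agent.Switch35.Tables
import Mathlib.Algebra.Ring.Hom.Defs
import Mathlib.Algebra.GroupWithZero.Basic
import Mathlib.Tactic.Ring

/-!
# The forms attached to a point of order five

`fC4`, `fC6` are the invariants of Tate's normal form of a curve with a point of order five, in
homogeneous parameters `(p, q)`; `liftP`, `liftQ` are the quintic lifts and `famC4`, `famC6` the
invariants of the family of curves with the same mod 5 structure.
-/

set_option autoImplicit false

namespace Fermat.Agent.Switch35

variable {R S : Type*} [CommRing R] [CommRing S]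

/-- `c₄` of the curve `y² + (q - p) x y - p q² y = x³ - p q x²`. -/
def fC4 (p q : R) : R := p ^ 4 - 12 * p ^ 3 * q + 14 * p ^ 2 * q ^ 2 + 12 * p * q ^ 3 + q ^ 4

/-- `c₆` of the curve `y² + (q - p) x y - p q² y = x³ - p q x²`. -/
def fC6 (p q : R) : R :=
  -p ^ 6 + 18 * p ^ 5 * q - 75 * p ^ 4 * q ^ 2 - 75 * p ^ 2 * q ^ 4 - 18 * p * q ^ 5 - q ^ 6

/-- The short Weierstrass `x`-coordinate of the marked point. -/
def fX (p q : R) : R := 3 * (p ^ 2 - 6 * p * q + q ^ 2)

/-- The short Weierstrass `y`-coordinate of the marked point. -/
def fY (p q : R) : R := -108 * p * q ^ 2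

/-- The binary form of degree `n` with the given coefficients, by increasing powers of `m`. -/
def homog : ℕ → List R → R → R → R
  | _, [], _, _ => 0
  | n, c :: cs, l, m => c * l ^ n + m * homog (n - 1) cs l m

/-- `homog` commutes with ring homomorphisms. -/
theorem map_homog (g : R →+* S) (n : ℕ) (xs : List R) (l m : R) :
    g (homog n xs l m) = homog n (xs.map g) (g l) (g m) := by
  induction xs generalizing n with
  | nil => simp [homog]
  | cons c cs ih => simp [homog, ih]

/-- `homog n` is homogeneous of degree `n` in the parameters. -/
theorem homog_scale (u : R) (n : ℕ) (xs : List R) (h : xs.length ≤ n + 1) (l m : R) :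
    homog n xs (u * l) (u * m) = u ^ n * homog n xs l m := by
  induction xs generalizing n with
  | nil => simp [homog]
  | cons c cs ih =>
    cases n with
    | zero =>
      have : cs = [] := by simpa using h
      subst this
      simp [homog]
    | succ k =>
      have hl : cs.length ≤ k + 1 := by simpa using h
      simp only [homog, Nat.add_sub_cancel, ih k hl]
      ring

/-- One row of a lift table, as a binary form in `p, q`. -/
def rowForm (x : ℕ × List ℤ) (p q : R) : R := homog x.1 (x.2.map (Int.cast : ℤ → R)) q p

/-- One row of a family table, as a polynomial in `c₄, c₆`. -/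
def rowMon (xs : List (ℤ × ℕ × ℕ)) (a b : R) : R :=
  (xs.map fun x => (x.1 : R) * (a ^ x.2.1 * b ^ x.2.2)).sum

/-- The quintic lift of the first parameter `p`. -/
def liftP (l m p q : R) : R := homog 5 (tabP.map fun x => rowForm x p q) l m

/-- The quintic lift of the second parameter `q`. -/
def liftQ (l m p q : R) : R := homog 5 (tabQ.map fun x => rowForm x p q) l m

/-- `c₄` of the member at `(l, m)` of the family of a curve with invariants `(a, b)`. -/
def famC4 (l m a b : R) : R := homog 20 (tabC4.map fun x => rowMon x a b) l m

/-- `c₆` of the member at `(l, m)` of the family of a curve with invariants `(a, b)`. -/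
def famC6 (l m a b : R) : R := homog 30 (tabC6.map fun x => rowMon x a b) l m

section map

variable (g : R →+* S)

/-- `fC4` commutes with ring homomorphisms. -/
theorem map_fC4 (p q : R) : g (fC4 p q) = fC4 (g p) (g q) := by
  simp [fC4, map_ofNat]

/-- `fC6` commutes with ring homomorphisms. -/
theorem map_fC6 (p q : R) : g (fC6 p q) = fC6 (g p) (g q) := by
  simp [fC6, map_ofNat]

/-- `fX` commutes with ring homomorphisms. -/
theorem map_fX (p q : R) : g (fX p q) = fX (g p) (g q) := by simp [fX, map_ofNat]

/-- `fY` commutes with ring homomorphisms. -/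
theorem map_fY (p q : R) : g (fY p q) = fY (g p) (g q) := by simp [fY, map_ofNat]

/-- `rowForm` commutes with ring homomorphisms. -/
theorem map_rowForm (x : ℕ × List ℤ) (p q : R) : g (rowForm x p q) = rowForm x (g p) (g q) := by
  simp [rowForm, map_homog, List.map_map, Function.comp_def]

/-- `rowMon` commutes with ring homomorphisms. -/
theorem map_rowMon (xs : List (ℤ × ℕ × ℕ)) (a b : R) :
    g (rowMon xs a b) = rowMon xs (g a) (g b) := by
  induction xs with
  | nil => simp [rowMon]
  | cons x xs ih => simp [rowMon] at ih ⊢; simp [ih]

/-- `liftP` commutes with ring homomorphisms. -/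
theorem map_liftP (l m p q : R) : g (liftP l m p q) = liftP (g l) (g m) (g p) (g q) := by
  simp [liftP, map_homog, List.map_map, Function.comp_def, map_rowForm]

/-- `liftQ` commutes with ring homomorphisms. -/
theorem map_liftQ (l m p q : R) : g (liftQ l m p q) = liftQ (g l) (g m) (g p) (g q) := by
  simp [liftQ, map_homog, List.map_map, Function.comp_def, map_rowForm]

/-- `famC4` commutes with ring homomorphisms. -/
theorem map_famC4 (l m a b : R) : g (famC4 l m a b) = famC4 (g l) (g m) (g a) (g b) := by
  simp [famC4, map_homog, List.map_map, Function.comp_def, map_rowMon]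

/-- `famC6` commutes with ring homomorphisms. -/
theorem map_famC6 (l m a b : R) : g (famC6 l m a b) = famC6 (g l) (g m) (g a) (g b) := by
  simp [famC6, map_homog, List.map_map, Function.comp_def, map_rowMon]

end map

end Fermat.Agent.Switch35
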