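import Fermat.Agent.Switch35.Products
import Mathlib.Algebra.MvPolynomial.Eval
import Mathlib.Algebra.MvPolynomial.NoZeroDivisors
import Mathlib.RingTheory.Localization.FractionRing
import Mathlib.Tactic.FieldSimp

/-!
# The family identities

The two identities `fC4 (liftP, liftQ) = famC4` and `fC6 (liftP, liftQ) = famC6` over every
commutative ring. The dehomogenized versions are checked on integer coefficient lists by kernel
evaluation.
-/

set_option autoImplicit false

namespace Fermat.Agent.Switch35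

namespace Reflect

variable {R : Type*} [CommRing R] (r t : R)

theorem check4 : isNull (badd p4 (badd (bc (-12) m31) (badd (bc 14 m22) (badd (bc 12 m13)
    (badd q4 (bc (-1) (tabC4.map rowR))))))) = true := by decide +kernel

theorem check6 : isNull (badd (bc (-1) m60) (badd (bc 18 m51) (badd (bc (-75) m42)
    (badd (bc (-75) m24) (badd (bc (-18) m15) (badd (bc (-1) m06)
    (bc (-1) (tabC6.map rowR)))))))) = true := by decide +kernel

theorem fC4_lift_one : fC4 (liftP 1 t r 1) (liftQ 1 t r 1) = famC4 1 t (fC4 r 1) (fC6 r 1) := by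
  have h := bev_isNull r t _ check4
  simp only [bev_badd, ← m31_eq, ← m22_eq, ← m13_eq, ← p4_eq, ← q4_eq, ← pp_eq, ← pq_eq,
    ← qq_eq, bev_bmul, bc, bev_bscale, bP, bQ, bev_tab r t _ 5, bev_fam r t _ 20] at h
  simp [pev, hv] at h
  simp only [fC4, liftP, liftQ, famC4] at h ⊢
  linear_combination h

theorem fC6_lift_one : fC6 (liftP 1 t r 1) (liftQ 1 t r 1) = famC6 1 t (fC4 r 1) (fC6 r 1) := by
  have h := bev_isNull r t _ check6
  simp only [bev_badd, ← m60_eq, ← m51_eq, ← m42_eq, ← m24_eq, ← m15_eq, ← m06_eq, ← p4_eq,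
    ← q4_eq, ← pp_eq, ← pq_eq,
    ← qq_eq, bev_bmul, bc, bev_bscale, bP, bQ, bev_tab r t _ 5, bev_fam r t _ 30] at h
  simp [pev, hv] at h
  simp only [fC6, liftP, liftQ, famC6] at h ⊢
  linear_combination h

end Reflect

section scaling

variable {R : Type*} [CommRing R] (u k r t a b : R)

/-- Homogeneity of `liftP`, reducing it to the chart `l = 1`, `q = 1`. -/
theorem liftP_scale :
    liftP (u ^ 2 * k) (k * t) (r * u) u = u ^ 11 * k ^ 5 * liftP 1 t r 1 := by
  simp [liftP, tabP, rowForm, homog]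
  ring

/-- Homogeneity of `liftQ`, reducing it to the chart `l = 1`, `q = 1`. -/
theorem liftQ_scale :
    liftQ (u ^ 2 * k) (k * t) (r * u) u = u ^ 11 * k ^ 5 * liftQ 1 t r 1 := by
  simp [liftQ, tabQ, rowForm, homog]
  ring

theorem famC4_scale :
    famC4 (u ^ 2 * k) (k * t) (u ^ 4 * a) (u ^ 6 * b) = u ^ 44 * k ^ 20 * famC4 1 t a b := by
  simp [famC4, tabC4, rowMon, homog]
  ring

theorem famC6_scale :
    famC6 (u ^ 2 * k) (k * t) (u ^ 4 * a) (u ^ 6 * b) = u ^ 66 * k ^ 30 * famC6 1 t a b := by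
  simp [famC6, tabC6, rowMon, homog]
  ring

end scaling

theorem lift_identities_field {K : Type*} [Field K] {l q : K} (hl : l ≠ 0) (hq : q ≠ 0)
    (m p : K) :
    fC4 (liftP l m p q) (liftQ l m p q) = famC4 l m (fC4 p q) (fC6 p q) ∧
      fC6 (liftP l m p q) (liftQ l m p q) = famC6 l m (fC4 p q) (fC6 p q) := by
  obtain ⟨k, r, t, rfl, rfl, rfl⟩ :
      ∃ k r t, l = q ^ 2 * k ∧ m = k * t ∧ p = r * q :=
    ⟨l / q ^ 2, p / q, m * q ^ 2 / l, by field_simp, by field_simp, by field_simp⟩
  have e4 : fC4 (r * q) q = q ^ 4 * fC4 r 1 := by simp [fC4]; ring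
  have e6 : fC6 (r * q) q = q ^ 6 * fC6 r 1 := by simp [fC6]; ring
  rw [liftP_scale, liftQ_scale, e4, e6, famC4_scale, famC6_scale]
  constructor
  · rw [← Reflect.fC4_lift_one]; simp only [fC4]; ring
  · rw [← Reflect.fC6_lift_one]; simp only [fC6]; ring

private noncomputable abbrev Univ : Type := MvPolynomial (Fin 4) ℤ

/-- The lifts transform the forms of a point of order five into the invariants of the family. -/
theorem lift_identities {R : Type*} [CommRing R] (l m p q : R) :
    fC4 (liftP l m p q) (liftQ l m p q) = famC4 l m (fC4 p q) (fC6 p q) ∧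
      fC6 (liftP l m p q) (liftQ l m p q) = famC6 l m (fC4 p q) (fC6 p q) := by
  let ι := algebraMap Univ (FractionRing Univ)
  have hi : Function.Injective ι := IsFractionRing.injective Univ (FractionRing Univ)
  have hX : ∀ i, ι (MvPolynomial.X i : Univ) ≠ 0 := fun i h =>
    MvPolynomial.X_ne_zero i ((map_eq_zero_iff ι hi).mp h)
  obtain ⟨h4, h6⟩ := lift_identities_field (hX 0) (hX 3)
    (ι (MvPolynomial.X 1)) (ι (MvPolynomial.X 2))
  rw [← map_liftP ι, ← map_liftQ ι, ← map_fC4 ι, ← map_fC4 ι, ← map_fC6 ι] at h4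
  rw [← map_liftP ι, ← map_liftQ ι, ← map_fC4 ι, ← map_fC6 ι, ← map_fC6 ι] at h6
  rw [← map_famC4 ι] at h4
  rw [← map_famC6 ι] at h6
  let g : Univ →+* R := MvPolynomial.eval₂Hom (Int.castRingHom R) ![l, m, p, q]
  have k4 := congrArg g (hi h4)
  have k6 := congrArg g (hi h6)
  simp only [map_famC4, map_famC6, map_fC4, map_fC6, map_liftP, map_liftQ] at k4 k6
  simp [g] at k4 k6
  exact ⟨k4, k6⟩

end Fermat.Agent.Switch35
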