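import Fermat.Agent.Switch35.Congruence
import Mathlib.FieldTheory.IsAlgClosed.Basic

/-!
# The structure of the quintic lifts

The lifts are combinations of fifth powers of two independent linear forms, hence have no common
zero; neither have the two invariants of the family.
-/

set_option autoImplicit false

namespace Fermat.Agent.Switch35

/-- The lift multiplies the linear form `2p - (11 + 5√5) q` by a fifth power. -/
theorem lift_linear_form {R : Type*} [CommRing R] (l m p q : R) {s : R} (hs : s ^ 2 = 5) :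
    2 * liftP l m p q - (11 + 5 * s) * liftQ l m p q
      = (2 * p - (11 + 5 * s) * q) * (l + (p ^ 2 + q ^ 2 + 6 * s * p * q) * m) ^ 5 := by
  simp [liftP, liftQ, tabP, tabQ, rowForm, homog]
  linear_combination (150 * p * q ^ 2 * l ^ 4 * m + 600 * p * q ^ 4 * l ^ 3 * m ^ 2
       + 900 * p * q ^ 6 * l ^ 2 * m ^ 3 + 600 * p * q ^ 8 * l * m ^ 4
       + 150 * p * q ^ 10 * m ^ 5 + 3960 * p ^ 2 * q ^ 3 * l ^ 3 * m ^ 2
       + 1800 * p ^ 2 * q ^ 3 * l ^ 3 * m ^ 2 * s + 11880 * p ^ 2 * q ^ 5 * l ^ 2 * m ^ 3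
       + 5400 * p ^ 2 * q ^ 5 * l ^ 2 * m ^ 3 * s + 11880 * p ^ 2 * q ^ 7 * l * m ^ 4
       + 5400 * p ^ 2 * q ^ 7 * l * m ^ 4 * s + 3960 * p ^ 2 * q ^ 9 * m ^ 5
       + 1800 * p ^ 2 * q ^ 9 * m ^ 5 * s - 120 * p ^ 3 * q ^ 2 * l ^ 3 * m ^ 2
       + 53640 * p ^ 3 * q ^ 4 * l ^ 2 * m ^ 3 + 23760 * p ^ 3 * q ^ 4 * l ^ 2 * m ^ 3 * s
       + 10800 * p ^ 3 * q ^ 4 * l ^ 2 * m ^ 3 * s ^ 2 + 107640 * p ^ 3 * q ^ 6 * l * m ^ 4
       + 47520 * p ^ 3 * q ^ 6 * l * m ^ 4 * s + 21600 * p ^ 3 * q ^ 6 * l * m ^ 4 * s ^ 2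
       + 53880 * p ^ 3 * q ^ 8 * m ^ 5 + 23760 * p ^ 3 * q ^ 8 * m ^ 5 * s
       + 10800 * p ^ 3 * q ^ 8 * m ^ 5 * s ^ 2 + 11880 * p ^ 4 * q ^ 3 * l ^ 2 * m ^ 3
       + 1080 * p ^ 4 * q ^ 3 * l ^ 2 * m ^ 3 * s + 380160 * p ^ 4 * q ^ 5 * l * m ^ 4
       + 164160 * p ^ 4 * q ^ 5 * l * m ^ 4 * s + 71280 * p ^ 4 * q ^ 5 * l * m ^ 4 * s ^ 2
       + 32400 * p ^ 4 * q ^ 5 * l * m ^ 4 * s ^ 3 + 368280 * p ^ 4 * q ^ 7 * m ^ 5
       + 163080 * p ^ 4 * q ^ 7 * m ^ 5 * s + 71280 * p ^ 4 * q ^ 7 * m ^ 5 * s ^ 2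
       + 32400 * p ^ 4 * q ^ 7 * m ^ 5 * s ^ 3 - 1260 * p ^ 5 * q ^ 2 * l ^ 2 * m ^ 3
       + 40680 * p ^ 5 * q ^ 4 * l * m ^ 4 + 47520 * p ^ 5 * q ^ 4 * l * m ^ 4 * s
       + 8640 * p ^ 5 * q ^ 4 * l * m ^ 4 * s ^ 2 + 1013940 * p ^ 5 * q ^ 6 * m ^ 5
       + 475200 * p ^ 5 * q ^ 6 * m ^ 5 * s + 203040 * p ^ 5 * q ^ 6 * m ^ 5 * s ^ 2
       + 85536 * p ^ 5 * q ^ 6 * m ^ 5 * s ^ 3 + 38880 * p ^ 5 * q ^ 6 * m ^ 5 * s ^ 4
       + 11880 * p ^ 6 * q ^ 3 * l * m ^ 4 - 3240 * p ^ 6 * q ^ 3 * l * m ^ 4 * s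
       + 368280 * p ^ 6 * q ^ 5 * m ^ 5 + 81000 * p ^ 6 * q ^ 5 * m ^ 5 * s
       + 71280 * p ^ 6 * q ^ 5 * m ^ 5 * s ^ 2 + 16848 * p ^ 6 * q ^ 5 * m ^ 5 * s ^ 3
       - 1560 * p ^ 7 * q ^ 2 * l * m ^ 4 - 12360 * p ^ 7 * q ^ 4 * m ^ 5
       + 23760 * p ^ 7 * q ^ 4 * m ^ 5 * s - 2160 * p ^ 7 * q ^ 4 * m ^ 5 * s ^ 2
       + 3960 * p ^ 8 * q ^ 3 * m ^ 5 - 2520 * p ^ 8 * q ^ 3 * m ^ 5 * s
       - 570 * p ^ 9 * q ^ 2 * m ^ 5) * hs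

variable {k : Type*} [Field k]

theorem eq_zero_of_fC4_eq_zero (h6 : (6 : k) ≠ 0) (h5 : (5 : k) ≠ 0) {p q : k}
    (h4 : fC4 p q = 0) (hc6 : fC6 p q = 0) : p = 0 ∧ q = 0 := by
  have e := fDiscr p q
  rw [h4, hc6] at e
  have h1728 : (1728 : k) ≠ 0 := ShortForm.ne_zero_1728 h6
  have e' : p ^ 5 * q ^ 5 * (p ^ 2 - 11 * p * q - q ^ 2) = 0 :=
    (mul_eq_zero.mp (show (1728 : k) * (p ^ 5 * q ^ 5 * (p ^ 2 - 11 * p * q - q ^ 2)) = 0 by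
      linear_combination -e)).resolve_left h1728
  simp only [fC4] at h4
  have hpq : p = 0 ∨ q = 0 := by
    rcases mul_eq_zero.mp e' with e' | e'
    · rcases mul_eq_zero.mp e' with e' | e'
      · exact Or.inl ((pow_eq_zero_iff (by norm_num)).mp e')
      · exact Or.inr ((pow_eq_zero_iff (by norm_num)).mp e')
    · have : (5 : k) * (p ^ 2 * q ^ 2) = 0 := by
        linear_combination h4 - (p ^ 2 - p * q + 4 * q ^ 2 - 5 * q ^ 2) * e'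
      have := (mul_eq_zero.mp this).resolve_left h5
      simpa using this
  rcases hpq with rfl | rfl
  · exact ⟨rfl, (pow_eq_zero_iff (n := 4) (by norm_num)).mp (by linear_combination h4)⟩
  · exact ⟨(pow_eq_zero_iff (n := 4) (by norm_num)).mp (by linear_combination h4), rfl⟩

/-- Data attached to a root `s` of `s ^ 2 = 5`: the linear forms are independent. -/
theorem linear_form_ne_zero (h5 : (5 : k) ≠ 0) (h6 : (6 : k) ≠ 0) {c₄ c₆ : k}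
    (hd : c₄ ^ 3 ≠ c₆ ^ 2) {p q : k} (h4 : fC4 p q = c₄) (hc6 : fC6 p q = c₆) {s : k}
    (hs : s ^ 2 = 5) :
    2 * p - (11 + 5 * s) * q ≠ 0 ∧ 12 * s * p * q ≠ 0 := by
  have h := sub_ne_zero.mpr hd
  rw [← h4, ← hc6, fDiscr] at h
  have hpq : p * q ≠ 0 := fun h0 => h (by
    linear_combination (1728 * (p * q) ^ 4 * (p ^ 2 - 11 * p * q - q ^ 2)) * h0)
  have h2 : (2 : k) ≠ 0 := fun h2 => h6 (by linear_combination 3 * h2)
  have h12 : (12 : k) ≠ 0 := by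
    rw [show (12 : k) = 6 * 2 by norm_num]; exact mul_ne_zero h6 h2
  have hs0 : s ≠ 0 := fun h0 => h5 (by rw [← hs, h0]; ring)
  refine ⟨fun h0 => h ?_, ?_⟩
  · have : 4 * (p ^ 2 - 11 * p * q - q ^ 2) = 0 := by
      linear_combination (2 * p - (11 - 5 * s) * q) * h0 + 25 * q ^ 2 * hs
    linear_combination (432 * (p ^ 5 * q ^ 5)) * this
  · rw [show 12 * s * p * q = 12 * s * (p * q) by ring]
    exact mul_ne_zero (mul_ne_zero h12 hs0) hpq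

/-- The two lifts have no common zero. -/
theorem lift_eq_zero [IsAlgClosed k] (h5 : (5 : k) ≠ 0) (h6 : (6 : k) ≠ 0) {c₄ c₆ : k}
    (hd : c₄ ^ 3 ≠ c₆ ^ 2) {p q : k} (h4 : fC4 p q = c₄) (hc6 : fC6 p q = c₆) {l m : k}
    (hP : liftP l m p q = 0) (hQ : liftQ l m p q = 0) : l = 0 ∧ m = 0 := by
  obtain ⟨s, hs⟩ := IsAlgClosed.exists_pow_nat_eq (5 : k) (n := 2) (by norm_num)
  have hs' : (-s) ^ 2 = 5 := by linear_combination hs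
  obtain ⟨hA, hne⟩ := linear_form_ne_zero h5 h6 hd h4 hc6 hs
  obtain ⟨hA', -⟩ := linear_form_ne_zero h5 h6 hd h4 hc6 hs'
  have e := lift_linear_form l m p q hs
  have e' := lift_linear_form l m p q hs'
  rw [hP, hQ] at e e'
  simp only [mul_zero, sub_zero, zero_eq_mul, pow_eq_zero_iff (by norm_num : 5 ≠ 0),
    or_iff_right hA, or_iff_right hA'] at e e'
  have hm : m = 0 := (mul_eq_zero.mp (show 12 * s * p * q * m = 0 by
    linear_combination e - e')).resolve_left hne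
  exact ⟨by rw [hm] at e; linear_combination e, hm⟩

/-- `famC4` and `famC6` have no common zero. -/
theorem fam_eq_zero [IsAlgClosed k] (h5 : (5 : k) ≠ 0) (h6 : (6 : k) ≠ 0) {c₄ c₆ : k}
    (hd : c₄ ^ 3 ≠ c₆ ^ 2) {l m : k} (e4 : famC4 l m c₄ c₆ = 0) (e6 : famC6 l m c₄ c₆ = 0) :
    l = 0 ∧ m = 0 := by
  obtain ⟨p, q, h4, hc6⟩ := exists_param_of_isAlgClosed h5 h6 hd
  obtain ⟨hP, hQ⟩ := eq_zero_of_fC4_eq_zero h6 h5
    ((fC4_lift_eq h4 hc6).trans e4) ((fC6_lift_eq h4 hc6).trans e6)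
  exact lift_eq_zero h5 h6 hd h4 hc6 hP hQ

end Fermat.Agent.Switch35
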