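import Fermat.Agent.Switch35.RationalRoots
import Fermat.Agent.Switch35.Structure
import Fermat.Agent.ThreeFive.Torsion
import Mathlib.Analysis.Complex.Polynomial.Basic
import Mathlib.RingTheory.IntegralClosure.IntegrallyClosed

/-!
# Irreducibility at three along a line of parameters

Along a line of parameters the monic three-division quartic of the members has no polynomial root,
so arbitrarily large integral parameters give members irreducible at three.
-/

set_option autoImplicit false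

namespace Fermat.Agent.Switch35

open Polynomial WeierstrassCurve Filter

/-- The monic form of the three-division polynomial in terms of `A = -27 c₄`, `B = -54 c₆`. -/
def threeDiv {R : Type*} [CommRing R] (A B Z : R) : R :=
  Z ^ 4 + 18 * A * Z ^ 2 + 108 * B * Z - 27 * A ^ 2

/-- If `V` is reducible at three, its monic three-division quartic has an integral root. -/
theorem exists_int_root (V : WeierstrassCurve ℤ) (hΔ : V.Δ ≠ 0)
    (h : ¬ V.ModRepIsIrreducible 3) :
    ∃ Z : ℤ, threeDiv (-27 * V.c₄) (-54 * V.c₆) Z = 0 := by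
  have hΔQ : (V.map (Int.castRingHom ℚ)).Δ ≠ 0 := by rw [map_Δ]; simpa using hΔ
  obtain ⟨q, hq⟩ := ThreeFive.psi3_root _ hΔQ h
  simp only [ThreeFive.psi3B, map_b₂, map_b₄, map_b₆, map_b₈, eq_intCast] at hq
  set z : ℚ := 3 * (36 * q + 3 * (V.b₂ : ℚ)) with hz
  set A : ℤ := -27 * V.c₄ with hA
  set B : ℤ := -54 * V.c₆ with hB
  have hrel : (4 : ℚ) * V.b₈ = V.b₂ * V.b₆ - (V.b₄ : ℚ) ^ 2 := by exact_mod_cast V.b_relation
  have e : threeDiv (A : ℚ) (B : ℚ) z = 0 := by
    simp only [threeDiv, hA, hB, hz, WeierstrassCurve.c₄, WeierstrassCurve.c₆]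
    push_cast
    linear_combination (27 * 36 ^ 4) * hq - (27 * 36 ^ 4 / 4) * hrel
  have hint : IsIntegral ℤ z :=
    ⟨X ^ 4 + C (18 * A) * X ^ 2 + C (108 * B) * X + C (-27 * A ^ 2), by monicity!, by
      simp only [threeDiv] at e
      simp only [eval₂_add, eval₂_mul, eval₂_pow, eval₂_X, eval₂_C]
      simp only [algebraMap_int_eq, eq_intCast]
      push_cast
      linear_combination e⟩
  obtain ⟨Z, hZ⟩ := IsIntegrallyClosed.isIntegral_iff.mp hint
  refine ⟨Z, ?_⟩
  rw [← hZ, eq_intCast] at e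
  simp only [threeDiv] at e ⊢
  exact_mod_cast e

section degree

variable {R : Type*} [CommRing R]

theorem natDegree_homog_le : ∀ (n : ℕ) (xs : List R) (L M : R[X]), xs.length ≤ n + 1 →
    L.natDegree ≤ 1 → M.natDegree ≤ 1 →
    (homog n (xs.map C) L M).natDegree ≤ n ∧
      (homog n (xs.map C) L M).coeff n = homog n xs (L.coeff 1) (M.coeff 1)
  | n, [], L, M, _, _, _ => by simp [homog]
  | 0, c :: cs, L, M, h, _, _ => by
    obtain rfl : cs = [] := by simpa using h
    simp [homog]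
  | n + 1, c :: cs, L, M, h, hL, hM => by
    obtain ⟨h1, h2⟩ := natDegree_homog_le n cs L M (by simpa using h) hL hM
    have hLn : (L ^ (n + 1)).natDegree ≤ n + 1 :=
      natDegree_pow_le.trans (by simpa using Nat.mul_le_mul_left (n + 1) hL)
    simp only [List.map_cons, homog, Nat.add_sub_cancel]
    constructor
    · refine natDegree_add_le_of_degree_le ((natDegree_C_mul_le _ _).trans hLn) ?_
      exact natDegree_mul_le.trans (by omega)
    · have hc : (L ^ (n + 1)).coeff (n + 1) = L.coeff 1 ^ (n + 1) := by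
        simpa using coeff_pow_of_natDegree_le (m := n + 1) hL
      rw [coeff_add, coeff_C_mul, hc, Nat.add_comm n 1, coeff_mul_add_eq_of_natDegree_le hM h1, h2]

variable {l₀ l₁ m₀ m₁ a b p q : R}

theorem natDegree_famC4_le :
    (famC4 (C l₀ + C l₁ * X) (C m₀ + C m₁ * X) (C a) (C b)).natDegree ≤ 20 := by
  have h := (natDegree_homog_le 20 (tabC4.map fun x => rowMon x a b)
    (C l₀ + C l₁ * X) (C m₀ + C m₁ * X) (by simp [tabC4]) (by compute_degree) (by compute_degree)).1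
  simpa [famC4, List.map_map, Function.comp_def, map_rowMon] using h

theorem natDegree_famC6_le :
    (famC6 (C l₀ + C l₁ * X) (C m₀ + C m₁ * X) (C a) (C b)).natDegree ≤ 30 := by
  have h := (natDegree_homog_le 30 (tabC6.map fun x => rowMon x a b)
    (C l₀ + C l₁ * X) (C m₀ + C m₁ * X) (by simp [tabC6]) (by compute_degree) (by compute_degree)).1
  simpa [famC6, List.map_map, Function.comp_def, map_rowMon] using h

theorem coeff_liftP_line :
    (liftP (C l₀ + C l₁ * X) (C m₀ + C m₁ * X) (C p) (C q)).natDegree ≤ 5 ∧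
    (liftP (C l₀ + C l₁ * X) (C m₀ + C m₁ * X) (C p) (C q)).coeff 5 = liftP l₁ m₁ p q := by
  have h := natDegree_homog_le 5 (tabP.map fun x => rowForm x p q)
    (C l₀ + C l₁ * X) (C m₀ + C m₁ * X) (by simp [tabP]) (by compute_degree) (by compute_degree)
  simpa [liftP, List.map_map, Function.comp_def, map_rowForm, coeff_C] using h

theorem coeff_liftQ_line :
    (liftQ (C l₀ + C l₁ * X) (C m₀ + C m₁ * X) (C p) (C q)).natDegree ≤ 5 ∧
    (liftQ (C l₀ + C l₁ * X) (C m₀ + C m₁ * X) (C p) (C q)).coeff 5 = liftQ l₁ m₁ p q := by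
  have h := natDegree_homog_le 5 (tabQ.map fun x => rowForm x p q)
    (C l₀ + C l₁ * X) (C m₀ + C m₁ * X) (by simp [tabQ]) (by compute_degree) (by compute_degree)
  simpa [liftQ, List.map_map, Function.comp_def, map_rowForm, coeff_C] using h

end degree

/-- A polynomial root of the three-division quartic has degree at most ten. -/
theorem natDegree_root_le {K : Type*} [Field K] {A B y : K[X]} (hA : A.natDegree ≤ 20)
    (hB : B.natDegree ≤ 30) (h : threeDiv A B y = 0) : y.natDegree ≤ 10 := by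
  by_contra! hd
  have e : y ^ 4 = -(18 * A * y ^ 2 + 108 * B * y - 27 * A ^ 2) := by
    simp only [threeDiv] at h; linear_combination h
  have h1 : (18 * A * y ^ 2).natDegree ≤ 20 + 2 * y.natDegree := by
    refine natDegree_mul_le.trans (Nat.add_le_add ?_ (by rw [natDegree_pow]))
    rw [← map_ofNat C]
    exact (natDegree_C_mul_le _ _).trans hA
  have h2 : (108 * B * y).natDegree ≤ 30 + y.natDegree := by
    refine natDegree_mul_le.trans (Nat.add_le_add ?_ le_rfl)
    rw [← map_ofNat C]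
    exact (natDegree_C_mul_le _ _).trans hB
  have h3 : (27 * A ^ 2).natDegree ≤ 40 := by
    rw [← map_ofNat C]
    refine (natDegree_C_mul_le _ _).trans ?_
    rw [natDegree_pow]; omega
  have h4 := congrArg natDegree e
  rw [natDegree_pow, natDegree_neg] at h4
  have h5 := natDegree_sub_le (18 * A * y ^ 2 + 108 * B * y) (27 * A ^ 2)
  have h6 := natDegree_add_le (18 * A * y ^ 2) (108 * B * y)
  omega

section complex

attribute [local irreducible] liftP liftQ famC4 famC6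

/-- Differentiating `a R + a' S = b ℓ⁵` at a double zero of `S`. -/
theorem deriv_of_fifth_power {K : Type*} [Field K] (R S ℓ : K[X]) {a a' b c : K} (ha : a ≠ 0)
    (h : C a * R + C a' * S = C b * ℓ ^ 5) (hS : S.eval c = 0) (hS' : S.derivative.eval c = 0) :
    R.derivative.eval c * ℓ.eval c = 5 * ℓ.derivative.eval c * R.eval c := by
  have e0 := congrArg (eval c) h
  have e1 := congrArg (fun f => (derivative f).eval c) h
  simp only [derivative_add, derivative_C_mul, derivative_pow, eval_add, eval_mul, eval_C,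
    eval_pow, Nat.cast_ofNat, hS, hS', mul_zero, add_zero, Nat.add_one_sub_one] at e0 e1
  apply mul_left_cancel₀ ha
  linear_combination ℓ.eval c * e1 - 5 * ℓ.derivative.eval c * e0

variable (l₀ l₁ m₀ m₁ c₄ c₆ : ℂ)

private noncomputable def lineL : ℂ[X] := C l₀ + C l₁ * X
private noncomputable def lineM : ℂ[X] := C m₀ + C m₁ * X

variable {l₀ l₁ m₀ m₁ c₄ c₆}

/-- One of the two lifts has five distinct roots on the line, none shared with the other. -/
theorem exists_simple_lift (hdet : l₀ * m₁ - l₁ * m₀ ≠ 0) (hd : c₄ ^ 3 ≠ c₆ ^ 2) :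
    ∃ (p q : ℂ) (F F' : ℂ[X]) (S : Finset ℂ), fC4 p q = c₄ ∧ fC6 p q = c₆ ∧ S.card = 5 ∧
      (F = liftP (lineL l₀ l₁) (lineM m₀ m₁) (C p) (C q) ∧
          F' = liftQ (lineL l₀ l₁) (lineM m₀ m₁) (C p) (C q) ∨
        F = liftQ (lineL l₀ l₁) (lineM m₀ m₁) (C p) (C q) ∧
          F' = liftP (lineL l₀ l₁) (lineM m₀ m₁) (C p) (C q)) ∧
      F ≠ 0 ∧ ∀ c ∈ S, F.eval c = 0 ∧ F'.eval c ≠ 0 ∧ rootMultiplicity c F = 1 := by
  classical
  have h5 : (5 : ℂ) ≠ 0 := by norm_num
  have h6 : (6 : ℂ) ≠ 0 := by norm_num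
  obtain ⟨p, q, h4, hc6⟩ := exists_param_of_isAlgClosed h5 h6 hd
  obtain ⟨s, hs⟩ := IsAlgClosed.exists_pow_nat_eq (5 : ℂ) (n := 2) (by norm_num)
  have hs' : (-s) ^ 2 = 5 := by linear_combination hs
  obtain ⟨-, hne⟩ := linear_form_ne_zero h5 h6 hd h4 hc6 hs
  set P := liftP (lineL l₀ l₁) (lineM m₀ m₁) (C p) (C q) with hP
  set Q := liftQ (lineL l₀ l₁) (lineM m₀ m₁) (C p) (C q) with hQ
  have evP : ∀ c, P.eval c = liftP (l₀ + l₁ * c) (m₀ + m₁ * c) p q := fun c => by
    rw [hP, ← coe_evalRingHom, map_liftP]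
    simp [lineL, lineM]
  have evQ : ∀ c, Q.eval c = liftQ (l₀ + l₁ * c) (m₀ + m₁ * c) p q := fun c => by
    rw [hQ, ← coe_evalRingHom, map_liftQ]
    simp [lineL, lineM]
  have hnz : ∀ c, ¬ (P.eval c = 0 ∧ Q.eval c = 0) := by
    rintro c ⟨hPc, hQc⟩
    rw [evP] at hPc
    rw [evQ] at hQc
    obtain ⟨hl, hm⟩ := lift_eq_zero h5 h6 hd h4 hc6 hPc hQc
    exact hdet (by linear_combination m₁ * hl - l₁ * hm)
  have hlin : ∀ t : ℂ, t ^ 2 = 5 →
      C 2 * P + C (-(11 + 5 * t)) * Q = C (2 * p - (11 + 5 * t) * q)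
        * (lineL l₀ l₁ + C (p ^ 2 + q ^ 2 + 6 * t * p * q) * lineM m₀ m₁) ^ 5 := fun t ht => by
    have := lift_linear_form (lineL l₀ l₁) (lineM m₀ m₁) (C p) (C q) (s := C t)
      (by rw [← map_pow, ht, map_ofNat])
    rw [← hP, ← hQ] at this
    simp only [map_neg, map_add, map_sub, map_mul, map_pow, map_ofNat]
    linear_combination this
  have hsimple : ∀ (c : ℂ) (R S : ℂ[X]) (a a' : ℂ → ℂ),
      (∀ t : ℂ, t ^ 2 = 5 → a t ≠ 0 ∧
        C (a t) * R + C (a' t) * S = C (2 * p - (11 + 5 * t) * q)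
          * (lineL l₀ l₁ + C (p ^ 2 + q ^ 2 + 6 * t * p * q) * lineM m₀ m₁) ^ 5) →
      R.eval c ≠ 0 → S.eval c = 0 → S.derivative.eval c = 0 → False := by
    intro c R S a a' hRS hR0 hS hS'
    obtain ⟨ha, e⟩ := hRS s hs
    obtain ⟨ha', e'⟩ := hRS (-s) hs'
    have k1 := deriv_of_fifth_power R S _ ha e hS hS'
    have k2 := deriv_of_fifth_power R S _ ha' e' hS hS'
    simp only [lineL, lineM, eval_add, eval_mul, eval_C, eval_X, derivative_add,
      derivative_C_mul, derivative_C, derivative_X, zero_add, mul_one] at k1 k2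
    apply hR0
    have : (5 * (12 * s * p * q) * (l₀ * m₁ - l₁ * m₀)) * R.eval c = 0 := by
      linear_combination (l₀ + l₁ * c + (p ^ 2 + q ^ 2 + 6 * s * p * q) * (m₀ + m₁ * c)) * k2
        - (l₀ + l₁ * c + (p ^ 2 + q ^ 2 + 6 * (-s) * p * q) * (m₀ + m₁ * c)) * k1
    exact (mul_eq_zero.mp this).resolve_left (mul_ne_zero (mul_ne_zero h5 hne) hdet)
  have hPsimple : ∀ c, P.eval c = 0 → P.derivative.eval c = 0 → False := fun c h h' =>
    hsimple c Q P (fun t => -(11 + 5 * t)) (fun _ => 2) (fun t ht =>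
      ⟨neg_ne_zero.mpr fun h0 => (by norm_num : (4 : ℂ) ≠ 0)
        (by linear_combination (5 * t - 11) * h0 - 25 * ht), by rw [add_comm]; exact hlin t ht⟩)
      (fun h0 => hnz c ⟨h, h0⟩) h h'
  have hQsimple : ∀ c, Q.eval c = 0 → Q.derivative.eval c = 0 → False := fun c h h' =>
    hsimple c P Q (fun _ => 2) (fun t => -(11 + 5 * t))
      (fun t ht => ⟨two_ne_zero, hlin t ht⟩) (fun h0 => hnz c ⟨h0, h⟩) h h'
  have main : ∀ F F' : ℂ[X], F.natDegree = 5 → (∀ c, F.eval c = 0 → F'.eval c ≠ 0) →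
      (∀ c, F.eval c = 0 → F.derivative.eval c = 0 → False) →
      ∃ S : Finset ℂ, S.card = 5 ∧ F ≠ 0 ∧
        ∀ c ∈ S, F.eval c = 0 ∧ F'.eval c ≠ 0 ∧ rootMultiplicity c F = 1 := by
    intro F F' hdeg hFne hsimpleF
    have hF0 : F ≠ 0 := fun h => by simp [h] at hdeg
    have hmult : ∀ c, F.eval c = 0 → rootMultiplicity c F = 1 := fun c h => by
      have hpos : 0 < rootMultiplicity c F := (rootMultiplicity_pos hF0).mpr h
      by_contra hne1
      obtain ⟨-, hd'⟩ := (one_lt_rootMultiplicity_iff_isRoot (t := c) hF0).mp (by omega)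
      exact hsimpleF c h hd'
    refine ⟨F.roots.toFinset, ?_, hF0, fun c hc => ?_⟩
    · rw [Multiset.toFinset_card_of_nodup, IsAlgClosed.card_roots_eq_natDegree, hdeg]
      rw [Multiset.nodup_iff_count_le_one]
      intro c
      rw [count_roots]
      by_cases h : F.eval c = 0
      · exact (hmult c h).le
      · rw [rootMultiplicity_eq_zero h]; exact zero_le_one
    · have hFc : F.eval c = 0 := (mem_roots hF0).mp (Multiset.mem_toFinset.mp hc)
      exact ⟨hFc, hFne c hFc, hmult c hFc⟩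
  obtain ⟨hPd, hPc⟩ := coeff_liftP_line (l₀ := l₀) (l₁ := l₁) (m₀ := m₀) (m₁ := m₁) (p := p)
    (q := q)
  obtain ⟨hQd, hQc⟩ := coeff_liftQ_line (l₀ := l₀) (l₁ := l₁) (m₀ := m₀) (m₁ := m₁) (p := p)
    (q := q)
  simp only [← lineL.eq_def] at hPd hPc hQd hQc
  by_cases h : liftP l₁ m₁ p q = 0
  · have hq' : Q.coeff 5 ≠ 0 := fun h' => by
      obtain ⟨hl, hm⟩ := lift_eq_zero h5 h6 hd h4 hc6 h (hQc ▸ h')
      exact hdet (by rw [hl, hm]; ring)
    obtain ⟨S, hS, hF0, hS'⟩ := main Q P (natDegree_eq_of_le_of_coeff_ne_zero hQd hq')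
      (fun c hc h0 => hnz c ⟨h0, hc⟩) hQsimple
    exact ⟨p, q, Q, P, S, h4, hc6, hS, Or.inr ⟨rfl, rfl⟩, hF0, hS'⟩
  · obtain ⟨S, hS, hF0, hS'⟩ := main P Q (natDegree_eq_of_le_of_coeff_ne_zero hPd (hPc ▸ h))
      (fun c hc h0 => hnz c ⟨hc, h0⟩) hPsimple
    exact ⟨p, q, P, Q, S, h4, hc6, hS, Or.inl ⟨rfl, rfl⟩, hF0, hS'⟩

/-- There are five parameters on the line where the discriminant vanishes to order exactly five. -/
theorem exists_five_cusps (hdet : l₀ * m₁ - l₁ * m₀ ≠ 0) (hd : c₄ ^ 3 ≠ c₆ ^ 2) :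
    ∃ S : Finset ℂ, S.card = 5 ∧ ∀ c ∈ S,
      rootMultiplicity c (famC4 (lineL l₀ l₁) (lineM m₀ m₁) (C c₄) (C c₆) ^ 3
        - famC6 (lineL l₀ l₁) (lineM m₀ m₁) (C c₄) (C c₆) ^ 2) = 5 ∧
      (famC4 (lineL l₀ l₁) (lineM m₀ m₁) (C c₄) (C c₆)).eval c ≠ 0 := by
  obtain ⟨p, q, F, F', S, h4, hc6, hScard, hFF, hF0, hS⟩ := exists_simple_lift hdet hd
  refine ⟨S, hScard, fun c hc => ?_⟩
  obtain ⟨hFc, hF'c, hm⟩ := hS c hc
  have e4 : fC4 (C p) (C q) = C c₄ := by rw [← map_fC4, h4]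
  have e6 : fC6 (C p) (C q) = C c₆ := by rw [← map_fC6, hc6]
  rw [← fC4_lift_eq e4 e6, ← fC6_lift_eq e4 e6, fDiscr]
  generalize liftP (lineL l₀ l₁) (lineM m₀ m₁) (C p) (C q) = P at hFF
  generalize liftQ (lineL l₀ l₁) (lineM m₀ m₁) (C p) (C q) = Q at hFF
  constructor
  · rw [show (1728 : ℂ[X]) * (P ^ 5 * Q ^ 5 * (P ^ 2 - 11 * P * Q - Q ^ 2))
        = F ^ 5 * (1728 * (F' ^ 5 * (P ^ 2 - 11 * P * Q - Q ^ 2))) by
        rcases hFF with ⟨rfl, rfl⟩ | ⟨rfl, rfl⟩ <;> ring]
    have hr : (1728 * (F' ^ 5 * (P ^ 2 - 11 * P * Q - Q ^ 2))).eval c ≠ 0 := by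
      rw [eval_mul, eval_mul, eval_pow, eval_ofNat]
      refine mul_ne_zero (by norm_num) (mul_ne_zero (pow_ne_zero _ hF'c) ?_)
      simp only [eval_sub, eval_pow, eval_mul, eval_ofNat]
      rcases hFF with ⟨rfl, rfl⟩ | ⟨rfl, rfl⟩ <;> simp [hFc, hF'c]
    rw [rootMultiplicity_mul (mul_ne_zero (pow_ne_zero _ hF0) fun h => hr (by rw [h, eval_zero])),
      rootMultiplicity_eq_zero hr, add_zero, ← count_roots, roots_pow, Multiset.count_nsmul,
      count_roots, hm]
  · simp only [fC4, eval_sub, eval_add, eval_pow, eval_mul, eval_ofNat]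
    rcases hFF with ⟨rfl, rfl⟩ | ⟨rfl, rfl⟩ <;> simp [hFc, hF'c]

/-- The quartic has no polynomial root along a line. -/
theorem no_polynomial_root (hdet : l₀ * m₁ - l₁ * m₀ ≠ 0) (hd : c₄ ^ 3 ≠ c₆ ^ 2) (y : ℂ[X]) :
    threeDiv (-27 * famC4 (lineL l₀ l₁) (lineM m₀ m₁) (C c₄) (C c₆))
      (-54 * famC6 (lineL l₀ l₁) (lineM m₀ m₁) (C c₄) (C c₆)) y ≠ 0 := by
  classical
  intro h
  obtain ⟨S, hScard, hS⟩ := exists_five_cusps hdet hd
  set C4 := famC4 (lineL l₀ l₁) (lineM m₀ m₁) (C c₄) (C c₆) with hC4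
  set C6 := famC6 (lineL l₀ l₁) (lineM m₀ m₁) (C c₄) (C c₆) with hC6
  set A := -27 * C4 with hA
  set B := -54 * C6 with hB
  have hAd : A.natDegree ≤ 20 := by
    rw [hA, ← map_ofNat C, ← map_neg]; exact (natDegree_C_mul_le _ _).trans natDegree_famC4_le
  have hBd : B.natDegree ≤ 30 := by
    rw [hB, ← map_ofNat C, ← map_neg]; exact (natDegree_C_mul_le _ _).trans natDegree_famC6_le
  have hy := natDegree_root_le hAd hBd h
  set D := 4 * A ^ 3 + 27 * B ^ 2 with hD
  set u := 3 * A + y ^ 2 with hu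
  set w := 27 * A + y ^ 2 with hw
  have key : 432 * y ^ 2 * D = u ^ 3 * w := by
    simp only [threeDiv] at h
    rw [hD, hu, hw]
    linear_combination (108 * B * y - y ^ 4 - 18 * A * y ^ 2 + 27 * A ^ 2) * h
  have hDeq : D = C (-78732) * (C4 ^ 3 - C6 ^ 2) := by
    rw [hD, hA, hB, map_neg, map_ofNat]; ring
  have hy0 : y ≠ 0 := fun h0 => by
    obtain ⟨c, hc⟩ : ∃ c, c ∈ S := Finset.card_pos.mp (by omega)
    rw [h0] at h
    simp [threeDiv, hA] at h
    exact (hS c hc).2 (by rw [h, eval_zero])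
  have hat : ∀ c ∈ S, 5 ≤ rootMultiplicity c w ∧ w ≠ 0 := fun c hc => by
    obtain ⟨hm, hc4⟩ := hS c hc
    have hD5 : rootMultiplicity c D = 5 := by
      rw [hDeq, rootMultiplicity_mul (mul_ne_zero (by simp) fun h0 => by simp [h0] at hm),
        rootMultiplicity_C, zero_add, hm]
    have hD0 : D ≠ 0 := fun h0 => by simp [h0] at hD5
    have hAc : A.eval c ≠ 0 := by
      rw [hA, eval_mul, eval_neg, eval_ofNat]
      exact mul_ne_zero (by norm_num) hc4
    have hlhs : (432 * y ^ 2 * D) ≠ 0 :=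
      mul_ne_zero (mul_ne_zero (by norm_num) (pow_ne_zero _ hy0)) hD0
    have hu0 : u ≠ 0 := fun h0 => hlhs (by rw [key, h0]; ring)
    have hw0 : w ≠ 0 := fun h0 => hlhs (by rw [key, h0, mul_zero])
    have hcount := congrArg (fun f => f.roots.count c) key
    rw [roots_mul hlhs, roots_mul (left_ne_zero_of_mul hlhs), ← map_ofNat C, roots_C,
      roots_mul (key ▸ hlhs), roots_pow, roots_pow, Multiset.count_add, Multiset.count_add,
      Multiset.count_add, Multiset.count_nsmul, Multiset.count_nsmul, count_roots, count_roots,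
      count_roots, count_roots, hD5, Multiset.count_zero, zero_add] at hcount
    refine ⟨?_, hw0⟩
    by_contra hlt
    have hupos : 0 < rootMultiplicity c u := by omega
    have huc : u.eval c = 0 := (rootMultiplicity_pos hu0).mp hupos
    have hyc : y.eval c ≠ 0 := fun hyc => by
      rw [hu, eval_add, eval_mul, eval_pow, hyc, eval_ofNat] at huc
      exact hAc (by linear_combination huc / 3)
    have hwc : w.eval c ≠ 0 := fun hwc => by
      rw [hu, eval_add, eval_mul, eval_pow, eval_ofNat] at huc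
      rw [hw, eval_add, eval_mul, eval_pow, eval_ofNat] at hwc
      exact hAc (by linear_combination (hwc - huc) / 24)
    rw [rootMultiplicity_eq_zero hyc, rootMultiplicity_eq_zero hwc] at hcount
    omega
  obtain ⟨c₀, hc₀⟩ : ∃ c, c ∈ S := Finset.card_pos.mp (by omega)
  have hw0 := (hat c₀ hc₀).2
  have hwd : w.natDegree ≤ 20 := by
    refine natDegree_add_le_of_degree_le ?_ ?_
    · rw [← map_ofNat C]; exact (natDegree_C_mul_le _ _).trans hAd
    · rw [natDegree_pow]; omega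
  have hsum : ∑ c ∈ S, w.roots.count c ≤ w.roots.card := by
    rw [← Multiset.toFinset_sum_count_eq w.roots]
    refine Finset.sum_le_sum_of_subset fun c hc => Multiset.mem_toFinset.mpr ?_
    have := (hat c hc).1
    rw [← count_roots] at this
    exact Multiset.count_pos.mp (by omega)
  have h25 : ∑ _c ∈ S, 5 ≤ ∑ c ∈ S, w.roots.count c :=
    Finset.sum_le_sum fun c hc => by rw [count_roots]; exact (hat c hc).1
  rw [Finset.sum_const, smul_eq_mul, hScard] at h25
  have := card_roots' w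
  omega

end complex

section real

attribute [local irreducible] liftP liftQ famC4 famC6

/-- Arbitrarily large parameters on a line avoid integral roots of the three-division quartic. -/
theorem not_eventually_root (c₄ c₆ l₀ l₁ m₀ m₁ : ℤ) (hd : c₄ ^ 3 ≠ c₆ ^ 2)
    (hdet : l₀ * m₁ - l₁ * m₀ ≠ 0)
    (h0 : famC4 l₀ m₀ c₄ c₆ ^ 3 ≠ famC6 l₀ m₀ c₄ c₆ ^ 2) :
    ¬ ∀ᶠ k : ℕ in atTop, ∃ Z : ℤ,
      threeDiv (-27 * famC4 (l₀ * k + l₁) (m₀ * k + m₁) c₄ c₆)
        (-54 * famC6 (l₀ * k + l₁) (m₀ * k + m₁) c₄ c₆) Z = 0 := by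
  intro hev
  let ι : ℤ →+* ℝ := Int.castRingHom ℝ
  set L : ℝ[X] := C (ι l₀) + C (ι l₁) * X with hL
  set M : ℝ[X] := C (ι m₀) + C (ι m₁) * X with hM
  set A : ℝ[X] := -27 * famC4 L M (C (ι c₄)) (C (ι c₆)) with hA
  set B : ℝ[X] := -54 * famC6 L M (C (ι c₄)) (C (ι c₆)) with hB
  set G : ℝ[X][X] := X ^ 4 + C (18 * A) * X ^ 2 + C (108 * B) * X + C (-27 * A ^ 2) with hG
  have hmonic : G.Monic := by rw [hG]; monicity!
  set a : ℝ := -27 * ι (famC4 l₀ m₀ c₄ c₆) with ha
  set b : ℝ := -54 * ι (famC6 l₀ m₀ c₄ c₆) with hb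
  have hA0 : A.eval 0 = a := by
    rw [hA, ha, eval_mul, ← coe_evalRingHom, map_famC4, map_famC4]; simp [hL, hM]
  have hB0 : B.eval 0 = b := by
    rw [hB, hb, eval_mul, ← coe_evalRingHom, map_famC6, map_famC6]; simp [hL, hM]
  have hG0 : G.map (evalRingHom 0)
      = X ^ 4 + C (18 * a) * X ^ 2 + C (108 * b) * X + C (-27 * a ^ 2) := by
    simp [hG, hA0, hB0]
  have hab : 4 * a ^ 3 + 27 * b ^ 2 ≠ 0 := by
    intro h
    apply h0
    have hi : ι (famC4 l₀ m₀ c₄ c₆ ^ 3 - famC6 l₀ m₀ c₄ c₆ ^ 2) = 0 := by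
      rw [map_sub, map_pow, map_pow]
      apply mul_left_cancel₀ (show (-78732 : ℝ) ≠ 0 by norm_num)
      rw [ha, hb] at h
      linear_combination h
    exact sub_eq_zero.mp ((map_eq_zero_iff ι Int.cast_injective).mp hi)
  have hsep : (G.map (evalRingHom 0)).Separable := by
    rw [← separable_map (algebraMap ℝ ℂ), hG0]
    set f : ℂ[X] := (X ^ 4 + C (18 * a) * X ^ 2 + C (108 * b) * X + C (-27 * a ^ 2)).map
      (algebraMap ℝ ℂ) with hf
    have hf0 : f ≠ 0 := (Monic.map _ (by monicity!)).ne_zero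
    refine isCoprime_of_dvd _ _ (fun h => hf0 h.1) fun z hz hz0 hzf hzf' => ?_
    obtain ⟨r, hzr⟩ := IsAlgClosed.exists_root z
      (fun h => hz (isUnit_iff_degree_eq_zero.mpr h))
    have hr : f.eval r = 0 := eval_eq_zero_of_dvd_of_eval_eq_zero hzf hzr
    have hr' : f.derivative.eval r = 0 := eval_eq_zero_of_dvd_of_eval_eq_zero hzf' hzr
    set α : ℂ := algebraMap ℝ ℂ a
    set β : ℂ := algebraMap ℝ ℂ b
    have hf' : f = X ^ 4 + C (18 * α) * X ^ 2 + C (108 * β) * X + C (-27 * α ^ 2) := by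
      simp only [hf, Polynomial.map_add, Polynomial.map_mul, Polynomial.map_pow, map_X, map_C,
        map_mul, map_pow, map_neg, map_ofNat, Polynomial.map_neg, Polynomial.map_ofNat, α, β]
    rw [hf'] at hr hr'
    simp only [derivative_add, derivative_C_mul, derivative_X_pow, derivative_C, derivative_X,
      eval_add, eval_mul, eval_pow, eval_X, eval_C, add_zero, mul_one,
      Nat.cast_ofNat, Nat.add_one_sub_one, pow_one] at hr hr'
    have hsq : r ^ 2 + 3 * α = 0 := by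
      have : (r ^ 2 + 3 * α) ^ 2 = 0 := by linear_combination (-1 / 3 : ℂ) * hr + (r / 3) * hr'
      exact (pow_eq_zero_iff two_ne_zero).mp this
    have hβ : 27 * β = -6 * α * r := by linear_combination (1 / 4 : ℂ) * hr' - r * hsq
    apply hab
    apply (algebraMap ℝ ℂ).injective
    simp only [map_add, map_mul, map_pow, map_ofNat, map_zero]
    linear_combination (1 / 27 : ℂ) * (27 * β + -6 * α * r) * hβ + (4 / 3 : ℂ) * α ^ 2 * hsq
  have hroot : ∀ᶠ k : ℕ in atTop,
      ∃ z : ℤ, G.evalEval (1 / (k : ℝ)) (z / (k : ℝ) ^ 10) = 0 := by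
    filter_upwards [hev, eventually_gt_atTop 0] with k ⟨Z, hZ⟩ hk
    refine ⟨Z, ?_⟩
    have hk0 : (k : ℝ) ≠ 0 := Nat.cast_ne_zero.mpr hk.ne'
    have hLk : (k : ℝ) * L.eval (1 / (k : ℝ)) = ι (l₀ * k + l₁) := by
      simp [hL, ι]; field_simp
    have hMk : (k : ℝ) * M.eval (1 / (k : ℝ)) = ι (m₀ * k + m₁) := by
      simp [hM, ι]; field_simp
    have h20 : ι (famC4 (l₀ * k + l₁) (m₀ * k + m₁) c₄ c₆)
        = (k : ℝ) ^ 20 * (famC4 L M (C (ι c₄)) (C (ι c₆))).eval (1 / (k : ℝ)) := by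
      rw [map_famC4, ← hLk, ← hMk, ← coe_evalRingHom, map_famC4]
      simp only [coe_evalRingHom, eval_C, famC4]
      rw [homog_scale _ _ _ (by simp [tabC4])]
    have h30 : ι (famC6 (l₀ * k + l₁) (m₀ * k + m₁) c₄ c₆)
        = (k : ℝ) ^ 30 * (famC6 L M (C (ι c₄)) (C (ι c₆))).eval (1 / (k : ℝ)) := by
      rw [map_famC6, ← hLk, ← hMk, ← coe_evalRingHom, map_famC6]
      simp only [coe_evalRingHom, eval_C, famC6]
      rw [homog_scale _ _ _ (by simp [tabC6])]
    have hZ' := congrArg ι hZ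
    simp only [threeDiv, map_add, map_sub, map_mul, map_pow, map_neg, map_ofNat, map_zero, h20,
      h30] at hZ'
    simp only [hG, evalEval, eval_add, eval_mul, eval_pow, eval_X, eval_C, hA, hB, eval_neg,
      eval_ofNat]
    simp only [ι, eq_intCast] at hZ' ⊢
    field_simp
    linear_combination hZ'
  obtain ⟨y, hy⟩ := exists_polynomial_root G hmonic hsep 10 hroot
  have hy' : threeDiv A B y = 0 := by
    simp [hG] at hy
    simp only [threeDiv]
    linear_combination hy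
  let Φ : ℝ[X] →+* ℂ[X] := mapRingHom (algebraMap ℝ ℂ)
  refine no_polynomial_root (l₀ := (l₀ : ℂ)) (l₁ := l₁) (m₀ := m₀) (m₁ := m₁) (c₄ := c₄) (c₆ := c₆)
    (by exact_mod_cast hdet) (by exact_mod_cast hd) (Φ y) ?_
  have e := congrArg Φ hy'
  simp only [threeDiv, hA, hB, map_add, map_sub, map_mul, map_pow, map_neg, map_ofNat, map_zero,
    map_famC4, map_famC6] at e ⊢
  have hC : ∀ x : ℤ, Φ (C (ι x)) = C (x : ℂ) := fun x => by simp [Φ, ι]
  have hX : Φ X = X := Polynomial.map_X _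
  have hLc : Φ L = lineL (l₀ : ℂ) (l₁ : ℂ) := by rw [hL, map_add, map_mul, hC, hC, hX, lineL]
  have hMc : Φ M = lineM (m₀ : ℂ) (m₁ : ℂ) := by rw [hM, map_add, map_mul, hC, hC, hX, lineM]
  rw [hLc, hMc, hC, hC] at e
  exact e

end real

end Fermat.Agent.Switch35
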