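import Fermat.Agent.Switch35.Forms
import Mathlib.AlgebraicGeometry.EllipticCurve.Affine.Point
import Mathlib.Tactic.LinearCombination
import Mathlib.Tactic.FieldSimp

/-!
# Parameters of points of order five

Points of order five on `y² = x³ - 27 c₄ x - 54 c₆` correspond to pairs `(p, q)` with
`(fC4 p q, fC6 p q) = (c₄, c₆)`; doubling is `(p, q) ↦ (-q, p)`.
-/

set_option autoImplicit false

namespace Fermat.Agent.Switch35

open WeierstrassCurve

variable {K : Type*} [Field K]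

/-- `W` is `y² = x³ - 27 c₄ x - 54 c₆`. -/
structure ShortForm (W : WeierstrassCurve.Affine K) (c₄ c₆ : K) : Prop where
  a₁ : W.a₁ = 0
  a₂ : W.a₂ = 0
  a₃ : W.a₃ = 0
  a₄ : W.a₄ = -27 * c₄
  a₆ : W.a₆ = -54 * c₆

/-- The discriminant `fC4³ - fC6²` in the parameters. -/
theorem fDiscr {R : Type*} [CommRing R] (p q : R) :
    fC4 p q ^ 3 - fC6 p q ^ 2 = 1728 * (p ^ 5 * q ^ 5 * (p ^ 2 - 11 * p * q - q ^ 2)) := by
  simp only [fC4, fC6]; ring

variable {W : WeierstrassCurve.Affine K} {c₄ c₆ : K}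

namespace ShortForm

/-- Negation on a short form changes the sign of `y`. -/
theorem negY_eq (hs : ShortForm W c₄ c₆) (x y : K) : W.negY x y = -y := by
  simp [Affine.negY, hs.a₁, hs.a₃]

/-- The equation of a short form. -/
theorem equation_iff (hs : ShortForm W c₄ c₆) (x y : K) :
    W.Equation x y ↔ y ^ 2 = x ^ 3 - 27 * c₄ * x - 54 * c₆ := by
  rw [Affine.equation_iff, hs.a₁, hs.a₂, hs.a₃, hs.a₄, hs.a₆]
  constructor <;> intro h <;> linear_combination h

theorem Δ_eq (hs : ShortForm W c₄ c₆) : W.Δ = 2 ^ 6 * 3 ^ 9 * (c₄ ^ 3 - c₆ ^ 2) := by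
  simp [WeierstrassCurve.Δ, WeierstrassCurve.b₂, WeierstrassCurve.b₄, WeierstrassCurve.b₆,
    WeierstrassCurve.b₈, hs.a₁, hs.a₂, hs.a₃, hs.a₄, hs.a₆]
  ring

/-- `2 ≠ 0` when `6 ≠ 0`. -/
theorem two_ne_zero (h6 : (6 : K) ≠ 0) : (2 : K) ≠ 0 := fun h => h6 (by linear_combination 3 * h)

/-- `3 ≠ 0` when `6 ≠ 0`. -/
theorem three_ne_zero (h6 : (6 : K) ≠ 0) : (3 : K) ≠ 0 := fun h => h6 (by linear_combination 2 * h)

/-- `1728 ≠ 0` when `6 ≠ 0`. -/
theorem ne_zero_1728 (h6 : (6 : K) ≠ 0) : (1728 : K) ≠ 0 := by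
  rw [show (1728 : K) = 6 ^ 3 * 2 ^ 3 by norm_num]
  exact mul_ne_zero (pow_ne_zero _ h6) (pow_ne_zero _ (two_ne_zero h6))

/-- A short form with `c₄³ ≠ c₆²` has nonzero discriminant. -/
theorem Δ_ne_zero (hs : ShortForm W c₄ c₆) (h6 : (6 : K) ≠ 0) (hd : c₄ ^ 3 ≠ c₆ ^ 2) :
    W.Δ ≠ 0 := by
  rw [hs.Δ_eq]
  exact mul_ne_zero (mul_ne_zero (pow_ne_zero _ (two_ne_zero h6))
    (pow_ne_zero _ (three_ne_zero h6))) (sub_ne_zero.mpr hd)

theorem nonsingular_of_eq (hs : ShortForm W c₄ c₆) (h6 : (6 : K) ≠ 0) (hd : c₄ ^ 3 ≠ c₆ ^ 2)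
    {x y : K} (h : y ^ 2 = x ^ 3 - 27 * c₄ * x - 54 * c₆) : W.Nonsingular x y :=
  (Affine.equation_iff_nonsingular_of_Δ_ne_zero (hs.Δ_ne_zero h6 hd)).mp
    ((hs.equation_iff x y).mpr h)

/-- The point of coordinates `(fX p q, fY p q)` is nonsingular. -/
theorem nonsingular_fX_fY (hs : ShortForm W c₄ c₆) (h6 : (6 : K) ≠ 0) (hd : c₄ ^ 3 ≠ c₆ ^ 2)
    {p q : K} (h4 : fC4 p q = c₄) (hc6 : fC6 p q = c₆) : W.Nonsingular (fX p q) (fY p q) :=
  hs.nonsingular_of_eq h6 hd (by subst h4 hc6; simp only [fX, fY, fC4, fC6]; ring)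

end ShortForm

/-- The point with parameters `(p, q)`. -/
noncomputable def mkPoint (hs : ShortForm W c₄ c₆) (h6 : (6 : K) ≠ 0) (hd : c₄ ^ 3 ≠ c₆ ^ 2)
    {p q : K} (h4 : fC4 p q = c₄) (hc6 : fC6 p q = c₆) : W.Point :=
  .some _ _ (hs.nonsingular_fX_fY h6 hd h4 hc6)

/-- Parameters of a nonsingular member are nonzero. -/
theorem param_ne_zero (hd : c₄ ^ 3 ≠ c₆ ^ 2) {p q : K} (h4 : fC4 p q = c₄)
    (hc6 : fC6 p q = c₆) : p ≠ 0 ∧ q ≠ 0 := by
  have h := sub_ne_zero.mpr hd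
  rw [← h4, ← hc6, fDiscr] at h
  constructor <;> rintro rfl <;> simp at h

variable [DecidableEq K] (hs : ShortForm W c₄ c₆) (h6 : (6 : K) ≠ 0) (hd : c₄ ^ 3 ≠ c₆ ^ 2)
include hs h6 hd

omit hs [DecidableEq K] in
/-- The ordinate of a parametrised point is nonzero. -/
theorem fY_ne_zero {p q : K} (h4 : fC4 p q = c₄) (hc6 : fC6 p q = c₆) : fY p q ≠ 0 := by
  obtain ⟨hp, hq⟩ := param_ne_zero hd h4 hc6
  have h108 : (108 : K) ≠ 0 := by
    rw [show (108 : K) = 2 ^ 2 * 3 ^ 3 by norm_num]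
    exact mul_ne_zero (pow_ne_zero _ (ShortForm.two_ne_zero h6))
      (pow_ne_zero _ (ShortForm.three_ne_zero h6))
  simp [fY, hp, hq, h108]

omit hs [DecidableEq K] in
/-- A point determines its parameters. -/
theorem param_unique {p q p' q' : K} (h4 : fC4 p q = c₄) (hc6 : fC6 p q = c₆)
    (h4' : fC4 p' q' = c₄) (hX : fX p q = fX p' q') (hY : fY p q = fY p' q') :
    p = p' ∧ q = q' := by
  have hy : fY p q ≠ 0 := fY_ne_zero h6 hd h4 hc6
  have e : ∀ a b : K, 3 * fX a b ^ 2 - 27 * fC4 a b = 6 * fY a b * (b - a) := fun a b => by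
    simp only [fX, fY, fC4]; ring
  have hdiff : q - p = q' - p' := by
    have h1 := e p q
    have h2 := e p' q'
    rw [h4] at h1
    rw [h4', ← hX, ← hY, h1] at h2
    exact mul_left_cancel₀ (mul_ne_zero h6 hy) h2
  have hprod : p * q = p' * q' := by
    simp only [fX] at hX
    have h12 : (12 : K) ≠ 0 := by
      rw [show (12 : K) = 6 * 2 by norm_num]; exact mul_ne_zero h6 (ShortForm.two_ne_zero h6)
    apply mul_left_cancel₀ h12
    linear_combination -hX + 3 * (q - p + (q' - p')) * hdiff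
  have hq : q = q' := by
    simp only [fY] at hY hy
    apply mul_left_cancel₀ (a := -108 * (p * q))
    · intro h
      exact hy (by linear_combination q * h)
    · linear_combination hY - 108 * q' * hprod.symm
  exact ⟨by linear_combination -hdiff + hq, hq⟩

omit [DecidableEq K] in
/-- The parameters `(-p, -q)` give the opposite point. -/
theorem mkPoint_neg {p q : K} (h4 : fC4 p q = c₄) (hc6 : fC6 p q = c₆)
    (h4' : fC4 (-p) (-q) = c₄) (hc6' : fC6 (-p) (-q) = c₆) :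
    mkPoint hs h6 hd h4' hc6' = -mkPoint hs h6 hd h4 hc6 := by
  simp only [mkPoint, Affine.Point.neg_some, Affine.Point.some.injEq]
  refine ⟨by simp [fX], ?_⟩
  rw [hs.negY_eq]
  simp only [fY]; ring

/-- Doubling is `(p, q) ↦ (-q, p)`. -/
theorem mkPoint_add_self {p q : K} (h4 : fC4 p q = c₄) (hc6 : fC6 p q = c₆)
    (h4' : fC4 (-q) p = c₄) (hc6' : fC6 (-q) p = c₆) :
    mkPoint hs h6 hd h4 hc6 + mkPoint hs h6 hd h4 hc6 = mkPoint hs h6 hd h4' hc6' := by
  have hy : fY p q ≠ 0 := fY_ne_zero h6 hd h4 hc6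
  have hne : fY p q ≠ W.negY (fX p q) (fY p q) := by
    rw [hs.negY_eq]
    intro h
    exact mul_ne_zero (ShortForm.two_ne_zero h6) hy (by linear_combination h)
  have hl : W.slope (fX p q) (fX p q) (fY p q) (fY p q) = 3 * (q - p) := by
    have h2y : fY p q - -fY p q ≠ 0 := by
      rw [sub_neg_eq_add, ← two_mul]; exact mul_ne_zero (ShortForm.two_ne_zero h6) hy
    rw [Affine.slope_of_Y_ne rfl hne, hs.negY_eq, hs.a₁, hs.a₂, hs.a₄, div_eq_iff h2y, ← h4]
    simp only [fX, fY, fC4]; ring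
  simp only [mkPoint]
  rw [Affine.Point.add_self_of_Y_ne hne]
  simp only [Affine.Point.some.injEq, hl]
  simp only [Affine.addY, Affine.negAddY, Affine.addX,
    hs.negY_eq, hs.a₁, hs.a₂, fX, fY]
  constructor <;> ring

/-- The points with parameters are killed by five. -/
theorem five_nsmul_mkPoint {p q : K} (h4 : fC4 p q = c₄) (hc6 : fC6 p q = c₆) :
    5 • mkPoint hs h6 hd h4 hc6 = 0 := by
  have a4 : fC4 (-q) p = c₄ := by rw [← h4]; simp only [fC4]; ring
  have a6 : fC6 (-q) p = c₆ := by rw [← hc6]; simp only [fC6]; ring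
  have b4 : fC4 (-p) (-q) = c₄ := by rw [← h4]; simp only [fC4]; ring
  have b6 : fC6 (-p) (-q) = c₆ := by rw [← hc6]; simp only [fC6]; ring
  have h1 := mkPoint_add_self hs h6 hd h4 hc6 a4 a6
  have h2 := mkPoint_add_self hs h6 hd a4 a6 b4 b6
  rw [mkPoint_neg hs h6 hd h4 hc6, ← h1] at h2
  have : 5 • mkPoint hs h6 hd h4 hc6
      = (mkPoint hs h6 hd h4 hc6 + mkPoint hs h6 hd h4 hc6)
        + (mkPoint hs h6 hd h4 hc6 + mkPoint hs h6 hd h4 hc6) + mkPoint hs h6 hd h4 hc6 := by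
    abel
  rw [this, h2, neg_add_cancel]

omit hd in
/-- Every point of order five has parameters. -/
theorem exists_param {x y : K} {h : W.Nonsingular x y}
    (h5 : 5 • (Affine.Point.some x y h) = 0) :
    ∃ p q, fC4 p q = c₄ ∧ fC6 p q = c₆ ∧ x = fX p q ∧ y = fY p q := by
  set P : W.Point := Affine.Point.some x y h with hP
  have hP0 : P ≠ 0 := Affine.Point.some_ne_zero h
  have hy : y ≠ 0 := by
    intro hy
    have h2 : P + P = 0 := by
      rw [hP]
      exact Affine.Point.add_self_of_Y_eq (by rw [hs.negY_eq, hy, neg_zero])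
    apply hP0
    rw [← h5, show 5 • P = (P + P) + (P + P) + P by abel, h2, zero_add, zero_add]
  have heq := (hs.equation_iff x y).mp h.1
  have hne : y ≠ W.negY x y := by
    rw [hs.negY_eq]
    intro h'
    exact mul_ne_zero (ShortForm.two_ne_zero h6) hy (by linear_combination h')
  set lam := W.slope x x y y with hlam
  have h2y : y - -y ≠ 0 := by
    rw [sub_neg_eq_add, ← two_mul]; exact mul_ne_zero (ShortForm.two_ne_zero h6) hy
  have hlam' : 3 * x ^ 2 - 27 * c₄ = 2 * y * lam := by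
    have := hlam
    rw [Affine.slope_of_Y_ne rfl hne, hs.negY_eq, hs.a₁, hs.a₂, hs.a₄, eq_div_iff h2y] at this
    linear_combination -this
  have hdbl : P + P = Affine.Point.some _ _
      (Affine.nonsingular_add h h fun hxy => hne hxy.2) := by
    rw [hP]; exact Affine.Point.add_self_of_Y_ne hne
  set x₂ := W.addX x x lam with hx₂
  set y₂ := W.addY x x y lam with hy₂
  have hx₂' : x₂ = lam ^ 2 - 2 * x := by
    rw [hx₂, Affine.addX, hs.a₁, hs.a₂]; ring
  have hy₂' : y₂ = -(y + lam * (x₂ - x)) := by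
    rw [hy₂, Affine.addY, hs.negY_eq, Affine.negAddY, ← hx₂]; ring
  have hne2 : x₂ ≠ x := by
    intro hxx
    rcases (Affine.Point.X_eq_iff (h₁ := Affine.nonsingular_add h h fun hxy => hne hxy.2)
      (h₂ := h)).mp hxx with h' | h'
    · rw [← hdbl, ← hP, add_eq_left] at h'
      exact hP0 h'
    · rw [← hdbl, ← hP] at h'
      apply hP0
      have h3 : P + P + P = 0 := by rw [h', neg_add_cancel]
      calc P = 2 • (P + P + P) - 5 • P := by abel
        _ = 0 := by rw [h3, h5]; simp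
  have h3P : Affine.Point.some _ _ (Affine.nonsingular_add h h fun hxy => hne hxy.2)
      + Affine.Point.some x y h
      = -Affine.Point.some _ _ (Affine.nonsingular_add h h fun hxy => hne hxy.2) := by
    rw [← hdbl, ← hP, eq_neg_iff_add_eq_zero, ← h5]; abel
  rw [Affine.Point.add_of_X_ne hne2, Affine.Point.neg_some, Affine.Point.some.injEq] at h3P
  have hx3 : ((y₂ - y) / (x₂ - x)) ^ 2 = 2 * x₂ + x := by
    have := h3P.1
    rw [Affine.slope_of_X_ne hne2, ← hx₂, ← hy₂, Affine.addX, hs.a₁, hs.a₂] at this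
    linear_combination this
  rw [div_pow, div_eq_iff (pow_ne_zero _ (sub_ne_zero.mpr hne2))] at hx3
  set d := x₂ - x with hd'
  have hd0 : d ≠ 0 := sub_ne_zero.mpr hne2
  have hkey : 4 * y ^ 2 + 4 * y * lam * d = d ^ 3 := by
    have e1 : y₂ - y = -(2 * y + lam * d) := by rw [hy₂']; ring
    have e2 : 2 * x₂ + x = d + lam ^ 2 := by
      have : x₂ = d + x := by simp [hd']
      linear_combination hx₂' + this
    rw [e1, e2] at hx3
    linear_combination hx3
  have h3 : (3 : K) ≠ 0 := ShortForm.three_ne_zero h6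
  obtain ⟨q, hq⟩ : ∃ q, y = -(3 * d) * q := ⟨-y / (3 * d), by field_simp⟩
  obtain ⟨p, hp⟩ : ∃ p, lam = 3 * (q - p) := ⟨q - lam / 3, by field_simp; ring⟩
  have hdpq : d = 36 * (p * q) := by
    have e : d ^ 2 * (d - 36 * (p * q)) = 0 := by
      linear_combination -hkey + (4 * (y - 3 * d * q) + 4 * lam * d) * hq
        - 12 * d ^ 2 * q * hp
    rcases mul_eq_zero.mp e with h' | h'
    · exact absurd h' (pow_ne_zero 2 hd0)
    · exact sub_eq_zero.mp h'
  have hx : x = fX p q := by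
    apply mul_left_cancel₀ h3
    simp only [fX]
    linear_combination hx₂' - hd' - hdpq + (lam + 3 * (q - p)) * hp
  have hyq : y = fY p q := by
    simp only [fY]
    linear_combination hq - 3 * q * hdpq
  have hc4 : fC4 p q = c₄ := by
    have h27 : (27 : K) ≠ 0 := by
      rw [show (27 : K) = 3 ^ 3 by norm_num]; exact pow_ne_zero _ h3
    apply mul_left_cancel₀ h27
    rw [hx, hyq, hp] at hlam'
    simp only [fX, fY] at hlam'
    simp only [fC4]
    linear_combination hlam'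
  have hc6 : fC6 p q = c₆ := by
    have h54 : (54 : K) ≠ 0 := by
      rw [show (54 : K) = 6 * 3 ^ 2 by norm_num]; exact mul_ne_zero h6 (pow_ne_zero _ h3)
    apply mul_left_cancel₀ h54
    rw [hx, hyq] at heq
    simp only [fX, fY] at heq
    simp only [fC4] at hc4
    simp only [fC6]
    linear_combination -heq - 27 * 3 * (p ^ 2 - 6 * p * q + q ^ 2) * hc4
  exact ⟨p, q, hc4, hc6, hx, hyq⟩

end Fermat.Agent.Switch35
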