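import Fermat.Agent.Switch35.Forms
import Mathlib.Algebra.Field.Basic
import Mathlib.Algebra.Ring.Divisibility.Basic
import Mathlib.Tactic.LinearCombination

/-!
# Rigidity of the parameters

Solutions of `(fC4, fC6) = const` are rigid: the Jacobian is `17280 p⁴ q⁴`.
-/

set_option autoImplicit false

namespace Fermat.Agent.Switch35

variable {R k : Type*} [CommRing R] [IsDomain R] [Field k]

/-- A parameter pair with nonzero specialisation is determined by its forms and that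
specialisation. -/
theorem param_rigid (ev : R →+* k) (hk : (17280 : k) ≠ 0) {p q p' q' : R}
    (h4 : fC4 p q = fC4 p' q') (h6 : fC6 p q = fC6 p' q') (hp : ev p = ev p') (hq : ev q = ev q')
    (hp0 : ev p ≠ 0) (hq0 : ev q ≠ 0) : p = p' ∧ q = q' := by
  set a := (p + p') * (p ^ 2 + p' ^ 2) - 12 * (p ^ 2 + p * p' + p' ^ 2) * q
    + 14 * (p + p') * q ^ 2 + 12 * q ^ 3 with ha
  set b := -12 * p' ^ 3 + 14 * p' ^ 2 * (q + q') + 12 * p' * (q ^ 2 + q * q' + q' ^ 2)
    + (q + q') * (q ^ 2 + q' ^ 2) with hb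
  set c := -(p ^ 5 + p ^ 4 * p' + p ^ 3 * p' ^ 2 + p ^ 2 * p' ^ 3 + p * p' ^ 4 + p' ^ 5)
    + 18 * (p ^ 4 + p ^ 3 * p' + p ^ 2 * p' ^ 2 + p * p' ^ 3 + p' ^ 4) * q
    - 75 * (p ^ 3 + p ^ 2 * p' + p * p' ^ 2 + p' ^ 3) * q ^ 2 - 75 * (p + p') * q ^ 4
    - 18 * q ^ 5 with hc
  set d := 18 * p' ^ 5 - 75 * p' ^ 4 * (q + q')
    - 75 * p' ^ 2 * (q ^ 3 + q ^ 2 * q' + q * q' ^ 2 + q' ^ 3)
    - 18 * p' * (q ^ 4 + q ^ 3 * q' + q ^ 2 * q' ^ 2 + q * q' ^ 3 + q' ^ 4)
    - (q ^ 5 + q ^ 4 * q' + q ^ 3 * q' ^ 2 + q ^ 2 * q' ^ 3 + q * q' ^ 4 + q' ^ 5) with hd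
  have e4 : a * (p - p') + b * (q - q') = 0 := by
    simp only [fC4] at h4
    linear_combination h4
  have e6 : c * (p - p') + d * (q - q') = 0 := by
    simp only [fC6] at h6
    linear_combination h6
  have hdet : a * d - b * c ≠ 0 := by
    intro h
    have h' := congrArg ev h
    rw [ha, hb, hc, hd] at h'
    simp only [map_sub, map_add, map_mul, map_neg, map_pow, map_ofNat, map_zero, ← hp, ← hq] at h'
    exact mul_ne_zero (mul_ne_zero hk (pow_ne_zero 4 hp0)) (pow_ne_zero 4 hq0)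
      (by linear_combination h')
  refine ⟨sub_eq_zero.mp ?_, sub_eq_zero.mp ?_⟩
  · exact (mul_eq_zero.mp (show (a * d - b * c) * (p - p') = 0 by
      linear_combination d * e4 - b * e6)).resolve_left hdet
  · exact (mul_eq_zero.mp (show (a * d - b * c) * (q - q') = 0 by
      linear_combination a * e6 - c * e4)).resolve_left hdet

end Fermat.Agent.Switch35
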