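import Fermat.Agent.Switch35.Identities
import Fermat.Agent.Switch35.OrderFive
import Fermat.Agent.Switch35.Rigid
import Mathlib.RingTheory.PowerSeries.Inverse
import Mathlib.RingTheory.PowerSeries.NoZeroDivisors

/-!
# The quintic lift of five-torsion

The quintic lift sends the 5-torsion of `y² = x³ - 27 c₄ x - 54 c₆` additively into the 5-torsion
of the member `(famC4 l m c₄ c₆, famC6 l m c₄ c₆)`; additivity is proved by rigidity along the
segment from `(1, 0)` to `(l, m)`.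
-/

set_option autoImplicit false

namespace Fermat.Agent.Switch35

open WeierstrassCurve Polynomial

section forms

variable {R : Type*} [CommRing R] (l m p q : R)

/-- `fC4` is even. -/
theorem fC4_neg : fC4 (-p) (-q) = fC4 p q := by simp only [fC4]; ring

/-- `fC6` is even. -/
theorem fC6_neg : fC6 (-p) (-q) = fC6 p q := by simp only [fC6]; ring

theorem fC4_rot : fC4 (-q) p = fC4 p q := by simp only [fC4]; ring

theorem fC6_rot : fC6 (-q) p = fC6 p q := by simp only [fC6]; ring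

/-- `liftP` is odd in the parameters. -/
theorem liftP_neg : liftP l m (-p) (-q) = -liftP l m p q := by
  simp [liftP, tabP, rowForm, homog]; ring

/-- `liftQ` is odd in the parameters. -/
theorem liftQ_neg : liftQ l m (-p) (-q) = -liftQ l m p q := by
  simp [liftQ, tabQ, rowForm, homog]; ring

theorem liftP_rot : liftP l m (-q) p = -liftQ l m p q := by
  simp [liftP, liftQ, tabP, tabQ, rowForm, homog]; ring

theorem liftQ_rot : liftQ l m (-q) p = liftP l m p q := by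
  simp [liftP, liftQ, tabP, tabQ, rowForm, homog]; ring

theorem liftP_one_zero : liftP 1 0 p q = p := by simp [liftP, tabP, rowForm, homog]

theorem liftQ_one_zero : liftQ 1 0 p q = q := by simp [liftQ, tabQ, rowForm, homog]

/-- The member at `(1, 0)` has the original `c₄`. -/
theorem famC4_one_zero (a b : R) : famC4 1 0 a b = a := by simp [famC4, tabC4, rowMon, homog]

/-- The member at `(1, 0)` has the original `c₆`. -/
theorem famC6_one_zero (a b : R) : famC6 1 0 a b = b := by simp [famC6, tabC6, rowMon, homog]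

variable {l m p q} {c₄ c₆ : R}

/-- The lift is a parameter of the member: `c₄`. -/
theorem fC4_lift_eq (h4 : fC4 p q = c₄) (hc6 : fC6 p q = c₆) :
    fC4 (liftP l m p q) (liftQ l m p q) = famC4 l m c₄ c₆ := by
  rw [(lift_identities l m p q).1, h4, hc6]

/-- The lift is a parameter of the member: `c₆`. -/
theorem fC6_lift_eq (h4 : fC4 p q = c₄) (hc6 : fC6 p q = c₆) :
    fC6 (liftP l m p q) (liftQ l m p q) = famC6 l m c₄ c₆ := by
  rw [(lift_identities l m p q).2, h4, hc6]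

end forms

variable {k : Type*} [Field k]

theorem natCast_17280_ne_zero (h6 : (6 : k) ≠ 0) (h5 : (5 : k) ≠ 0) : (17280 : k) ≠ 0 := by
  classical
  rw [show (17280 : k) = 6 ^ 3 * 2 ^ 4 * 5 by norm_num]
  exact mul_ne_zero (mul_ne_zero (pow_ne_zero _ h6)
    (pow_ne_zero _ (ShortForm.two_ne_zero h6))) h5

theorem exists_constantCoeff_inverse (f : PowerSeries k)
    (h : PowerSeries.constantCoeff f ≠ 0) : ∃ g, f * g = 1 :=
  ⟨f⁻¹, PowerSeries.mul_inv_cancel f h⟩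

variable {c₄ c₆ l m : k}

section segment

/-! Parameters and invariants along the segment from `(1, 0)` to `(l, m)`, as polynomials in the
time. -/

variable (l m)

/-- The first parameter of the lift of `(a, b)` along the segment `(1 + (l - 1) T, m T)`. -/
noncomputable def segP (a b : k) : k[X] := liftP (1 + C (l - 1) * X) (C m * X) (C a) (C b)

/-- The second parameter of the lift of `(a, b)` along the segment. -/
noncomputable def segQ (a b : k) : k[X] := liftQ (1 + C (l - 1) * X) (C m * X) (C a) (C b)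

/-- The first invariant of the member along the segment. -/
noncomputable def segC4 (a b : k) : k[X] := famC4 (1 + C (l - 1) * X) (C m * X) (C a) (C b)

/-- The second invariant of the member along the segment. -/
noncomputable def segC6 (a b : k) : k[X] := famC6 (1 + C (l - 1) * X) (C m * X) (C a) (C b)

/-- At time one the segment gives the lift. -/
theorem eval_one_seg (a b : k) :
    evalRingHom 1 (segP l m a b) = liftP l m a b ∧ evalRingHom 1 (segQ l m a b) = liftQ l m a b := by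
  simp only [segP, segQ, map_liftP, map_liftQ]; simp

/-- At time zero the segment gives the parameters themselves. -/
theorem eval_zero_seg (a b : k) :
    evalRingHom 0 (segP l m a b) = a ∧ evalRingHom 0 (segQ l m a b) = b := by
  simp only [segP, segQ, map_liftP, map_liftQ]; simp [liftP_one_zero, liftQ_one_zero]

/-- At time zero the segment gives the invariants themselves. -/
theorem eval_zero_segC (a b : k) :
    evalRingHom 0 (segC4 l m a b) = a ∧ evalRingHom 0 (segC6 l m a b) = b := by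
  simp only [segC4, segC6, map_famC4, map_famC6]; simp [famC4_one_zero, famC6_one_zero]

variable {l m}

/-- The segment consists of parameters of the member. -/
theorem seg_mem {p q : k} (h4 : fC4 p q = c₄) (hc6 : fC6 p q = c₆) :
    fC4 (segP l m p q) (segQ l m p q) = segC4 l m c₄ c₆ ∧
      fC6 (segP l m p q) (segQ l m p q) = segC6 l m c₄ c₆ := by
  have e4 : fC4 (C p : k[X]) (C q) = C c₄ := by rw [← map_fC4, h4]
  have e6 : fC6 (C p : k[X]) (C q) = C c₆ := by rw [← map_fC6, hc6]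
  exact ⟨fC4_lift_eq e4 e6, fC6_lift_eq e4 e6⟩

end segment

/-- Rigidity along the segment: a relation of the lifts at time one spreads to time zero. -/
theorem segment_rigid (h6 : (6 : k) ≠ 0) (h5 : (5 : k) ≠ 0)
    (hd' : famC4 l m c₄ c₆ ^ 3 ≠ famC6 l m c₄ c₆ ^ 2) {p q p' q' : k}
    (hp4 : fC4 p q = c₄) (hp6 : fC6 p q = c₆) (hq4 : fC4 p' q' = c₄) (hq6 : fC6 p' q' = c₆)
    (hP : liftP l m p q = liftP l m p' q') (hQ : liftQ l m p q = liftQ l m p' q') :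
    p = p' ∧ q = q' := by
  classical
  have ev := eval_one_seg l m
  obtain ⟨hp0, hq0⟩ := param_ne_zero hd' (fC4_lift_eq hp4 hp6) (fC6_lift_eq hp4 hp6)
  obtain ⟨h1, h2⟩ := param_rigid (evalRingHom 1) (natCast_17280_ne_zero h6 h5)
    ((seg_mem (l := l) (m := m) hp4 hp6).1.trans (seg_mem hq4 hq6).1.symm)
    ((seg_mem (l := l) (m := m) hp4 hp6).2.trans (seg_mem hq4 hq6).2.symm)
    (by rw [(ev _ _).1, (ev _ _).1, hP]) (by rw [(ev _ _).2, (ev _ _).2, hQ])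
    (by rw [(ev _ _).1]; exact hp0) (by rw [(ev _ _).2]; exact hq0)
  have e1 := congrArg (evalRingHom 0) h1
  have e2 := congrArg (evalRingHom 0) h2
  rw [(eval_zero_seg _ _ _ _).1, (eval_zero_seg _ _ _ _).1] at e1
  rw [(eval_zero_seg _ _ _ _).2, (eval_zero_seg _ _ _ _).2] at e2
  exact ⟨e1, e2⟩

section chord

/-! The addition law on parameters, with the denominators cleared. -/

variable {R S : Type*} [CommRing R] [CommRing S]

/-- The point of parameters `(p₃, q₃)` is the sum given by the chord through those of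
`(p₁, q₁)` and `(p₂, q₂)`. -/
def ChordSum (p₁ q₁ p₂ q₂ p₃ q₃ : R) : Prop :=
  (fY p₁ q₁ - fY p₂ q₂) ^ 2
      = (fX p₃ q₃ + fX p₁ q₁ + fX p₂ q₂) * (fX p₁ q₁ - fX p₂ q₂) ^ 2 ∧
    (fY p₁ q₁ - fY p₂ q₂) * (fX p₃ q₃ - fX p₁ q₁)
      + (fY p₃ q₃ + fY p₁ q₁) * (fX p₁ q₁ - fX p₂ q₂) = 0

variable {p₁ q₁ p₂ q₂ p₃ q₃ : R}

/-- Ring homomorphisms preserve chord relations. -/
theorem ChordSum.map (h : ChordSum p₁ q₁ p₂ q₂ p₃ q₃) (f : R →+* S) :
    ChordSum (f p₁) (f q₁) (f p₂) (f q₂) (f p₃) (f q₃) := by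
  simp only [ChordSum, ← map_fX, ← map_fY, ← map_sub, ← map_add, ← map_pow, ← map_mul, h.1, h.2,
    map_zero, and_self]

/-- Injective ring homomorphisms reflect chord relations. -/
theorem ChordSum.of_map {f : R →+* S} (hf : Function.Injective f)
    (h : ChordSum (f p₁) (f q₁) (f p₂) (f q₂) (f p₃) (f q₃)) :
    ChordSum p₁ q₁ p₂ q₂ p₃ q₃ := by
  simp only [ChordSum, ← map_fX, ← map_fY, ← map_sub, ← map_add, ← map_pow, ← map_mul] at h
  exact ⟨hf h.1, hf (h.2.trans (map_zero f).symm)⟩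

/-- An inverse of the difference of the abscissas determines the coordinates of the sum. -/
theorem ChordSum.solve (h : ChordSum p₁ q₁ p₂ q₂ p₃ q₃) {u : R}
    (hu : (fX p₁ q₁ - fX p₂ q₂) * u = 1) :
    fX p₃ q₃ = ((fY p₁ q₁ - fY p₂ q₂) * u) ^ 2 - fX p₁ q₁ - fX p₂ q₂ ∧
      fY p₃ q₃ = -(fY p₁ q₁ + (fY p₁ q₁ - fY p₂ q₂) * u * (fX p₃ q₃ - fX p₁ q₁)) := by
  obtain ⟨h₁, h₂⟩ := h
  constructor
  · linear_combination -u ^ 2 * h₁
      - (fX p₃ q₃ + fX p₁ q₁ + fX p₂ q₂) * ((fX p₁ q₁ - fX p₂ q₂) * u + 1) * hu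
  · linear_combination u * h₂ - (fY p₃ q₃ + fY p₁ q₁) * hu

end chord

/-- For distinct abscissas, addition of points is the chord relation on parameters. -/
theorem mkPoint_add_eq_iff [DecidableEq k] {W : WeierstrassCurve.Affine k}
    (hs : ShortForm W c₄ c₆) (h6 : (6 : k) ≠ 0) (hd : c₄ ^ 3 ≠ c₆ ^ 2) {p₁ q₁ p₂ q₂ p₃ q₃ : k}
    (a4 : fC4 p₁ q₁ = c₄) (a6 : fC6 p₁ q₁ = c₆) (b4 : fC4 p₂ q₂ = c₄) (b6 : fC6 p₂ q₂ = c₆)
    (d4 : fC4 p₃ q₃ = c₄) (d6 : fC6 p₃ q₃ = c₆) (hX : fX p₁ q₁ ≠ fX p₂ q₂) :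
    mkPoint hs h6 hd a4 a6 + mkPoint hs h6 hd b4 b6 = mkPoint hs h6 hd d4 d6 ↔
      ChordSum p₁ q₁ p₂ q₂ p₃ q₃ := by
  have hne := sub_ne_zero.mpr hX
  simp only [mkPoint, ChordSum]
  rw [Affine.Point.add_of_X_ne hX, Affine.Point.some.injEq, Affine.slope_of_X_ne hX,
    Affine.addY, hs.negY_eq, Affine.negAddY, Affine.addX, hs.a₁, hs.a₂]
  set d := fX p₁ q₁ - fX p₂ q₂
  set e := fY p₁ q₁ - fY p₂ q₂
  have he : e / d * d = e := div_mul_cancel₀ e hne
  constructor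
  · rintro ⟨hx, hy⟩
    rw [hx] at hy
    exact ⟨by linear_combination -(e / d * d + e) * he + d ^ 2 * hx,
      by linear_combination -(fX p₃ q₃ - fX p₁ q₁) * he - d * hy⟩
  · rintro ⟨h₁, h₂⟩
    have hx : (e / d) ^ 2 + 0 * (e / d) - 0 - fX p₁ q₁ - fX p₂ q₂ = fX p₃ q₃ :=
      mul_right_cancel₀ (pow_ne_zero 2 hne) (by linear_combination (e / d * d + e) * he + h₁)
    refine ⟨hx, ?_⟩
    rw [hx]
    exact mul_right_cancel₀ hne (by linear_combination -(fX p₃ q₃ - fX p₁ q₁) * he - h₂)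

/-- Two parameters with distinct abscissas have a parameter of their sum. -/
theorem exists_chordSum (h6 : (6 : k) ≠ 0) (hd : c₄ ^ 3 ≠ c₆ ^ 2) {p₁ q₁ p₂ q₂ : k}
    (a4 : fC4 p₁ q₁ = c₄) (a6 : fC6 p₁ q₁ = c₆) (b4 : fC4 p₂ q₂ = c₄) (b6 : fC6 p₂ q₂ = c₆)
    (hX : fX p₁ q₁ ≠ fX p₂ q₂) :
    ∃ p q, fC4 p q = c₄ ∧ fC6 p q = c₆ ∧ ChordSum p₁ q₁ p₂ q₂ p q := by
  classical
  let W : WeierstrassCurve.Affine k := ⟨0, 0, 0, -27 * c₄, -54 * c₆⟩
  have hs : ShortForm W c₄ c₆ := ⟨rfl, rfl, rfl, rfl, rfl⟩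
  obtain ⟨x, y, hns, hsum⟩ : ∃ x y hns,
      mkPoint hs h6 hd a4 a6 + mkPoint hs h6 hd b4 b6 = Affine.Point.some x y hns :=
    ⟨_, _, _, Affine.Point.add_of_X_ne hX⟩
  have h5 : 5 • Affine.Point.some x y hns = 0 := by
    rw [← hsum, nsmul_add, five_nsmul_mkPoint, five_nsmul_mkPoint, add_zero]
  obtain ⟨p, q, d4, d6, rfl, rfl⟩ := exists_param hs h6 h5
  exact ⟨p, q, d4, d6, (mkPoint_add_eq_iff hs h6 hd a4 a6 b4 b6 d4 d6 hX).mp hsum⟩

section series

variable (h6 : (6 : k) ≠ 0) (hd : c₄ ^ 3 ≠ c₆ ^ 2)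

local notation "cc" => PowerSeries.constantCoeff
local notation "ι" => algebraMap (PowerSeries k) (FractionRing (PowerSeries k))

include h6 hd in
/-- A parameter of a point whose coordinates are power series, with good values at the origin,
consists of power series. -/
theorem exists_param_series {A₄ A₆ X₃ Y₃ : PowerSeries k}
    {pK qK : FractionRing (PowerSeries k)} (k4 : fC4 pK qK = ι A₄) (k6 : fC6 pK qK = ι A₆)
    (kx : fX pK qK = ι X₃) (ky : fY pK qK = ι Y₃) (hA₄ : cc A₄ = c₄) (hA₆ : cc A₆ = c₆)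
    {p₃ q₃ : k} (d4 : fC4 p₃ q₃ = c₄) (d6 : fC6 p₃ q₃ = c₆) (hX₃ : cc X₃ = fX p₃ q₃)
    (hY₃ : cc Y₃ = fY p₃ q₃) :
    ∃ pr qr, fC4 pr qr = A₄ ∧ fC6 pr qr = A₆ ∧ fX pr qr = X₃ ∧ fY pr qr = Y₃ ∧
      cc pr = p₃ ∧ cc qr = q₃ := by
  classical
  have hι : Function.Injective ι := IsFractionRing.injective _ _
  have hy3 : fY p₃ q₃ ≠ 0 := fY_ne_zero h6 hd d4 d6
  obtain ⟨v, hv⟩ := exists_constantCoeff_inverse (6 * Y₃) (by
    rw [map_mul, hY₃, map_ofNat]; exact mul_ne_zero h6 hy3)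
  set δ : PowerSeries k := (3 * X₃ ^ 2 - 27 * A₄) * v with hδ
  have hqp : qK - pK = ι δ := by
    have e : 3 * fX pK qK ^ 2 - 27 * fC4 pK qK = 6 * fY pK qK * (qK - pK) := by
      simp only [fX, fY, fC4]; ring
    rw [k4, kx, ky] at e
    have e' : ι (6 * Y₃) * ι v = 1 := by rw [← map_mul, hv, map_one]
    rw [map_mul, map_ofNat] at e'
    rw [hδ, map_mul, map_sub, map_mul, map_mul, map_pow, map_ofNat, map_ofNat]
    linear_combination (-ι v) * e - (qK - pK) * e'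
  have hδ0 : cc δ = q₃ - p₃ := by
    have := congrArg cc hv
    rw [map_mul, map_mul, hY₃, map_ofNat, map_one] at this
    rw [hδ, map_mul, map_sub, map_mul, map_mul, map_pow, hX₃, hA₄, ← d4, map_ofNat, map_ofNat]
    simp only [fX, fY, fC4] at this ⊢
    linear_combination (q₃ - p₃) * this
  obtain ⟨w, hw⟩ := exists_constantCoeff_inverse (3 * (3 * X₃ - 9 * δ ^ 2)) (by
    rw [map_mul, map_sub, map_mul, map_mul, map_pow, hδ0, hX₃, map_ofNat, map_ofNat]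
    have : (3 : k) * (3 * fX p₃ q₃ - 9 * (q₃ - p₃) ^ 2) = -108 * p₃ * q₃ := by
      simp only [fX]; ring
    rw [this]
    intro hz
    exact hy3 (by simp only [fY]; linear_combination q₃ * hz))
  have hqK : qK = ι (Y₃ * w) := by
    have e : ι (3 * (3 * X₃ - 9 * δ ^ 2)) * ι w = 1 := by rw [← map_mul, hw, map_one]
    rw [map_mul, map_sub, map_mul, map_mul, map_pow, map_ofNat, map_ofNat, ← kx, ← hqp] at e
    rw [map_mul, ← ky]
    simp only [fX, fY] at e ⊢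
    linear_combination -qK * e
  set qr : PowerSeries k := Y₃ * w
  set pr : PowerSeries k := qr - δ with hpr
  have hpK : pK = ι pr := by rw [hpr, map_sub, ← hqK, ← hqp]; ring
  have r4 : fC4 pr qr = A₄ := hι (by rw [map_fC4, ← hpK, ← hqK]; exact k4)
  have r6 : fC6 pr qr = A₆ := hι (by rw [map_fC6, ← hpK, ← hqK]; exact k6)
  have rx : fX pr qr = X₃ := hι (by rw [map_fX, ← hpK, ← hqK]; exact kx)
  have ry : fY pr qr = Y₃ := hι (by rw [map_fY, ← hpK, ← hqK]; exact ky)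
  exact ⟨pr, qr, r4, r6, rx, ry, param_unique h6 hd (by rw [← map_fC4, r4, hA₄])
    (by rw [← map_fC6, r6, hA₆]) d4 (by rw [← map_fX, rx, hX₃]) (by rw [← map_fY, ry, hY₃])⟩

include h6 hd in
/-- Rigidity of addition: parameters over `k⟦T⟧` that add up at the origin add up. -/
theorem chordSum_of_constantCoeff (h5 : (5 : k) ≠ 0)
    {A₄ A₆ P₁ Q₁ P₂ Q₂ P₃ Q₃ : PowerSeries k} (hA₄ : cc A₄ = c₄) (hA₆ : cc A₆ = c₆)
    (m₁ : fC4 P₁ Q₁ = A₄ ∧ fC6 P₁ Q₁ = A₆) (m₂ : fC4 P₂ Q₂ = A₄ ∧ fC6 P₂ Q₂ = A₆)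
    (m₃ : fC4 P₃ Q₃ = A₄ ∧ fC6 P₃ Q₃ = A₆)
    (hX : fX (cc P₁) (cc Q₁) ≠ fX (cc P₂) (cc Q₂))
    (h₀ : ChordSum (cc P₁) (cc Q₁) (cc P₂) (cc Q₂) (cc P₃) (cc Q₃)) :
    ChordSum P₁ Q₁ P₂ Q₂ P₃ Q₃ := by
  classical
  have hι : Function.Injective ι := IsFractionRing.injective _ _
  have hne : cc (fX P₁ Q₁ - fX P₂ Q₂) ≠ 0 := by
    rw [map_sub, map_fX, map_fX]; exact sub_ne_zero.mpr hX
  obtain ⟨u, hu⟩ := exists_constantCoeff_inverse _ hne
  have hdK : (ι A₄) ^ 3 ≠ (ι A₆) ^ 2 := by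
    rw [← map_pow, ← map_pow]
    exact fun hc => hd (by simpa [hA₄, hA₆] using congrArg cc (hι hc))
  have h6K : (6 : FractionRing (PowerSeries k)) ≠ 0 := fun hc =>
    h6 (by simpa [map_ofNat] using congrArg cc (show (6 : PowerSeries k) = 0 from
      hι (by rw [map_ofNat, map_zero]; exact hc)))
  -- the sum over the fraction field, and its coordinates
  obtain ⟨pK, qK, k4, k6, hK⟩ := exists_chordSum h6K hdK
    (p₁ := ι P₁) (q₁ := ι Q₁) (p₂ := ι P₂) (q₂ := ι Q₂)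
    (by rw [← map_fC4, m₁.1]) (by rw [← map_fC6, m₁.2])
    (by rw [← map_fC4, m₂.1]) (by rw [← map_fC6, m₂.2])
    (by rw [← map_fX, ← map_fX]; exact fun hc => hne (by rw [hι hc, sub_self, map_zero]))
  set X₃ : PowerSeries k :=
    ((fY P₁ Q₁ - fY P₂ Q₂) * u) ^ 2 - fX P₁ Q₁ - fX P₂ Q₂ with hX₃
  set Y₃ : PowerSeries k :=
    -(fY P₁ Q₁ + (fY P₁ Q₁ - fY P₂ Q₂) * u * (X₃ - fX P₁ Q₁)) with hY₃
  obtain ⟨ex, ey⟩ := hK.solve (u := ι u)
    (by rw [← map_fX, ← map_fX, ← map_sub, ← map_mul, hu, map_one])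
  have kx : fX pK qK = ι X₃ := by
    simp only [ex, hX₃, map_sub, map_mul, map_pow, map_fX, map_fY]
  have ky : fY pK qK = ι Y₃ := by
    simp only [ey, kx, hY₃, map_neg, map_add, map_sub, map_mul, map_fX, map_fY]
  -- its values at the origin
  obtain ⟨fx, fy⟩ := h₀.solve (u := cc u)
    (by rw [← map_fX, ← map_fX, ← map_sub, ← map_mul, hu, map_one])
  have hx₀ : cc X₃ = fX (cc P₃) (cc Q₃) := by
    simp only [fx, hX₃, map_sub, map_mul, map_pow, map_fX, map_fY]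
  have hy₀ : cc Y₃ = fY (cc P₃) (cc Q₃) := by
    simp only [fy, ← hx₀, hY₃, map_neg, map_add, map_sub, map_mul, map_fX, map_fY]
  have d4 : fC4 (cc P₃) (cc Q₃) = c₄ := by rw [← map_fC4, m₃.1, hA₄]
  have d6 : fC6 (cc P₃) (cc Q₃) = c₆ := by rw [← map_fC6, m₃.2, hA₆]
  obtain ⟨pr, qr, r4, r6, rx, ry, rp, rq⟩ :=
    exists_param_series h6 hd k4 k6 kx ky hA₄ hA₆ d4 d6 hx₀ hy₀
  obtain ⟨hp3, hq3⟩ := param_ne_zero hd d4 d6
  obtain ⟨rfl, rfl⟩ := param_rigid cc (natCast_17280_ne_zero h6 h5) (r4.trans m₃.1.symm)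
    (r6.trans m₃.2.symm) rp rq (rp.symm ▸ hp3) (rq.symm ▸ hq3)
  refine ChordSum.of_map hι ?_
  simpa only [ChordSum, ← map_fX, ← map_fY, rx, ry, kx, ky] using hK

end series

variable [DecidableEq k] {W W' : WeierstrassCurve.Affine k}
  (hs : ShortForm W c₄ c₆) (hs' : ShortForm W' (famC4 l m c₄ c₆) (famC6 l m c₄ c₆))
  (h6 : (6 : k) ≠ 0) (hd : c₄ ^ 3 ≠ c₆ ^ 2)
  (hd' : famC4 l m c₄ c₆ ^ 3 ≠ famC6 l m c₄ c₆ ^ 2)

/-- `P'` is the lift of the point `P` killed by five. -/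
def Lifts (P : W.Point) (P' : W'.Point) : Prop :=
  (P = 0 ∧ P' = 0) ∨ ∃ (p q : k) (h4 : fC4 p q = c₄) (hc6 : fC6 p q = c₆),
    P = mkPoint hs h6 hd h4 hc6 ∧
      P' = mkPoint hs' h6 hd' (fC4_lift_eq h4 hc6) (fC6_lift_eq h4 hc6)

/-- A point with a lift, and its lift, are killed by five. -/
theorem Lifts.five_nsmul {P : W.Point} {P' : W'.Point} (h : Lifts hs hs' h6 hd hd' P P') :
    5 • P = 0 ∧ 5 • P' = 0 := by
  rcases h with ⟨rfl, rfl⟩ | ⟨p, q, h4, hc6, rfl, rfl⟩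
  · simp
  · exact ⟨five_nsmul_mkPoint hs h6 hd h4 hc6, five_nsmul_mkPoint hs' h6 hd' _ _⟩

omit [DecidableEq k] in
/-- Lifts are unique. -/
theorem Lifts.unique {P : W.Point} {P' P'' : W'.Point} (h : Lifts hs hs' h6 hd hd' P P')
    (h' : Lifts hs hs' h6 hd hd' P P'') : P' = P'' := by
  rcases h with ⟨rfl, rfl⟩ | ⟨p, q, h4, hc6, rfl, rfl⟩
  · rcases h' with ⟨-, rfl⟩ | ⟨_, _, _, _, h0, -⟩
    · rfl
    · simp [mkPoint] at h0
  · rcases h' with ⟨h0, -⟩ | ⟨p', q', h4', hc6', heq, rfl⟩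
    · simp [mkPoint] at h0
    · simp only [mkPoint, Affine.Point.some.injEq] at heq
      obtain ⟨rfl, rfl⟩ := param_unique h6 hd h4 hc6 h4' heq.1 heq.2
      rfl

omit [DecidableEq k] in
/-- The lift of a nonzero point is nonzero. -/
theorem Lifts.ne_zero {P : W.Point} {P' : W'.Point} (h : Lifts hs hs' h6 hd hd' P P')
    (hP : P ≠ 0) : P' ≠ 0 := by
  rcases h with ⟨rfl, rfl⟩ | ⟨p, q, h4, hc6, rfl, rfl⟩
  · exact absurd rfl hP
  · simp [mkPoint]

include hs' h6 hd' in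
omit [DecidableEq k] in
/-- The lifts of points with distinct abscissas have distinct abscissas. -/
theorem fX_lift_ne (h5 : (5 : k) ≠ 0) {p₁ q₁ p₂ q₂ : k}
    (a4 : fC4 p₁ q₁ = c₄) (a6 : fC6 p₁ q₁ = c₆) (b4 : fC4 p₂ q₂ = c₄) (b6 : fC6 p₂ q₂ = c₆)
    (hX : fX p₁ q₁ ≠ fX p₂ q₂) :
    fX (liftP l m p₁ q₁) (liftQ l m p₁ q₁) ≠ fX (liftP l m p₂ q₂) (liftQ l m p₂ q₂) := by
  classical
  intro hc
  rcases (Affine.Point.X_eq_iff
    (h₁ := hs'.nonsingular_fX_fY h6 hd' (fC4_lift_eq a4 a6) (fC6_lift_eq a4 a6))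
    (h₂ := hs'.nonsingular_fX_fY h6 hd' (fC4_lift_eq b4 b6) (fC6_lift_eq b4 b6))).mp hc
    with h' | h'
  · rw [Affine.Point.some.injEq] at h'
    obtain ⟨e1, e2⟩ := param_unique h6 hd' (fC4_lift_eq a4 a6) (fC6_lift_eq a4 a6)
      (fC4_lift_eq b4 b6) h'.1 h'.2
    obtain ⟨rfl, rfl⟩ := segment_rigid h6 h5 hd' a4 a6 b4 b6 e1 e2
    exact hX rfl
  · rw [Affine.Point.neg_some, Affine.Point.some.injEq, hs'.negY_eq] at h'
    have n4 := (fC4_neg p₂ q₂).trans b4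
    have n6 := (fC6_neg p₂ q₂).trans b6
    obtain ⟨e1, e2⟩ := param_unique h6 hd' (fC4_lift_eq a4 a6) (fC6_lift_eq a4 a6)
      (fC4_lift_eq (l := l) (m := m) n4 n6)
      (by rw [liftP_neg, liftQ_neg, h'.1]; simp only [fX]; ring)
      (by rw [liftP_neg, liftQ_neg, h'.2]; simp only [fY]; ring)
    obtain ⟨rfl, rfl⟩ := segment_rigid h6 h5 hd' a4 a6 n4 n6 e1 e2
    exact hX (by simp only [fX]; ring)

/-- The generic case of additivity. -/
theorem mkPoint_lift_add (h5 : (5 : k) ≠ 0) {p₁ q₁ p₂ q₂ p₃ q₃ : k}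
    (a4 : fC4 p₁ q₁ = c₄) (a6 : fC6 p₁ q₁ = c₆) (b4 : fC4 p₂ q₂ = c₄) (b6 : fC6 p₂ q₂ = c₆)
    (d4 : fC4 p₃ q₃ = c₄) (d6 : fC6 p₃ q₃ = c₆) (hX : fX p₁ q₁ ≠ fX p₂ q₂)
    (hsum : mkPoint hs h6 hd a4 a6 + mkPoint hs h6 hd b4 b6 = mkPoint hs h6 hd d4 d6) :
    mkPoint hs' h6 hd' (fC4_lift_eq a4 a6) (fC6_lift_eq a4 a6)
      + mkPoint hs' h6 hd' (fC4_lift_eq b4 b6) (fC6_lift_eq b4 b6)
      = mkPoint hs' h6 hd' (fC4_lift_eq d4 d6) (fC6_lift_eq d4 d6) := by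
  -- the points add up at time zero, hence along the segment, hence at time one
  have h₀ := (mkPoint_add_eq_iff hs h6 hd a4 a6 b4 b6 d4 d6 hX).mp hsum
  let ρ : k[X] →+* PowerSeries k := Polynomial.coeToPowerSeries.ringHom
  have hρ : ∀ f : k[X], PowerSeries.constantCoeff (ρ f) = evalRingHom 0 f := fun f => by
    simp [ρ, ← PowerSeries.coeff_zero_eq_constantCoeff_apply, Polynomial.coeff_zero_eq_eval_zero]
  have hρP : ∀ a b, PowerSeries.constantCoeff (ρ (segP l m a b)) = a := fun a b =>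
    (hρ _).trans (eval_zero_seg l m a b).1
  have hρQ : ∀ a b, PowerSeries.constantCoeff (ρ (segQ l m a b)) = b := fun a b =>
    (hρ _).trans (eval_zero_seg l m a b).2
  have hmem : ∀ a b, fC4 a b = c₄ → fC6 a b = c₆ →
      fC4 (ρ (segP l m a b)) (ρ (segQ l m a b)) = ρ (segC4 l m c₄ c₆) ∧
        fC6 (ρ (segP l m a b)) (ρ (segQ l m a b)) = ρ (segC6 l m c₄ c₆) := fun a b h4 hc6 =>
    ⟨by rw [← map_fC4, (seg_mem h4 hc6).1], by rw [← map_fC6, (seg_mem h4 hc6).2]⟩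
  have h := (chordSum_of_constantCoeff h6 hd h5
    ((hρ _).trans (eval_zero_segC l m _ _).1) ((hρ _).trans (eval_zero_segC l m _ _).2)
    (hmem _ _ a4 a6) (hmem _ _ b4 b6) (hmem _ _ d4 d6)
    (by simpa only [hρP, hρQ] using hX) (by simpa only [hρP, hρQ] using h₀)).of_map
      (Polynomial.coe_injective k) |>.map (evalRingHom (1 : k))
  simp only [eval_one_seg] at h
  exact (mkPoint_add_eq_iff hs' h6 hd' _ _ _ _ _ _
    (fX_lift_ne hs' h6 hd' h5 a4 a6 b4 b6 hX)).mpr h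

/-- Lifting is additive. -/
theorem Lifts.add (h5 : (5 : k) ≠ 0) {P Q : W.Point} {P' Q' : W'.Point}
    (hP : Lifts hs hs' h6 hd hd' P P') (hQ : Lifts hs hs' h6 hd hd' Q Q') :
    Lifts hs hs' h6 hd hd' (P + Q) (P' + Q') := by
  rcases hP with ⟨rfl, rfl⟩ | ⟨p₁, q₁, a4, a6, rfl, rfl⟩
  · simpa using hQ
  rcases hQ with ⟨rfl, rfl⟩ | ⟨p₂, q₂, b4, b6, rfl, rfl⟩
  · simp only [add_zero]; exact Or.inr ⟨p₁, q₁, a4, a6, rfl, rfl⟩
  by_cases hX : fX p₁ q₁ = fX p₂ q₂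
  · rcases (Affine.Point.X_eq_iff (h₁ := hs.nonsingular_fX_fY h6 hd a4 a6)
      (h₂ := hs.nonsingular_fX_fY h6 hd b4 b6)).mp hX with h' | h'
    · rw [Affine.Point.some.injEq] at h'
      obtain ⟨rfl, rfl⟩ := param_unique h6 hd a4 a6 b4 h'.1 h'.2
      refine Or.inr ⟨-q₁, p₁, (fC4_rot _ _).trans a4, (fC6_rot _ _).trans a6,
        mkPoint_add_self hs h6 hd a4 a6 _ _, ?_⟩
      rw [mkPoint_add_self hs' h6 hd' _ _ ((fC4_rot _ _).trans (fC4_lift_eq a4 a6))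
        ((fC6_rot _ _).trans (fC6_lift_eq a4 a6))]
      simp only [mkPoint, liftP_rot, liftQ_rot]
    · have n4 := (fC4_neg p₂ q₂).trans b4
      have n6 := (fC6_neg p₂ q₂).trans b6
      have h'' : mkPoint hs h6 hd a4 a6 = mkPoint hs h6 hd n4 n6 := by
        rw [mkPoint_neg hs h6 hd b4 b6 n4 n6]; exact h'
      simp only [mkPoint, Affine.Point.some.injEq] at h''
      obtain ⟨rfl, rfl⟩ := param_unique h6 hd a4 a6 n4 h''.1 h''.2
      refine Or.inl ⟨?_, ?_⟩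
      · rw [mkPoint_neg hs h6 hd b4 b6, neg_add_cancel]
      · simp only [mkPoint, liftP_neg, liftQ_neg]
        exact Affine.Point.add_of_Y_eq (by simp only [fX]; ring)
          (by rw [hs'.negY_eq]; simp only [fY]; ring)
  · obtain ⟨x, y, hns, hsum⟩ : ∃ x y hns,
        mkPoint hs h6 hd a4 a6 + mkPoint hs h6 hd b4 b6 = Affine.Point.some x y hns :=
      ⟨_, _, _, Affine.Point.add_of_X_ne hX⟩
    have h5s : 5 • Affine.Point.some x y hns = 0 := by
      rw [← hsum, nsmul_add, five_nsmul_mkPoint, five_nsmul_mkPoint, add_zero]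
    obtain ⟨p₃, q₃, d4, d6, rfl, rfl⟩ := exists_param hs h6 h5s
    exact Or.inr ⟨p₃, q₃, d4, d6, hsum, mkPoint_lift_add hs hs' h6 hd hd' h5 a4 a6 b4 b6 d4 d6 hX hsum⟩

end Fermat.Agent.Switch35
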