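import Fermat.Agent.Switch35.Irreducible
import Fermat.Agent.Switch35.Congruence
import Fermat.Agent.ModelChange.Basic
import Fermat.Prelude.Def_FLTPrelim_ModularRep
import Mathlib.FieldTheory.IsAlgClosed.AlgebraicClosure

/-!
# Integral members of the family with fixed mod 5 structure

A member of the family of `W` at `(l, m)` is an integral model `V` with
`V.c₄ u⁴ = famC4 l m W.c₄ W.c₆` and `V.c₆ u⁶ = famC6 l m W.c₄ W.c₆`.
-/

set_option autoImplicit false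

namespace Fermat.Agent.Switch35

open WeierstrassCurve Filter

attribute [local irreducible] liftP liftQ famC4 famC6

/-- A nonsingular integral model has `c₄³ ≠ c₆²`. -/
theorem c₄_cube_ne_c₆_sq {W : WeierstrassCurve ℤ} (hΔ : W.Δ ≠ 0) : W.c₄ ^ 3 ≠ W.c₆ ^ 2 :=
  fun h => hΔ (by
    have e := W.c_relation
    rw [h, sub_self] at e
    exact (mul_eq_zero.mp e).resolve_left (by norm_num))

theorem exists_variableChange_short {F : Type*} [Field F] (h6 : (6 : F) ≠ 0)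
    (U : WeierstrassCurve F) {u : F} (hu : u ≠ 0) :
    ∃ C : VariableChange F,
      C • U = ⟨0, 0, 0, -27 * (U.c₄ * u ^ 4), -54 * (U.c₆ * u ^ 6)⟩ := by
  have h2 : (2 : F) ≠ 0 := fun h => h6 (by linear_combination 3 * h)
  have h3 : (3 : F) ≠ 0 := fun h => h6 (by linear_combination 2 * h)
  have h12 : (12 : F) ≠ 0 := by
    rw [show (12 : F) = 6 * 2 by norm_num]; exact mul_ne_zero h6 h2
  obtain ⟨r, hr⟩ : ∃ r, U.b₂ = -12 * r := ⟨-U.b₂ / 12, by field_simp⟩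
  obtain ⟨s, hs⟩ : ∃ s, U.a₁ = -2 * s := ⟨-U.a₁ / 2, by field_simp⟩
  obtain ⟨t, ht⟩ : ∃ t, U.a₃ = -2 * t - r * U.a₁ :=
    ⟨-(U.a₃ + r * U.a₁) / 2, by field_simp; ring⟩
  have ha2 : U.a₂ = -3 * r - s ^ 2 := by
    apply mul_left_cancel₀ (show (4 : F) ≠ 0 by
      rw [show (4 : F) = 2 * 2 by norm_num]; exact mul_ne_zero h2 h2)
    rw [WeierstrassCurve.b₂, hs] at hr
    linear_combination hr
  refine ⟨⟨(Units.mk0 (6 * u) (mul_ne_zero h6 hu))⁻¹, r, s, t⟩, ?_⟩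
  rw [variableChange_def]
  simp only [inv_inv, Units.val_mk0, WeierstrassCurve.c₄, WeierstrassCurve.c₆,
    WeierstrassCurve.b₂, WeierstrassCurve.b₄, WeierstrassCurve.b₆, ha2, ht, hs]
  congr 1 <;> ring

/-- Traces of a curve and of a member of its family agree modulo five. -/
theorem five_dvd_apOfModel_sub (W V : WeierstrassCurve ℤ) (u l m : ℤ)
    (h4 : V.c₄ * u ^ 4 = famC4 l m W.c₄ W.c₆) (h6 : V.c₆ * u ^ 6 = famC6 l m W.c₄ W.c₆)
    {ℓ : ℕ} (hℓ : ℓ.Prime) (h30 : ¬ ℓ ∣ 30) (hu : ¬ (ℓ : ℤ) ∣ u)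
    (hW : W.IsGoodPrimeFor ℓ) (hV : V.IsGoodPrimeFor ℓ) :
    (5 : ℤ) ∣ V.apOfModel ℓ - W.apOfModel ℓ := by
  have : Fact ℓ.Prime := ⟨hℓ⟩
  let g : ℤ →+* ZMod ℓ := Int.castRingHom (ZMod ℓ)
  have hn : ∀ n : ℕ, ¬ ℓ ∣ n → (n : ZMod ℓ) ≠ 0 := fun n h h' =>
    h ((ZMod.natCast_eq_zero_iff n ℓ).mp h')
  have h5 : (5 : ZMod ℓ) ≠ 0 := by
    exact_mod_cast hn 5 fun h => h30 (h.trans (by norm_num))
  have h6' : (6 : ZMod ℓ) ≠ 0 := by
    exact_mod_cast hn 6 fun h => h30 (h.trans (by norm_num))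
  have hu' : g u ≠ 0 := fun h => hu ((ZMod.intCast_zmod_eq_zero_iff_dvd u ℓ).mp h)
  have h1728 : (1728 : ZMod ℓ) ≠ 0 := ShortForm.ne_zero_1728 h6'
  have hgood : ∀ U : WeierstrassCurve ℤ, U.IsGoodPrimeFor ℓ →
      g U.Δ ≠ 0 ∧ (U.reductionMod ℓ).Δ ≠ 0 ∧ g U.c₄ ^ 3 ≠ g U.c₆ ^ 2 := fun U hU => by
    have hΔ : g U.Δ ≠ 0 := fun h => hU ((ZMod.intCast_zmod_eq_zero_iff_dvd _ ℓ).mp h)
    refine ⟨hΔ, by rw [reductionMod, map_Δ]; exact hΔ, fun h => ?_⟩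
    have e := congrArg g U.c_relation
    simp only [map_sub, map_mul, map_pow, map_ofNat] at e
    rw [h, sub_self] at e
    exact mul_ne_zero h1728 hΔ e
  obtain ⟨-, hWΔ, hWd⟩ := hgood W hW
  obtain ⟨-, hVΔ, hVd⟩ := hgood V hV
  have e4 : g V.c₄ * g u ^ 4 = famC4 (g l) (g m) (g W.c₄) (g W.c₆) := by
    rw [← map_famC4, ← h4, map_mul, map_pow]
  have e6 : g V.c₆ * g u ^ 6 = famC6 (g l) (g m) (g W.c₄) (g W.c₆) := by
    rw [← map_famC6, ← h6, map_mul, map_pow]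
  obtain ⟨C, hC⟩ := exists_variableChange_short h6' (W.reductionMod ℓ) (u := 1) one_ne_zero
  obtain ⟨C', hC'⟩ := exists_variableChange_short h6' (V.reductionMod ℓ) hu'
  simp only [reductionMod, map_c₄, map_c₆, one_pow, mul_one] at hC hC'
  rw [e4, e6] at hC'
  have key := five_dvd_trace_sub h5 h6' (C • W.reductionMod ℓ) (C' • V.reductionMod ℓ)
    (g W.c₄) (g W.c₆) (g l) (g m) hC hC' hWd (by
      rw [← e4, ← e6]
      intro h
      apply hVd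
      apply mul_left_cancel₀ (pow_ne_zero 12 hu')
      linear_combination h)
  rwa [ModelChange.traceOfFrobenius_variableChange _ _ hWΔ,
    ModelChange.traceOfFrobenius_variableChange _ _ hVΔ] at key

/-- A member is semistable away from `30 Δ(W) u` when the parameters are coprime there. -/
theorem not_dvd_c₄_of_member (W V : WeierstrassCurve ℤ) (u l m : ℤ)
    (h4 : V.c₄ * u ^ 4 = famC4 l m W.c₄ W.c₆) (h6 : V.c₆ * u ^ 6 = famC6 l m W.c₄ W.c₆)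
    {ℓ : ℕ} (hℓ : ℓ.Prime) (h30 : ¬ ℓ ∣ 30) (hW : W.IsGoodPrimeFor ℓ)
    (hlm : ¬ ((ℓ : ℤ) ∣ l ∧ (ℓ : ℤ) ∣ m)) (hV : (ℓ : ℤ) ∣ V.Δ) : ¬ (ℓ : ℤ) ∣ V.c₄ := by
  intro hc4
  have : Fact ℓ.Prime := ⟨hℓ⟩
  let g : ℤ →+* AlgebraicClosure (ZMod ℓ) :=
    (algebraMap (ZMod ℓ) (AlgebraicClosure (ZMod ℓ))).comp (Int.castRingHom (ZMod ℓ))
  have hg : ∀ x : ℤ, g x = 0 ↔ (ℓ : ℤ) ∣ x := fun x => by
    show algebraMap (ZMod ℓ) (AlgebraicClosure (ZMod ℓ)) (x : ZMod ℓ) = 0 ↔ _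
    rw [map_eq_zero, ZMod.intCast_zmod_eq_zero_iff_dvd]
  have hn : ∀ n : ℕ, ¬ ℓ ∣ n → g (n : ℤ) ≠ 0 := fun n h h' =>
    h (Int.natCast_dvd_natCast.mp ((hg _).mp h'))
  have h5 : (5 : AlgebraicClosure (ZMod ℓ)) ≠ 0 := by
    simpa using hn 5 fun h => h30 (h.trans (by norm_num))
  have h6' : (6 : AlgebraicClosure (ZMod ℓ)) ≠ 0 := by
    simpa using hn 6 fun h => h30 (h.trans (by norm_num))
  have hd : g W.c₄ ^ 3 ≠ g W.c₆ ^ 2 := fun h => by
    have e := congrArg g W.c_relation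
    simp only [map_sub, map_mul, map_pow, map_ofNat] at e
    rw [h, sub_self] at e
    exact mul_ne_zero (ShortForm.ne_zero_1728 h6') (fun hΔ => hW ((hg _).mp hΔ)) e
  have h6V : g V.c₆ = 0 := by
    have e := congrArg g V.c_relation
    simp only [map_sub, map_mul, map_pow, map_ofNat, (hg _).mpr hV, (hg _).mpr hc4] at e
    exact (pow_eq_zero_iff two_ne_zero).mp (by linear_combination e)
  obtain ⟨hl, hm⟩ := fam_eq_zero h5 h6' hd (l := g l) (m := g m)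
    (by rw [← map_famC4, ← h4, map_mul, (hg _).mpr hc4, zero_mul])
    (by rw [← map_famC6, ← h6, map_mul, h6V, zero_mul])
  exact hlm ⟨(hg _).mp hl, (hg _).mp hm⟩

/-- Modify `a₄, a₆`. -/
def shiftModel {R : Type*} [CommRing R] (W : WeierstrassCurve R) (e₄ e₆ : R) :
    WeierstrassCurve R :=
  ⟨W.a₁, W.a₂, W.a₃, W.a₄ + e₄, W.a₆ + e₆⟩

theorem shiftModel_c₄ {R : Type*} [CommRing R] (W : WeierstrassCurve R) (e₄ e₆ : R) :
    (shiftModel W e₄ e₆).c₄ = W.c₄ - 48 * e₄ := by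
  simp only [shiftModel, WeierstrassCurve.c₄, WeierstrassCurve.b₂, WeierstrassCurve.b₄]; ring

theorem shiftModel_c₆ {R : Type*} [CommRing R] (W : WeierstrassCurve R) (e₄ e₆ : R) :
    (shiftModel W e₄ e₆).c₆ = W.c₆ + 72 * W.b₂ * e₄ - 864 * e₆ := by
  simp only [shiftModel, WeierstrassCurve.c₆, WeierstrassCurve.b₂, WeierstrassCurve.b₄,
    WeierstrassCurve.b₆]; ring

/-- Prescribed invariants congruent to those of `W` give a model congruent to `W`. -/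
theorem exists_model_congruent (W : WeierstrassCurve ℤ) (N x y : ℤ)
    (hx : 864 * 48 * N ∣ W.c₄ - x) (hy : 864 * 48 * N ∣ W.c₆ - y) :
    ∃ V : WeierstrassCurve ℤ, V.c₄ = x ∧ V.c₆ = y ∧
      ∀ p : ℕ, (p : ℤ) ∣ N → V.reductionMod p = W.reductionMod p := by
  obtain ⟨a, ha⟩ := hx
  obtain ⟨b, hb⟩ := hy
  refine ⟨shiftModel W (864 * N * a) (N * (72 * W.b₂ * a + 48 * b)), ?_, ?_, fun p hp => ?_⟩
  · rw [shiftModel_c₄]; linear_combination ha
  · rw [shiftModel_c₆]; linear_combination hb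
  · have hN : (N : ZMod p) = 0 := (ZMod.intCast_zmod_eq_zero_iff_dvd N p).mpr hp
    simp [reductionMod, shiftModel, WeierstrassCurve.map, hN]

section smul

attribute [local semireducible] famC4 famC6

theorem famC4_smul {R : Type*} [CommRing R] (v l m a b : R) :
    famC4 (v * l) (v * m) a b = v ^ 20 * famC4 l m a b := by
  rw [famC4, famC4]; exact homog_scale v 20 _ (by simp [tabC4]) l m

theorem famC6_smul {R : Type*} [CommRing R] (v l m a b : R) :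
    famC6 (v * l) (v * m) a b = v ^ 30 * famC6 l m a b := by
  rw [famC6, famC6]; exact homog_scale v 30 _ (by simp [tabC6]) l m

end smul

/-- The member at `(M, 0)` is nonsingular. -/
theorem fam_axis_ne {R : Type*} [CommRing R] [IsDomain R] {M a b : R} (hd : a ^ 3 ≠ b ^ 2)
    (hM : M ≠ 0) : famC4 M 0 a b ^ 3 ≠ famC6 M 0 a b ^ 2 := by
  have h4 := famC4_smul M 1 0 a b
  have h6 := famC6_smul M 1 0 a b
  rw [mul_one, mul_zero, famC4_one_zero] at h4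
  rw [mul_one, mul_zero, famC6_one_zero] at h6
  rw [h4, h6]
  intro h
  exact hd (mul_left_cancel₀ (pow_ne_zero 60 hM) (by linear_combination h))

/-- Along a line, infinitely many members are nonsingular and irreducible at three. -/
theorem frequently_irreducible (W : WeierstrassCurve ℤ) (hΔ : W.Δ ≠ 0) (l₀ l₁ m₀ m₁ : ℤ)
    (hdet : l₀ * m₁ - l₁ * m₀ ≠ 0)
    (h0 : famC4 l₀ m₀ W.c₄ W.c₆ ^ 3 ≠ famC6 l₀ m₀ W.c₄ W.c₆ ^ 2) :
    ∃ᶠ k : ℕ in atTop, ∀ (V : WeierstrassCurve ℤ) (u : ℤ), u ≠ 0 →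
      V.c₄ * u ^ 4 = famC4 (l₀ * k + l₁) (m₀ * k + m₁) W.c₄ W.c₆ →
      V.c₆ * u ^ 6 = famC6 (l₀ * k + l₁) (m₀ * k + m₁) W.c₄ W.c₆ →
      V.Δ ≠ 0 ∧ V.ModRepIsIrreducible 3 := by
  have hd : W.c₄ ^ 3 ≠ W.c₆ ^ 2 := c₄_cube_ne_c₆_sq hΔ
  have hfreq := not_eventually.mp (not_eventually_root W.c₄ W.c₆ l₀ l₁ m₀ m₁ hd hdet h0)
  -- the members with zero discriminant are finite in number
  open Polynomial in
  have hD : ∀ᶠ k : ℕ in atTop,
      famC4 (l₀ * k + l₁) (m₀ * k + m₁) W.c₄ W.c₆ ^ 3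
        ≠ famC6 (l₀ * k + l₁) (m₀ * k + m₁) W.c₄ W.c₆ ^ 2 := by
    let ι : ℤ →+* ℝ := Int.castRingHom ℝ
    let g : ℝ → ℝ := fun s =>
      famC4 (ι l₀ + ι l₁ * s) (ι m₀ + ι m₁ * s) (ι W.c₄) (ι W.c₆) ^ 3
        - famC6 (ι l₀ + ι l₁ * s) (ι m₀ + ι m₁ * s) (ι W.c₄) (ι W.c₆) ^ 2
    have hg : Continuous g := by
      have e : g = fun s => (famC4 (C (ι l₀) + C (ι l₁) * X) (C (ι m₀) + C (ι m₁) * X)
          (C (ι W.c₄)) (C (ι W.c₆)) ^ 3 - famC6 (C (ι l₀) + C (ι l₁) * X)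
          (C (ι m₀) + C (ι m₁) * X) (C (ι W.c₄)) (C (ι W.c₆)) ^ 2).eval s := by
        funext s
        simp only [g, ← coe_evalRingHom, map_sub, map_pow, map_famC4, map_famC6]
        simp
      rw [e]; exact Polynomial.continuous _
    have hg0 : g 0 ≠ 0 := by
      simp only [g, mul_zero, add_zero, ← map_famC4, ← map_famC6, ← map_pow, ← map_sub]
      exact fun h => h0 (sub_eq_zero.mp ((map_eq_zero_iff ι Int.cast_injective).mp h))
    have ht : Tendsto (fun k : ℕ => g (1 / (k : ℝ))) atTop (nhds (g 0)) :=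
      (hg.tendsto 0).comp (tendsto_const_div_atTop_nhds_zero_nat 1)
    filter_upwards [ht.eventually_ne hg0, eventually_gt_atTop 0] with k hk hk0 hzero
    apply hk
    have hk' : (k : ℝ) ≠ 0 := Nat.cast_ne_zero.mpr hk0.ne'
    have hLk : (k : ℝ) * (ι l₀ + ι l₁ * (1 / (k : ℝ))) = ι (l₀ * k + l₁) := by
      simp [ι]; field_simp
    have hMk : (k : ℝ) * (ι m₀ + ι m₁ * (1 / (k : ℝ))) = ι (m₀ * k + m₁) := by
      simp [ι]; field_simp
    have e := congrArg ι hzero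
    rw [map_pow, map_pow, map_famC4, map_famC6, ← hLk, ← hMk] at e
    have h4 := famC4_smul (k : ℝ) (ι l₀ + ι l₁ * (1 / (k : ℝ))) (ι m₀ + ι m₁ * (1 / (k : ℝ)))
      (ι W.c₄) (ι W.c₆)
    have h6 := famC6_smul (k : ℝ) (ι l₀ + ι l₁ * (1 / (k : ℝ))) (ι m₀ + ι m₁ * (1 / (k : ℝ)))
      (ι W.c₄) (ι W.c₆)
    rw [h4, h6] at e
    apply mul_left_cancel₀ (pow_ne_zero 60 hk')
    rw [mul_zero]
    simp only [g]
    linear_combination e
  refine (hfreq.and_eventually hD).mono fun k ⟨hk, hkD⟩ V u hu h4 h6 => ?_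
  have hVΔ : V.Δ ≠ 0 := fun h => hkD (by
    have e := V.c_relation
    rw [h, mul_zero] at e
    rw [← h4, ← h6]
    linear_combination -(u ^ 12) * e)
  refine ⟨hVΔ, by_contra fun hirr => hk ?_⟩
  obtain ⟨Z, hZ⟩ := exists_int_root V hVΔ hirr
  refine ⟨u ^ 2 * Z, ?_⟩
  rw [← h4, ← h6]
  simp only [threeDiv] at hZ ⊢
  linear_combination u ^ 8 * hZ

end Fermat.Agent.Switch35
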