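import Mathlib.Combinatorics.HalesJewett
import Mathlib.Analysis.Calculus.ImplicitContDiff
import Mathlib.Analysis.Calculus.Deriv.MeanValue
import Mathlib.Analysis.Calculus.Deriv.ZPow
import Mathlib.Analysis.Analytic.IsolatedZeros
import Mathlib.Analysis.Calculus.Deriv.Polynomial
import Mathlib.Algebra.Polynomial.Bivariate
import Mathlib.Algebra.Polynomial.Roots
import Mathlib.Analysis.Calculus.ContDiff.Polynomial
import Mathlib.FieldTheory.Separable
import Mathlib.Topology.Algebra.Polynomial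

/-!
# Polynomial roots from rational roots at small parameters

If a monic family `G (s, Y)`, separable at `s = 0`, has for all large natural `k` a root
`z / k ^ N` at `s = 1 / k` with `z` an integer, then it has a polynomial root
(`exists_polynomial_root`).
-/

set_option autoImplicit false

namespace Fermat.Agent.Switch35

open Polynomial Filter Topology Finset
open scoped ContDiff

/-- Monochromatic progressions with bounded step beyond any bound. -/
theorem exists_progression (κ : Type) [Finite κ] (n : ℕ) :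
    ∃ H, ∀ (C : ℕ → κ) (N : ℕ), ∃ a h c, N ≤ a ∧ 1 ≤ h ∧ h ≤ H ∧
      ∀ j, j ≤ n → C (a + j * h) = c := by
  obtain ⟨ι, _, hι⟩ := Combinatorics.Line.exists_mono_in_high_dimension (Fin (n + 1)) κ
  classical
  refine ⟨Fintype.card ι, fun C N => ?_⟩
  obtain ⟨l, c, hc⟩ := hι fun v => C (N + ∑ i, (v i : ℕ))
  refine ⟨N + ∑ i, ((l.idxFun i).map fun y : Fin (n + 1) => (y : ℕ)).getD 0,
    (univ.filter fun i => l.idxFun i = none).card, c, Nat.le_add_right _ _, ?_, ?_, fun j hj => ?_⟩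
  · obtain ⟨i, hi⟩ := l.proper
    exact Finset.card_pos.mpr ⟨i, by simp [hi]⟩
  · exact Finset.card_le_univ _
  · have := hc ⟨j, Nat.lt_succ_of_le hj⟩
    rw [← this, add_assoc]
    congr 2
    rw [mul_comm, Finset.card_filter, Finset.sum_mul, ← Finset.sum_add_distrib]
    refine Finset.sum_congr rfl fun i _ => ?_
    cases h : l.idxFun i <;> simp [h]

/-- Iterated forward differences. -/
def fdiff (h : ℝ) : ℕ → (ℝ → ℝ) → ℝ → ℝ
  | 0, g => g
  | n + 1, g => fdiff h n fun x => g (x + h) - g x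

/-- Iterated mean value theorem for forward differences. -/
theorem exists_fdiff_eq {h R : ℝ} (hh : 0 < h) :
    ∀ (n : ℕ) (d : ℕ → ℝ → ℝ), (∀ i x, R < x → HasDerivAt (d i) (d (i + 1) x) x) →
      ∀ a, R < a → ∃ ξ ∈ Set.Icc a (a + n * h), fdiff h n (d 0) a = h ^ n * d n ξ
  | 0, d, _, a, _ => ⟨a, by simp, by simp [fdiff]⟩
  | n + 1, d, hd, a, ha => by
    obtain ⟨ξ, hξ, he⟩ := exists_fdiff_eq hh n (fun i x => d i (x + h) - d i x)
      (fun i x hx => ((hd i (x + h) (by linarith)).comp_add_const x h).sub (hd i x hx)) a ha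
    have hR : ∀ x ∈ Set.Icc ξ (ξ + h), R < x := fun x hx =>
      lt_of_lt_of_le ha (hξ.1.trans hx.1)
    obtain ⟨η, hη, hslope⟩ := exists_hasDerivAt_eq_slope (d n) (d (n + 1)) (lt_add_of_pos_right ξ hh)
      (fun x hx => (hd n x (hR x hx)).continuousAt.continuousWithinAt)
      (fun x hx => hd n x (hR x ⟨hx.1.le, hx.2.le⟩))
    refine ⟨η, ⟨hξ.1.trans hη.1.le, ?_⟩, ?_⟩
    · push_cast
      linarith [hξ.2, hη.2]
    · rw [fdiff, he, hslope, add_sub_cancel_left, pow_succ]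
      field_simp

/-- An integer-valued function on a progression has integral differences. -/
theorem fdiff_mem_int (h : ℝ) : ∀ (n : ℕ) (g : ℝ → ℝ) (a : ℝ),
    (∀ j : ℕ, j ≤ n → ∃ z : ℤ, g (a + j * h) = z) → ∃ z : ℤ, fdiff h n g a = z
  | 0, g, a, hg => by simpa [fdiff] using hg 0 le_rfl
  | n + 1, g, a, hg => by
    refine fdiff_mem_int h n _ a fun j hj => ?_
    obtain ⟨z, hz⟩ := hg j (by omega)
    obtain ⟨w, hw⟩ := hg (j + 1) (by omega)
    refine ⟨w - z, ?_⟩
    have e : a + j * h + h = a + ((j + 1 : ℕ) : ℝ) * h := by push_cast; ring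
    rw [e, hw, hz]; push_cast; ring

/-- A function whose `n`-th derivative vanishes on a half-line is a polynomial there. -/
theorem exists_polynomial_of_deriv_zero {R : ℝ} :
    ∀ (n : ℕ) (d : ℕ → ℝ → ℝ), (∀ i x, R < x → HasDerivAt (d i) (d (i + 1) x) x) →
      (∀ x, R < x → d n x = 0) →
      ∃ c : ℕ → ℝ, ∀ x, R < x → d 0 x = ∑ i ∈ range n, c i * x ^ i
  | 0, d, _, h0 => ⟨0, fun x hx => by simpa using h0 x hx⟩
  | n + 1, d, hd, h0 => by
    obtain ⟨c, hc⟩ := exists_polynomial_of_deriv_zero n (fun i => d (i + 1))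
      (fun i x hx => hd (i + 1) x hx) h0
    set F : ℝ → ℝ := fun x => d 0 x - ∑ i ∈ range n, c i / (i + 1) * x ^ (i + 1) with hF
    have hF' : ∀ x ∈ Set.Ioi R, HasDerivAt F 0 x := fun x hx => by
      have hs : HasDerivAt (fun x : ℝ => ∑ i ∈ range n, c i / (i + 1) * x ^ (i + 1))
          (∑ i ∈ range n, c i * x ^ i) x := by
        refine HasDerivAt.fun_sum fun i _ => ?_
        have := (hasDerivAt_pow (i + 1) x).const_mul (c i / (i + 1))
        refine this.congr_deriv ?_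
        push_cast
        field_simp
      have := (hd 0 x hx).sub hs
      rwa [show d (0 + 1) x = ∑ i ∈ range n, c i * x ^ i from hc x hx, sub_self] at this
    have hconst : ∀ x, R < x → F x = F (R + 1) := fun x hx =>
      (isOpen_Ioi (a := R)).is_const_of_deriv_eq_zero isPreconnected_Ioi
        (fun y hy => (hF' y hy).differentiableAt.differentiableWithinAt)
        (fun y hy => (hF' y hy).deriv) hx (by simp : R + 1 ∈ Set.Ioi R)
    refine ⟨fun i => if i = 0 then F (R + 1) else c (i - 1) / i, fun x hx => ?_⟩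
    have := hconst x hx
    rw [hF] at this
    simp only [sub_eq_iff_eq_add] at this
    rw [Finset.sum_range_succ', this, add_comm]
    simp [hF]

/-- The auxiliary sequence computing the derivatives of `x ↦ x ^ N * φ (1 / x)`. -/
noncomputable def psiSeq (φ : ℝ → ℝ) (N : ℕ) : ℕ → ℝ → ℝ
  | 0 => φ
  | n + 1 => fun s => ((N : ℝ) - n) * psiSeq φ N n s - s * deriv (psiSeq φ N n) s

theorem analyticOnNhd_psiSeq {φ : ℝ → ℝ} {S : Set ℝ} (hφ : AnalyticOnNhd ℝ φ S) (N : ℕ) :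
    ∀ n, AnalyticOnNhd ℝ (psiSeq φ N n) S
  | 0 => hφ
  | n + 1 => fun x hx =>
    (analyticAt_const.mul (analyticOnNhd_psiSeq hφ N n x hx)).sub
      (analyticAt_id.mul (analyticOnNhd_psiSeq hφ N n x hx).deriv)

theorem hasDerivAt_zpow_mul_psiSeq {φ : ℝ → ℝ} {δ : ℝ} (hδ : 0 < δ)
    (hφ : AnalyticOnNhd ℝ φ (Set.Ioo (-δ) δ)) (N i : ℕ) {x : ℝ} (hx : 1 / δ < x) :
    HasDerivAt (fun x => x ^ ((N : ℤ) - i) * psiSeq φ N i x⁻¹)
      (x ^ ((N : ℤ) - (i + 1 : ℕ)) * psiSeq φ N (i + 1) x⁻¹) x := by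
  have hx0 : 0 < x := lt_trans (by positivity) hx
  have hmem : x⁻¹ ∈ Set.Ioo (-δ) δ := by
    refine ⟨lt_trans (neg_neg_of_pos hδ) (inv_pos.mpr hx0), ?_⟩
    rw [one_div] at hx
    exact inv_lt_of_inv_lt₀ hδ hx
  have h1 := hasDerivAt_zpow ((N : ℤ) - i) x (Or.inl hx0.ne')
  have h2 := ((analyticOnNhd_psiSeq hφ N i _ hmem).differentiableAt.hasDerivAt).comp x
    (hasDerivAt_inv hx0.ne')
  refine (h1.mul h2).congr_deriv ?_
  have e : (N : ℤ) - (i + 1 : ℕ) = (N : ℤ) - i - 1 := by push_cast; ring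
  simp only [psiSeq, e, zpow_sub₀ hx0.ne', zpow_one, Function.comp_apply]
  push_cast
  field_simp
  ring

/-- An analytic branch taking `z / k ^ N` values along progressions is a polynomial. -/
theorem exists_polynomial_of_progressions {φ : ℝ → ℝ} {δ : ℝ} (hδ : 0 < δ)
    (hφ : AnalyticOnNhd ℝ φ (Set.Ioo (-δ) δ)) (N H : ℕ)
    (hz : ∀ K : ℕ, ∃ a h : ℕ, K ≤ a ∧ 1 ≤ h ∧ h ≤ H ∧ ∀ j, j ≤ N + 1 →
      ∃ z : ℤ, φ (1 / (a + j * h : ℕ)) * ((a + j * h : ℕ) : ℝ) ^ N = z) :
    ∃ y : ℝ[X], ∀ᶠ s in 𝓝[>] 0, φ s = y.eval s := by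
  set ψ := psiSeq φ N (N + 1) with hψ
  set d : ℕ → ℝ → ℝ := fun i x => x ^ ((N : ℤ) - i) * psiSeq φ N i x⁻¹ with hd
  have hd' : ∀ i x, 1 / δ < x → HasDerivAt (d i) (d (i + 1) x) x := fun i x hx =>
    hasDerivAt_zpow_mul_psiSeq hδ hφ N i hx
  have h0 : (0 : ℝ) ∈ Set.Ioo (-δ) δ := ⟨by linarith, hδ⟩
  have hψ0 : AnalyticAt ℝ ψ 0 := analyticOnNhd_psiSeq hφ N (N + 1) 0 h0
  -- the top derivative tends to zero
  have htend : Tendsto (fun x => x⁻¹ * ψ x⁻¹) atTop (𝓝 0) := by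
    have h := (tendsto_inv_atTop_zero.mul
      (hψ0.continuousAt.tendsto.comp tendsto_inv_atTop_zero))
    simpa [Function.comp_def] using h
  -- frequently zero
  have hfreq : ∃ᶠ s in 𝓝[≠] (0 : ℝ), ψ s = 0 := by
    rw [Filter.frequently_iff]
    intro U hU
    obtain ⟨ε, hε, hεU⟩ := Metric.mem_nhdsWithin_iff.mp hU
    obtain ⟨B, hB⟩ := Filter.eventually_atTop.mp
      ((Metric.tendsto_nhds.mp htend (1 / ((H : ℝ) + 1) ^ (N + 1)) (by positivity)).and
        (eventually_gt_atTop (max (1 / δ) (max 1 (1 / ε)))))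
    obtain ⟨a, h, hKa, h1, hH, hj⟩ := hz (⌈B⌉₊ + 1)
    have haB : B < (a : ℝ) := lt_of_le_of_lt (Nat.le_ceil B) (by exact_mod_cast hKa)
    have haδ : 1 / δ < (a : ℝ) :=
      lt_of_le_of_lt (le_max_left _ _) ((hB (a : ℝ) haB.le).2)
    have hh : (0 : ℝ) < h := by exact_mod_cast h1
    obtain ⟨ξ, hξ, he⟩ := exists_fdiff_eq hh (N + 1) d hd' a haδ
    obtain ⟨z, hz'⟩ := fdiff_mem_int (h : ℝ) (N + 1) (d 0) a fun j hjN => by
      obtain ⟨z, hz'⟩ := hj j hjN
      refine ⟨z, ?_⟩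
      rw [← hz']
      simp only [hd, psiSeq, Nat.cast_zero, sub_zero, zpow_natCast]
      push_cast
      rw [one_div, mul_comm]
    obtain ⟨hsmall, hbig⟩ := hB ξ (haB.le.trans hξ.1)
    have hξ0 : 0 < ξ := lt_of_lt_of_le zero_lt_one
      ((le_max_of_le_right (le_max_left _ _)).trans hbig.le)
    have hdN : d (N + 1) ξ = ξ⁻¹ * ψ ξ⁻¹ := by
      simp only [hd, hψ]
      rw [show (N : ℤ) - (N + 1 : ℕ) = -1 by push_cast; ring, zpow_neg_one]
    have hz0 : z = 0 := by
      rw [Real.dist_0_eq_abs, ← hdN] at hsmall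
      have hzb : |(z : ℝ)| < 1 := by
        rw [← hz', he, abs_mul, abs_of_pos (pow_pos hh _)]
        calc (h : ℝ) ^ (N + 1) * |d (N + 1) ξ|
            ≤ ((H : ℝ) + 1) ^ (N + 1) * |d (N + 1) ξ| := by
              gcongr; exact_mod_cast (show h ≤ H + 1 by omega)
          _ < ((H : ℝ) + 1) ^ (N + 1) * (1 / ((H : ℝ) + 1) ^ (N + 1)) :=
              mul_lt_mul_of_pos_left hsmall (by positivity)
          _ = 1 := by field_simp
      exact Int.abs_lt_one_iff.mp (by exact_mod_cast hzb)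
    rw [hz', hz0, hdN, Int.cast_zero, eq_comm, mul_eq_zero, mul_eq_zero] at he
    refine ⟨ξ⁻¹, hεU ⟨?_, inv_ne_zero hξ0.ne'⟩,
      (he.resolve_left (pow_pos hh _).ne').resolve_left (inv_ne_zero hξ0.ne')⟩
    rw [Metric.mem_ball, Real.dist_0_eq_abs, abs_of_pos (inv_pos.mpr hξ0)]
    refine inv_lt_of_inv_lt₀ hε ?_
    rw [← one_div]
    exact lt_of_le_of_lt (le_max_of_le_right (le_max_right _ _)) hbig
  have hzero : ∀ᶠ s in 𝓝 (0 : ℝ), ψ s = 0 :=
    hψ0.frequently_zero_iff_eventually_zero.mp hfreq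
  obtain ⟨η, hη, hη0⟩ := Metric.eventually_nhds_iff.mp hzero
  set R := max (1 / δ) (1 / η) with hR
  have hRpos : 0 < R := lt_of_lt_of_le (by positivity : (0 : ℝ) < 1 / δ) (le_max_left _ _)
  obtain ⟨c, hc⟩ := exists_polynomial_of_deriv_zero (R := R) (N + 1) d
    (fun i x hx => hd' i x (lt_of_le_of_lt (le_max_left _ _) hx)) (fun x hx => by
      have hx0 : 0 < x := hRpos.trans hx
      have : ψ x⁻¹ = 0 := hη0 (by
        rw [Real.dist_0_eq_abs, abs_of_pos (inv_pos.mpr hx0)]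
        refine inv_lt_of_inv_lt₀ hη ?_
        rw [← one_div]
        exact lt_of_le_of_lt (le_max_right _ _) hx)
      simp only [hd, hψ] at this ⊢
      rw [this, mul_zero])
  refine ⟨∑ i ∈ range (N + 1), C (c i) * X ^ (N - i), ?_⟩
  filter_upwards [Ioo_mem_nhdsGT (inv_pos.mpr hRpos)] with s hs
  have h := hc s⁻¹ (lt_inv_of_lt_inv₀ hs.1 hs.2)
  simp only [hd, psiSeq, Nat.cast_zero, sub_zero, zpow_natCast, inv_inv] at h
  rw [eval_finsetSum]
  have hs0 : s ≠ 0 := hs.1.ne'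
  rw [show φ s = s ^ N * (s⁻¹ ^ N * φ s) by
      rw [← mul_assoc, ← mul_pow, mul_inv_cancel₀ hs0, one_pow, one_mul],
    h, Finset.mul_sum]
  refine Finset.sum_congr rfl fun i hi => ?_
  have hi' : i ≤ N := Nat.lt_succ_iff.mp (Finset.mem_range.mp hi)
  simp only [eval_mul, eval_C, eval_pow, eval_X]
  obtain ⟨j, rfl⟩ := Nat.exists_eq_add_of_le hi'
  rw [Nat.add_sub_cancel_left, pow_add, inv_pow]
  field_simp

theorem abs_le_of_monic_root (p : ℝ[X]) (hp : p.Monic) {y : ℝ} (hy : p.eval y = 0) :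
    |y| ≤ 1 + ∑ i ∈ range p.natDegree, |p.coeff i| := by
  set S := ∑ i ∈ range p.natDegree, |p.coeff i| with hS
  by_contra! h
  have hS0 : 0 ≤ S := Finset.sum_nonneg fun i _ => abs_nonneg _
  have hy1 : 1 < |y| := by linarith
  rcases Nat.eq_zero_or_pos p.natDegree with hn | hn
  · rw [hp.natDegree_eq_zero.mp hn] at hy
    simp at hy
  · obtain ⟨n, hn'⟩ : ∃ n, p.natDegree = n + 1 := ⟨p.natDegree - 1, by omega⟩
    rw [eval_eq_sum_range, Finset.sum_range_succ, hp.coeff_natDegree, one_mul,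
      add_eq_zero_iff_neg_eq] at hy
    have : |y| ^ (n + 1) ≤ S * |y| ^ n := by
      rw [← hn', ← abs_pow, ← hy, abs_neg, hn']
      refine (Finset.abs_sum_le_sum_abs _ _).trans ?_
      rw [hS, hn', Finset.sum_mul]
      refine Finset.sum_le_sum fun i hi => ?_
      rw [abs_mul, abs_pow]
      gcongr
      · exact hy1.le
      · exact Nat.lt_succ_iff.mp (Finset.mem_range.mp hi)
    rw [pow_succ'] at this
    have := le_of_mul_le_mul_right this (pow_pos (by linarith) n)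
    linarith

/-- The analytic branch of roots through a simple root at the origin. -/
theorem exists_branch (G : ℝ[X][X]) {r : ℝ} (hr : (G.map (evalRingHom 0)).eval r = 0)
    (hr' : (G.map (evalRingHom 0)).derivative.eval r ≠ 0) :
    ∃ φ : ℝ → ℝ, ∃ δ > 0, AnalyticOnNhd ℝ φ (Set.Ioo (-δ) δ) ∧
      (∀ s ∈ Set.Ioo (-δ) δ, G.evalEval s (φ s) = 0) ∧
      ∃ U : Set (ℝ × ℝ), IsOpen U ∧ (0, r) ∈ U ∧
        ∀ v ∈ U, G.evalEval v.1 v.2 = 0 → φ v.1 = v.2 := by
  set f : ℝ × ℝ → ℝ := fun v => G.evalEval v.1 v.2 with hf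
  have hfc : ContDiff ℝ ω f := by
    have e : f = fun v : ℝ × ℝ => ∑ i ∈ range (G.natDegree + 1), (G.coeff i).eval v.1 * v.2 ^ i := by
      funext v
      simp only [hf, evalEval, eval_eq_sum_range (p := G), eval_finsetSum, eval_mul, eval_pow,
        eval_C]
    rw [e]
    refine ContDiff.sum fun i _ => ((?_ : ContDiff ℝ ω _).mul (contDiff_snd.pow i))
    simp only [eval_eq_sum_range (p := G.coeff i)]
    exact ContDiff.sum fun j _ => contDiff_const.mul (contDiff_fst.pow j)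
  have hmap : ∀ y, f (0, y) = (G.map (evalRingHom 0)).eval y := fun y => by
    simp [hf, map_evalRingHom_eval]
  have cdf : ContDiffAt ℝ ω f (0, r) := hfc.contDiffAt
  have pn : (ω : ℕ∞ω) ≠ 0 := by simp
  have hpart : fderiv ℝ f (0, r) ∘L .inr ℝ ℝ ℝ
      = (ContinuousLinearEquiv.unitsEquivAut ℝ (Units.mk0 _ hr') : ℝ →L[ℝ] ℝ) := by
    have h1 : HasFDerivAt (fun y : ℝ => f (0, y)) (fderiv ℝ f (0, r) ∘L .inr ℝ ℝ ℝ) r :=
      (cdf.differentiableAt pn).hasFDerivAt.comp r (hasFDerivAt_prodMk_right _ _)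
    simp only [hmap] at h1
    have h2 := h1.hasDerivAt.unique ((G.map (evalRingHom 0)).hasDerivAt r)
    ext
    simpa using h2
  have if₂ : (fderiv ℝ f (0, r) ∘L .inr ℝ ℝ ℝ).IsInvertible := by
    rw [hpart]; exact ContinuousLinearMap.isInvertible_equiv
  set φ := cdf.implicitFunction pn if₂ with hφdef
  have hφa : AnalyticAt ℝ φ 0 := (cdf.contDiffAt_implicitFunction pn if₂).analyticAt
  have hev : ∀ᶠ s in 𝓝 (0 : ℝ), AnalyticAt ℝ φ s ∧ f (s, φ s) = 0 := by
    refine hφa.eventually_analyticAt.and ?_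
    filter_upwards [cdf.eventually_apply_implicitFunction pn if₂] with s hs
    rw [hs, hmap, hr]
  obtain ⟨δ, hδ, hball⟩ := Metric.eventually_nhds_iff.mp hev
  obtain ⟨U, hU, hUo, hUr⟩ :=
    eventually_nhds_iff.mp (cdf.eventually_apply_eq_iff_implicitFunction pn if₂)
  refine ⟨φ, δ, hδ, fun s hs => (hball ?_).1, fun s hs => (hball ?_).2, U, hUo, hUr,
    fun v hv hv0 => (hU v hv).mp (by rw [hmap, hr]; exact hv0)⟩ <;>
  · rw [Real.dist_0_eq_abs, abs_lt]; exact hs

/-- Rational roots of bounded denominator at all large parameters force a polynomial root. -/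
theorem exists_polynomial_root (G : ℝ[X][X]) (hG : G.Monic)
    (hsep : (G.map (evalRingHom 0)).Separable) (N : ℕ)
    (hroot : ∀ᶠ k : ℕ in atTop, ∃ z : ℤ, G.evalEval (1 / (k : ℝ)) (z / (k : ℝ) ^ N) = 0) :
    ∃ y : ℝ[X], G.eval y = 0 := by
  classical
  set G₀ := G.map (evalRingHom 0) with hG₀
  have hG₀0 : G₀ ≠ 0 := (hG.map _).ne_zero
  let κ : Type := {r : ℝ // r ∈ G₀.roots.toFinset}
  have hκ : ∀ r : κ, G₀.eval r.1 = 0 ∧ G₀.derivative.eval r.1 ≠ 0 := fun r => by
    have hr : G₀.eval r.1 = 0 := ((mem_roots hG₀0).mp (Multiset.mem_toFinset.mp r.2))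
    refine ⟨hr, fun h' => ?_⟩
    obtain ⟨a, b, hab⟩ := hsep
    have := congrArg (eval r.1) hab
    simp [hr, h'] at this
  choose φ δ hδ han hval U hUo hUr huniq using fun r : κ => exists_branch G (hκ r).1 (hκ r).2
  -- every root over a small parameter lies on a branch
  obtain ⟨B, hB⟩ : ∃ B : ℝ, ∀ s ∈ Set.Icc (0 : ℝ) 1, ∀ y, G.evalEval s y = 0 → |y| ≤ B := by
    obtain ⟨B, hB⟩ := (isCompact_Icc (a := (0 : ℝ)) (b := 1)).exists_bound_of_continuousOn
      (f := fun s => ∑ i ∈ range G.natDegree, |(G.coeff i).eval s|)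
      (continuous_finsetSum _ fun i _ => ((G.coeff i).continuous).abs).continuousOn
    refine ⟨1 + B, fun s hs y hy => ?_⟩
    have h := abs_le_of_monic_root (G.map (evalRingHom s)) (hG.map _) (y := y)
      (by rw [map_evalRingHom_eval]; exact hy)
    rw [hG.natDegree_map] at h
    simp only [coeff_map, coe_evalRingHom] at h
    have hb := hB s hs
    rw [Real.norm_eq_abs, abs_of_nonneg (Finset.sum_nonneg fun i _ => abs_nonneg _)] at hb
    linarith
  have hfcont : Continuous fun v : ℝ × ℝ => G.evalEval v.1 v.2 := by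
    have e : (fun v : ℝ × ℝ => G.evalEval v.1 v.2)
        = fun v => ∑ i ∈ range (G.natDegree + 1), (G.coeff i).eval v.1 * v.2 ^ i := by
      funext v
      simp only [evalEval, eval_eq_sum_range (p := G), eval_finsetSum, eval_mul, eval_pow, eval_C]
    rw [e]
    exact continuous_finsetSum _ fun i _ =>
      ((G.coeff i).continuous.comp continuous_fst).mul (continuous_snd.pow i)
  set T : Set (ℝ × ℝ) := (Set.Icc (0 : ℝ) 1 ×ˢ Set.Icc (-B) B ∩
    {v | G.evalEval v.1 v.2 = 0}) \ ⋃ r, U r with hT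
  have hTc : IsCompact T :=
    (((isCompact_Icc.prod isCompact_Icc).inter_right
      (isClosed_eq hfcont continuous_const))).diff (isOpen_iUnion hUo)
  have h0T : (0 : ℝ) ∉ Prod.fst '' T := by
    rintro ⟨⟨s, y⟩, ⟨⟨-, hy⟩, hnU⟩, rfl : s = 0⟩
    have hy' : G₀.eval y = 0 := by rw [hG₀, map_evalRingHom_eval]; exact hy
    exact hnU (Set.mem_iUnion.mpr
      ⟨⟨y, Multiset.mem_toFinset.mpr ((mem_roots hG₀0).mpr hy')⟩, hUr _⟩)
  obtain ⟨ε, hε, hεT⟩ :=
    Metric.isOpen_iff.mp (hTc.image continuous_fst).isClosed.isOpen_compl 0 h0T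
  -- colour the large parameters by their branch
  have hcol : ∀ᶠ k : ℕ in atTop, ∃ r : κ, ∃ z : ℤ, φ r (1 / (k : ℝ)) * (k : ℝ) ^ N = z := by
    obtain ⟨K₀, hK₀⟩ := exists_nat_gt (1 / ε)
    filter_upwards [hroot, eventually_ge_atTop (K₀ + 1)] with k ⟨z, hz⟩ hk
    have hk0 : (0 : ℝ) < k := by exact_mod_cast (show 0 < k by omega)
    have hk1 : (1 : ℝ) ≤ k := by exact_mod_cast (show 1 ≤ k by omega)
    have hs : (1 / (k : ℝ)) ∈ Set.Icc (0 : ℝ) 1 := ⟨by positivity, (div_le_one hk0).mpr hk1⟩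
    set y : ℝ := z / (k : ℝ) ^ N with hy
    have hyB := hB _ hs y hz
    by_cases hU : ∃ r, ((1 / (k : ℝ)), y) ∈ U r
    · obtain ⟨r, hr⟩ := hU
      refine ⟨r, z, ?_⟩
      rw [huniq r _ hr hz, hy]
      field_simp
    · exfalso
      have hmem : ((1 / (k : ℝ)), y) ∈ T :=
        ⟨⟨⟨hs, abs_le.mp hyB⟩, hz⟩, fun h => hU (Set.mem_iUnion.mp h)⟩
      refine hεT ?_ ⟨_, hmem, rfl⟩
      rw [Metric.mem_ball, Real.dist_0_eq_abs, abs_of_pos (by positivity), div_lt_iff₀ hk0]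
      have : 1 / ε < k := hK₀.trans_le (by exact_mod_cast (show K₀ ≤ k by omega))
      rw [div_lt_iff₀ hε] at this
      linarith
  obtain ⟨K, hK⟩ := eventually_atTop.mp hcol
  have : Nonempty κ := ⟨(hK K le_rfl).choose⟩
  let col : ℕ → κ := fun k => if h : K ≤ k then (hK k h).choose else Classical.arbitrary κ
  obtain ⟨H, hH⟩ := exists_progression κ (N + 1)
  choose a h c ha h1 hhH hmono using fun M : ℕ => hH col (K + M)
  obtain ⟨r, hr⟩ := Finite.exists_infinite_fiber c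
  rw [Set.infinite_coe_iff] at hr
  obtain ⟨y, hy⟩ := exists_polynomial_of_progressions (hδ r) (han r) N H fun M => by
    obtain ⟨M', hM', hMM'⟩ := hr.exists_gt M
    refine ⟨a M', h M', ?_, h1 M', hhH M', fun j hj => ?_⟩
    · have := ha M'; omega
    · have hge : K ≤ a M' + j * h M' := by have := ha M'; omega
      have hcr : col (a M' + j * h M') = r := (hmono M' j hj).trans hM'
      simp only [col, dif_pos hge] at hcr
      exact hcr ▸ (hK _ hge).choose_spec
  refine ⟨y, Polynomial.eq_zero_of_infinite_isRoot _ ?_⟩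
  obtain ⟨u, hu, hsub⟩ := mem_nhdsGT_iff_exists_Ioo_subset.mp
    (inter_mem hy (Ioo_mem_nhdsGT (hδ r)))
  refine Set.Infinite.mono (fun s hs => ?_) (Set.Ioo_infinite hu)
  obtain ⟨hs1, hs2⟩ := hsub hs
  show eval s (eval y G) = 0
  have h := hval r s ⟨by linarith [hs2.1, hδ r], hs2.2⟩
  rw [Set.mem_ofPred_eq] at hs1
  rw [hs1, ← map_evalRingHom_eval, Polynomial.eval_map] at h
  rw [← coe_evalRingHom, ← eval₂_at_apply]
  exact h

end Fermat.Agent.Switch35
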