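import Fermat.Agent.Switch35.Forms
import Mathlib.Tactic.LinearCombination

/-!
# Coefficient lists for verified polynomial identities

Arithmetic on integer coefficient lists of polynomials in one and two variables, and their
evaluation in a commutative ring.
-/

set_option autoImplicit false

namespace Fermat.Agent.Switch35

namespace Reflect

variable {R : Type*} [CommRing R]

/-- Horner evaluation. -/
def hv : List R → R → R
  | [], _ => 0
  | c :: cs, t => c + t * hv cs t

/-- Addition of coefficient lists. -/
def padd : List ℤ → List ℤ → List ℤ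
  | [], ys => ys
  | x :: xs, [] => x :: xs
  | x :: xs, y :: ys => (x + y) :: padd xs ys

/-- Multiplication of a coefficient list by an integer. -/
def pscale (c : ℤ) (xs : List ℤ) : List ℤ := xs.map (c * ·)

/-- Multiplication of coefficient lists. -/
def pmul : List ℤ → List ℤ → List ℤ
  | [], _ => []
  | x :: xs, ys => padd (pscale x ys) (0 :: pmul xs ys)

/-- Powers of a coefficient list. -/
def ppow (xs : List ℤ) : ℕ → List ℤ
  | 0 => [1]
  | n + 1 => pmul (ppow xs n) xs

/-- Addition of bivariate coefficient lists. -/
def badd : List (List ℤ) → List (List ℤ) → List (List ℤ)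
  | [], ys => ys
  | x :: xs, [] => x :: xs
  | x :: xs, y :: ys => padd x y :: badd xs ys

/-- Multiplication of a bivariate coefficient list by a univariate one. -/
def bscale (c : List ℤ) (xs : List (List ℤ)) : List (List ℤ) := xs.map (pmul c)

/-- Multiplication of bivariate coefficient lists. -/
def bmul : List (List ℤ) → List (List ℤ) → List (List ℤ)
  | [], _ => []
  | x :: xs, ys => badd (bscale x ys) ([] :: bmul xs ys)

/-- Evaluation of a coefficient list. -/
def pev (r : R) (xs : List ℤ) : R := hv (xs.map (Int.cast : ℤ → R)) r

/-- Evaluation of a bivariate coefficient list. -/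
def bev (r t : R) (xs : List (List ℤ)) : R := hv (xs.map (pev r)) t

variable (r t : R)

theorem pev_padd : ∀ xs ys, pev r (padd xs ys) = pev r xs + pev r ys
  | [], ys => by simp [padd, pev, hv]
  | x :: xs, [] => by simp [padd, pev, hv]
  | x :: xs, y :: ys => by
      have ih := pev_padd xs ys
      simp [padd, pev, hv] at ih ⊢
      rw [ih]; ring

theorem pev_pscale (c : ℤ) : ∀ xs, pev r (pscale c xs) = c * pev r xs
  | [] => by simp [pscale, pev, hv]
  | x :: xs => by
      have ih := pev_pscale c xs
      simp [pscale, pev, hv, List.map_map] at ih ⊢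
      rw [ih]; ring

theorem pev_pmul : ∀ xs ys, pev r (pmul xs ys) = pev r xs * pev r ys
  | [], ys => by simp [pmul, pev, hv]
  | x :: xs, ys => by
      have ih := pev_pmul xs ys
      rw [pmul, pev_padd, pev_pscale]
      simp [pev, hv] at ih ⊢
      rw [ih]; ring

theorem pev_ppow (xs : List ℤ) : ∀ n, pev r (ppow xs n) = pev r xs ^ n
  | 0 => by simp [ppow, pev, hv]
  | n + 1 => by rw [ppow, pev_pmul, pev_ppow xs n, pow_succ]

/-- Evaluation turns `badd` into addition. -/
theorem bev_badd : ∀ xs ys, bev r t (badd xs ys) = bev r t xs + bev r t ys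
  | [], ys => by simp [badd, bev, hv]
  | x :: xs, [] => by simp [badd, bev, hv]
  | x :: xs, y :: ys => by
      have ih := bev_badd xs ys
      simp [badd, bev, hv, pev_padd] at ih ⊢
      rw [ih]; ring

/-- Evaluation turns `bscale` into scaling. -/
theorem bev_bscale (c : List ℤ) : ∀ xs, bev r t (bscale c xs) = pev r c * bev r t xs
  | [] => by simp [bscale, bev, hv]
  | x :: xs => by
      have ih := bev_bscale c xs
      simp [bscale, bev, hv, List.map_map, pev_pmul] at ih ⊢
      rw [ih]; ring

/-- Evaluation turns `bmul` into multiplication. -/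
theorem bev_bmul : ∀ xs ys, bev r t (bmul xs ys) = bev r t xs * bev r t ys
  | [], ys => by simp [bmul, bev, hv]
  | x :: xs, ys => by
      have ih := bev_bmul xs ys
      rw [bmul, bev_badd, bev_bscale]
      simp [bev, hv, pev] at ih ⊢
      rw [ih]; ring

/-- The coefficients of `fC4 r 1`. -/
def c4R : List ℤ := [1, 12, 14, -12, 1]

/-- The coefficients of `fC6 r 1`. -/
def c6R : List ℤ := [-1, -18, -75, 0, -75, 18, -1]

/-- The coefficient list in `r` of a row of a family table. -/
def rowR : List (ℤ × ℕ × ℕ) → List ℤ
  | [] => []
  | x :: xs => padd (pscale x.1 (pmul (ppow c4R x.2.1) (ppow c6R x.2.2))) (rowR xs)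

theorem pev_rowR : ∀ xs, pev r (rowR xs) = rowMon xs (fC4 r 1) (fC6 r 1)
  | [] => by simp [rowR, rowMon, pev, hv]
  | x :: xs => by
      have h4 : pev r c4R = fC4 r 1 := by simp [pev, hv, c4R, fC4]; ring
      have h6 : pev r c6R = fC6 r 1 := by simp [pev, hv, c6R, fC6]; ring
      rw [rowR, pev_padd, pev_pscale, pev_pmul, pev_ppow, pev_ppow, pev_rowR xs, h4, h6]
      simp [rowMon]

theorem homog_one (xs : List R) (n : ℕ) : homog n xs 1 t = hv xs t := by
  induction xs generalizing n with
  | nil => simp [homog, hv]
  | cons c cs ih => simp [homog, hv, ih]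

/-- A reified table of forms evaluates to the homogeneous form in the chart. -/
theorem bev_tab (tab : List (ℕ × List ℤ)) (n : ℕ) :
    bev r t (tab.map Prod.snd) = homog n (tab.map fun x => rowForm x r 1) 1 t := by
  rw [homog_one, bev, List.map_map]
  congr 1
  apply List.map_congr_left
  intro x _
  simp [rowForm, homog_one, pev]

/-- A reified table of monomials in `(c₄, c₆)` evaluates to the member in the chart. -/
theorem bev_fam (tab : List (List (ℤ × ℕ × ℕ))) (n : ℕ) :
    bev r t (tab.map rowR)
      = homog n (tab.map fun x => rowMon x (fC4 r 1) (fC6 r 1)) 1 t := by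
  rw [homog_one, bev, List.map_map]
  congr 1
  apply List.map_congr_left
  intro x _
  simp [pev_rowR]

/-- The dehomogenized first lift. -/
def bP : List (List ℤ) := tabP.map Prod.snd

/-- The dehomogenized second lift. -/
def bQ : List (List ℤ) := tabQ.map Prod.snd

/-- Multiplication of a bivariate coefficient list by an integer. -/
def bc (c : ℤ) (xs : List (List ℤ)) : List (List ℤ) := bscale [c] xs

/-- All coefficients vanish. -/
def isNull (xs : List (List ℤ)) : Bool := xs.all fun ys => ys.all (· == 0)

/-- A null bivariate list evaluates to zero. -/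
theorem bev_isNull (xs : List (List ℤ)) (h : isNull xs = true) : bev r t xs = 0 := by
  induction xs with
  | nil => simp [bev, hv]
  | cons x xs ih =>
    simp [isNull] at h ih
    have hx : pev r x = 0 := by
      have h1 := h.1
      clear h ih
      induction x with
      | nil => simp [pev, hv]
      | cons y ys ihy =>
        simp at h1
        have := ihy h1.2
        simp [pev, hv] at this ⊢
        simp [h1.1, this]
    have := ih h.2
    simp [bev, hv] at this ⊢
    simp [hx, this]

end Reflect

end Fermat.Agent.Switch35
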